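import Fermat.Agent.GR.D.HorizQbar
import Fermat.Agent.GR.S.Bridge
import Fermat.Agent.GR.C.Finite

/-!
# GR-D, input (H) for the base function `j`

* `ord_jF_sub_le_one`, `ord_jF_inv_sub_le_one`: `FF ℚ̄ N / ℚ̄(j)` is unramified outside `0, 1728, ∞`;
* `ord_jF_dvd_three'`, `ord_jF_sub_dvd_two'`: ramification indices over `0`, `1728`;
* `transcendental_jF`, `finiteDimensional_FF` for every field of characteristic zero, and the same
  for every `t` with `j ∈ K(t)`.
-/

set_option autoImplicit false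
set_option synthInstance.maxHeartbeats 400000

noncomputable section

namespace Fermat.Agent.GR.D

open AlgebraicCurve IntermediateField ModularCurve Fermat.Agent.S24.Zeros

/-- `ℚ̄`. -/
abbrev Qb : Type := AlgebraicClosure ℚ

theorem coe_S24_jF (N : ℕ) : ((S24.jF N : S24.FF N) : LaurentSeries Qb) = jqModC Qb := by
  show coeffEmb Qb jq = jqModC Qb
  have h1 : (jq : LaurentSeries ℚ) = jqModC ℚ := rfl
  rw [h1, coeffEmb, coeffMap_jqModC]

/-- transport of statements about `(F, j)` from `modularFunctionFieldBar N` to `FF ℚ̄ N`. -/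
theorem transport_bar (N : ℕ)
    (P : ∀ (E : IntermediateField Qb (LaurentSeries Qb)), E → Prop)
    (h : P (modularFunctionFieldBar N) (S24.jF N)) : P (FF Qb N) (C.jF Qb N) := by
  have key : ∀ (E : IntermediateField Qb (LaurentSeries Qb)) (_ : modularFunctionFieldBar N = E)
      (x : E), (x : LaurentSeries Qb) = jqModC Qb → P E x := by
    intro E hE x hx
    subst hE
    have : x = S24.jF N := Subtype.ext (by rw [hx, coe_S24_jF])
    rw [this]
    exact h
  exact key _ (S.bar_eq_FF N) _ rfl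

theorem ord_jF_sub_eq_one' (N : ℕ) [NeZero N] (v : Place Qb (FF Qb N)) (c : Qb) (h0 : c ≠ 0)
    (h1 : c ≠ 1728) (hv : 0 < v.ord (C.jF Qb N - algebraMap Qb (FF Qb N) c)) :
    v.ord (C.jF Qb N - algebraMap Qb (FF Qb N) c) = 1 :=
  transport_bar N (fun E x => ∀ (v : Place Qb E), 0 < v.ord (x - algebraMap Qb E c) →
    v.ord (x - algebraMap Qb E c) = 1) (fun v hv => ord_jF_sub_eq_one N c h0 h1 v hv) v hv

theorem ord_jF_dvd_three' (N : ℕ) [NeZero N] (v : Place Qb (FF Qb N))
    (hv : 0 < v.ord (C.jF Qb N)) : v.ord (C.jF Qb N) ∣ 3 :=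
  transport_bar N (fun E x => ∀ (v : Place Qb E), 0 < v.ord x → v.ord x ∣ 3)
    (fun v hv => ord_jF_dvd_three N v hv) v hv

theorem ord_jF_sub_dvd_two' (N : ℕ) [NeZero N] (v : Place Qb (FF Qb N))
    (hv : 0 < v.ord (C.jF Qb N - algebraMap Qb (FF Qb N) 1728)) :
    v.ord (C.jF Qb N - algebraMap Qb (FF Qb N) 1728) ∣ 2 :=
  transport_bar N (fun E x => ∀ (v : Place Qb E), 0 < v.ord (x - algebraMap Qb E 1728) →
    v.ord (x - algebraMap Qb E 1728) ∣ 2) (fun v hv => ord_jF_sub_dvd_two N v hv) v hv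

/-- (H1) -/
theorem ord_jF_sub_le_one (N : ℕ) [NeZero N] (v : Place Qb (FF Qb N)) (c : Qb) (h0 : c ≠ 0)
    (h1 : c ≠ 1728) : v.ord (C.jF Qb N - algebraMap Qb (FF Qb N) c) ≤ 1 := by
  by_cases hv : 0 < v.ord (C.jF Qb N - algebraMap Qb (FF Qb N) c)
  · exact (ord_jF_sub_eq_one' N v c h0 h1 hv).le
  · omega

/-- passage to the chart at infinity. -/
theorem ord_inv_sub_le_one {K F : Type*} [Field K] [Field F] [Algebra K F] (v : Place K F) (t : F)
    (c : K) (hc : c ≠ 0) (h : v.ord (t - algebraMap K F c⁻¹) ≤ 1) :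
    v.ord (t⁻¹ - algebraMap K F c) ≤ 1 := by
  by_cases hv : 0 < v.ord (t⁻¹ - algebraMap K F c)
  swap
  · omega
  have hcF : algebraMap K F c ≠ 0 := (map_ne_zero _).2 hc
  have ht0 : t ≠ 0 := by
    rintro rfl
    rw [inv_zero, zero_sub, ← map_neg, ord_algebraMap] at hv
    exact lt_irrefl _ hv
  have hord : v.ord t⁻¹ = 0 := by
    have e : t⁻¹ = algebraMap K F c + (t⁻¹ - algebraMap K F c) := by ring
    rw [e, ord_add_eq_of_lt v (by rw [ord_algebraMap]; exact hv) hcF, ord_algebraMap]
  have hsub : t - algebraMap K F c⁻¹ ≠ 0 := by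
    intro h'
    have : t⁻¹ - algebraMap K F c = 0 := by
      rw [sub_eq_zero] at h' ⊢
      rw [h', map_inv₀, inv_inv]
    rw [this] at hv
    simp at hv
  have e : t⁻¹ - algebraMap K F c = algebraMap K F (-c) * t⁻¹ * (t - algebraMap K F c⁻¹) := by
    rw [map_neg, map_inv₀]
    field_simp
    ring
  rw [e, v.ord_mul (mul_ne_zero ((map_ne_zero _).2 (neg_ne_zero.2 hc)) (inv_ne_zero ht0)) hsub,
    v.ord_mul ((map_ne_zero _).2 (neg_ne_zero.2 hc)) (inv_ne_zero ht0), ord_algebraMap, hord]
  omega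

theorem ord_jF_inv_sub_le_one (N : ℕ) [NeZero N] (v : Place Qb (FF Qb N)) (c : Qb) (h0 : c ≠ 0)
    (h1 : c ≠ 1 / 1728) : v.ord ((C.jF Qb N)⁻¹ - algebraMap Qb (FF Qb N) c) ≤ 1 := by
  refine ord_inv_sub_le_one v _ c h0 (ord_jF_sub_le_one N v c⁻¹ (inv_ne_zero h0) ?_)
  intro h
  apply h1
  rw [← inv_inv c, h]
  norm_num

/-! ### (H0): transcendence and finiteness over any field of characteristic zero -/

theorem transcendental_jF (K : Type*) [Field K] (N : ℕ) : Transcendental K (C.jF K N) := by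
  rw [← transcendental_algebraMap_iff (algebraMap (FF K N) (LaurentSeries K)).injective]
  exact C.finite_transcendental_jqModC K

/-- the generators `j(q^d)` of the function field, as elements of the function field. -/
def genSet (K : Type*) [Field K] (N : ℕ) : Set (FF K N) :=
  {x | (x : LaurentSeries K) ∈ divisorExpansionsC K N}

theorem finite_genSet (K : Type*) [Field K] (N : ℕ) [NeZero N] : (genSet K N).Finite :=
  Set.Finite.preimage (Subtype.val_injective.injOn) (C.finite_divisorExpansionsC K N)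

theorem adjoin_genSet_eq_top (K : Type*) [Field K] (N : ℕ) (E0 : IntermediateField K (FF K N)) :
    adjoin E0 (genSet K N) = ⊤ := by
  rw [eq_top_iff]
  have key : ∀ y : LaurentSeries K, y ∈ FF K N → ∀ hy : y ∈ FF K N,
      (⟨y, hy⟩ : FF K N) ∈ adjoin E0 (genSet K N) := by
    intro y hy
    induction hy using IntermediateField.adjoin_induction with
    | mem x hx => exact fun hy => subset_adjoin _ _ hx
    | algebraMap a =>
      intro hy
      have : (⟨algebraMap K (LaurentSeries K) a, hy⟩ : FF K N) =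
          algebraMap E0 (FF K N) (algebraMap K E0 a) := rfl
      rw [this]
      exact IntermediateField.algebraMap_mem _ _
    | add x y hx hy h1 h2 =>
      intro h
      have : (⟨x + y, h⟩ : FF K N) = ⟨x, hx⟩ + ⟨y, hy⟩ := rfl
      rw [this]
      exact add_mem (h1 hx) (h2 hy)
    | inv x hx h1 =>
      intro h
      have : (⟨x⁻¹, h⟩ : FF K N) = (⟨x, hx⟩ : FF K N)⁻¹ := rfl
      rw [this]
      exact inv_mem (h1 hx)
    | mul x y hx hy h1 h2 =>
      intro h
      have : (⟨x * y, h⟩ : FF K N) = ⟨x, hx⟩ * ⟨y, hy⟩ := rfl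
      rw [this]
      exact mul_mem (h1 hx) (h2 hy)
  intro x _
  exact key x x.2 x.2

theorem isIntegral_genSet (K : Type*) [Field K] [CharZero K] (N : ℕ) (x : FF K N)
    (hx : x ∈ genSet K N) : IsIntegral K⟮C.jF K N⟯ x := by
  obtain ⟨d, hd, -, hxd⟩ := hx
  obtain ⟨P, hP0, hPev⟩ := C.finite_relation K d
  let φ : Polynomial K →+* K⟮C.jF K N⟯ :=
    (Polynomial.aeval (AdjoinSimple.gen K (C.jF K N))).toRingHom
  have hφ : Function.Injective φ := by
    have h1 : Transcendental K (AdjoinSimple.gen K (C.jF K N)) := by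
      rw [← transcendental_algebraMap_iff (algebraMap K⟮C.jF K N⟯ (FF K N)).injective,
        AdjoinSimple.algebraMap_gen]
      exact transcendental_jF K N
    exact transcendental_iff_injective.1 h1
  have hQ0 : P.map φ ≠ 0 := (Polynomial.map_ne_zero_iff hφ).2 hP0
  apply IsAlgebraic.isIntegral
  refine ⟨P.map φ, hQ0, ?_⟩
  apply (algebraMap (FF K N) (LaurentSeries K)).injective
  rw [map_zero, Polynomial.aeval_def, Polynomial.eval₂_map, Polynomial.hom_eval₂]
  have h2 : (algebraMap (FF K N) (LaurentSeries K)).comp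
      ((algebraMap K⟮C.jF K N⟯ (FF K N)).comp φ) =
      Polynomial.eval₂RingHom (algebraMap K (LaurentSeries K)) (jqModC K) := by
    apply Polynomial.ringHom_ext
    · intro c
      simp [φ]
    · have h4 : φ Polynomial.X = AdjoinSimple.gen K (C.jF K N) := Polynomial.aeval_X _
      rw [RingHom.comp_apply, RingHom.comp_apply, h4, AdjoinSimple.algebraMap_gen,
        Polynomial.coe_eval₂RingHom, Polynomial.eval₂_X]
      rfl
  rw [h2]
  have h3 : algebraMap (FF K N) (LaurentSeries K) x = jqNModC K d := hxd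
  rw [h3]
  exact hPev

/-- (H0) `FF K N` is finite over `K(j)`. -/
theorem finiteDimensional_FF (K : Type*) [Field K] [CharZero K] (N : ℕ) [NeZero N] :
    FiniteDimensional K⟮C.jF K N⟯ (FF K N) := by
  have : Finite (genSet K N) := (finite_genSet K N).to_subtype
  have h1 : FiniteDimensional K⟮C.jF K N⟯ (adjoin K⟮C.jF K N⟯ (genSet K N)) :=
    IntermediateField.finiteDimensional_adjoin (fun x hx => isIntegral_genSet K N x hx)
  rw [adjoin_genSet_eq_top] at h1
  exact Module.Finite.equiv (IntermediateField.topEquiv (F := K⟮C.jF K N⟯) (E := FF K N)).toLinearEquiv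

/-- (H0) `FF K N` is finite over `K(t)` for every transcendental `t`. -/
theorem finiteDimensional_FF_of_transcendental (K : Type*) [Field K] [CharZero K] (N : ℕ)
    [NeZero N] {t : FF K N} (ht : Transcendental K t) : FiniteDimensional K⟮t⟯ (FF K N) :=
  finiteDimensional_adjoin_of_transcendental (finiteDimensional_FF K N) ht

/-- if `j ∈ K(t)` then `t` is transcendental. -/
theorem transcendental_of_mem_adjoin {K F : Type*} [Field K] [Field F] [Algebra K F] {j t : F}
    (hj : Transcendental K j) (h : j ∈ K⟮t⟯) : Transcendental K t := by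
  intro ht
  apply hj
  have := isAlgebraic_adjoin_simple ht.isIntegral
  have h2 : IsAlgebraic K (⟨j, h⟩ : K⟮t⟯) := Algebra.IsAlgebraic.isAlgebraic _
  exact (isAlgebraic_algebraMap_iff (algebraMap K⟮t⟯ F).injective).2 h2

/-- transcendence is preserved by base change of the constants. -/
theorem transcendental_bc {K K' : Type*} [Field K] [Field K'] (φ : K →+* K') (N : ℕ)
    {t : FF K N} (hj : C.jF K N ∈ K⟮t⟯) : Transcendental K' (C.bc N φ t) := by
  apply transcendental_of_mem_adjoin (transcendental_jF K' N)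
  obtain ⟨r, s, hrs⟩ := (mem_adjoin_simple_iff K _).1 hj
  rw [← C.bc_jF N φ, hrs, map_div₀]
  have key : ∀ r : Polynomial K, C.bc N φ (Polynomial.aeval t r) =
      Polynomial.aeval (C.bc N φ t) (r.map φ) := by
    intro r
    rw [Polynomial.aeval_def, Polynomial.hom_eval₂, Polynomial.aeval_def, Polynomial.eval₂_map]
    congr 1
    exact RingHom.ext fun a => C.bc_algebraMap N φ a
  rw [key, key]
  have hmem : ∀ r : Polynomial K', Polynomial.aeval (C.bc N φ t) r ∈ K'⟮C.bc N φ t⟯ := fun r =>
    algebra_adjoin_le_adjoin K' _ (Polynomial.aeval_mem_adjoin_singleton K' _)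
  exact div_mem (hmem _) (hmem _)

end Fermat.Agent.GR.D
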