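import Fermat.Agent.GR.D.HauptBase
import Fermat.Agent.GR.Defs
import Fermat.Agent.S28.NP

/-!
# GR-D, Hauptmodul package: from integer power series to Laurent series over any ring
-/

set_option autoImplicit false

namespace Fermat.Agent.GR.D.Haupt

open ModularCurve

noncomputable section

variable (R : Type*) [CommRing R]

/-- the ring homomorphism `ℤ⟦X⟧ → R((q))`. -/
def toL : PowerSeries ℤ →+* LaurentSeries R :=
  (HahnSeries.ofPowerSeries ℤ R).comp (PowerSeries.map (Int.castRingHom R))

theorem toL_apply (u : PowerSeries ℤ) :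
    toL R u = HahnSeries.ofPowerSeries ℤ R (u.map (Int.castRingHom R)) := rfl

theorem toL_coeff_nat (u : PowerSeries ℤ) (n : ℕ) :
    (toL R u).coeff (n : ℤ) = ((PowerSeries.coeff n u : ℤ) : R) := by
  rw [toL_apply, HahnSeries.ofPowerSeries_apply_coeff, PowerSeries.coeff_map]
  rfl

theorem toL_coeff_neg (u : PowerSeries ℤ) {k : ℤ} (hk : k < 0) : (toL R u).coeff k = 0 :=
  ofPowerSeries_coeff_of_neg _ hk

theorem toL_X : toL R PowerSeries.X = HahnSeries.single 1 1 := by
  rw [toL_apply, PowerSeries.map_X, HahnSeries.ofPowerSeries_X]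

variable {R} in
theorem coeffMap_toL {S : Type*} [CommRing S] (f : R →+* S) (u : PowerSeries ℤ) :
    coeffMap f (toL R u) = toL S u := by
  rw [toL_apply, coeffMap_ofPowerSeries, toL_apply,
    ← RingHom.comp_apply (PowerSeries.map f) (PowerSeries.map (Int.castRingHom R)),
    ← PowerSeries.map_comp, RingHom.ext_int (f.comp (Int.castRingHom R)) (Int.castRingHom S)]

theorem qExpand_toL (r : ℕ) [NeZero r] (u : PowerSeries ℤ) :
    qExpand R r (toL R u) = toL R (PowerSeries.expand r (NeZero.ne r) u) := by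
  ext k
  by_cases hk : (r : ℤ) ∣ k
  · obtain ⟨m, rfl⟩ := hk
    rw [qExpand_coeff_mul]
    rcases le_or_gt 0 m with hm | hm
    · lift m to ℕ using hm
      rw [toL_coeff_nat, show (r : ℤ) * (m : ℤ) = ((r * m : ℕ) : ℤ) by push_cast; ring,
        toL_coeff_nat, PowerSeries.coeff_expand_mul]
    · rw [toL_coeff_neg _ _ hm, toL_coeff_neg]
      have : (0 : ℤ) < r := by exact_mod_cast Nat.pos_of_ne_zero (NeZero.ne r)
      nlinarith
  · rw [qExpand_coeff_of_not_dvd _ _ hk]
    rcases le_or_gt 0 k with hm | hm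
    · lift k to ℕ using hm
      rw [toL_coeff_nat, PowerSeries.coeff_expand_of_not_dvd]
      · simp
      · intro h
        exact hk (by exact_mod_cast h)
    · rw [toL_coeff_neg _ _ hm]

/-- `Δ` as a Laurent series. -/
def dL : LaurentSeries R := toL R DeltaS

/-- `Δ⁻¹` as a Laurent series. -/
def dLi : LaurentSeries R := HahnSeries.single (-1 : ℤ) 1 * toL R dedekindEtaUnitInv

theorem single_neg_one_mul_single_one :
    (HahnSeries.single (-1 : ℤ) (1 : R)) * HahnSeries.single (1 : ℤ) 1 = 1 := by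
  rw [HahnSeries.single_mul_single]
  simp

theorem dL_mul_dLi : dL R * dLi R = 1 := by
  have h1 : toL R dedekindEtaUnit * toL R dedekindEtaUnitInv = 1 := by
    rw [← map_mul, dedekindEtaUnit_mul_inv, map_one]
  have h2 := single_neg_one_mul_single_one R
  rw [dL, dLi, DeltaS, map_mul, toL_X]
  linear_combination h1 + toL R dedekindEtaUnit * toL R dedekindEtaUnitInv * h2

theorem jqModC_eq : jqModC R = toL R eisenstein4 ^ 3 * dLi R := by
  rw [jqModC, ← toL_apply, jNum, map_mul, map_pow, dLi]
  ring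

theorem qExpand_jqModC_eq (r : ℕ) [NeZero r] :
    qExpand R r (jqModC R) =
      toL R (PowerSeries.expand r (NeZero.ne r) eisenstein4) ^ 3 * qExpand R r (dLi R) := by
  rw [jqModC_eq, map_mul, map_pow, qExpand_toL]

theorem qExpand_dL_mul (r : ℕ) [NeZero r] : qExpand R r (dL R) * qExpand R r (dLi R) = 1 := by
  rw [← map_mul, dL_mul_dLi, map_one]

theorem qExpand_dL (r : ℕ) [NeZero r] :
    qExpand R r (dL R) = toL R (PowerSeries.expand r (NeZero.ne r) DeltaS) := qExpand_toL R r _

/-- A series `q⁻¹ (1 + ⋯)`. -/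
def poleL (u : PowerSeries ℤ) : LaurentSeries R := HahnSeries.single (-1 : ℤ) 1 * toL R u

variable {R} in
theorem coeffMap_poleL {S : Type*} [CommRing S] (f : R →+* S) (u : PowerSeries ℤ) :
    coeffMap f (poleL R u) = poleL S u := by
  rw [poleL, map_mul, coeffMap_single, map_one, coeffMap_toL, poleL]

theorem poleL_coeff (u : PowerSeries ℤ) (k : ℤ) : (poleL R u).coeff k = (toL R u).coeff (k + 1) := by
  rw [poleL, HahnSeries.coeff_single_mul, one_mul, sub_neg_eq_add]

theorem poleL_coeff_neg_one {u : PowerSeries ℤ} (hu : PowerSeries.constantCoeff u = 1) :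
    (poleL R u).coeff (-1) = 1 := by
  rw [poleL_coeff, show (-1 + 1 : ℤ) = ((0 : ℕ) : ℤ) by simp, toL_coeff_nat,
    PowerSeries.coeff_zero_eq_constantCoeff_apply, hu]
  simp

theorem poleL_coeff_of_lt (u : PowerSeries ℤ) {k : ℤ} (hk : k < -1) : (poleL R u).coeff k = 0 := by
  rw [poleL_coeff, toL_coeff_neg _ _ (by omega)]

theorem poleL_order [Nontrivial R] {u : PowerSeries ℤ} (hu : PowerSeries.constantCoeff u = 1) :
    (poleL R u).order = -1 := by
  have h1 : (poleL R u).coeff (-1) ≠ 0 := by rw [poleL_coeff_neg_one R hu]; exact one_ne_zero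
  have hne : poleL R u ≠ 0 := fun h => h1 (by rw [h]; rfl)
  apply le_antisymm
  · exact HahnSeries.order_le_of_coeff_ne_zero h1
  · by_contra hlt
    rw [not_le] at hlt
    exact hne (HahnSeries.coeff_order_eq_zero.mp (poleL_coeff_of_lt R u hlt))

theorem poleL_transcendental (K : Type*) [Field K] {u : PowerSeries ℤ}
    (hu : PowerSeries.constantCoeff u = 1) : Transcendental K (poleL K u) := by
  rw [transcendental_iff]
  intro p hp
  by_contra hne
  obtain ⟨m, -, hm⟩ := Fermat.Agent.S28.exists_coeff_ne_zero_of_pole (k := K) (poleL K u)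
    (by rw [poleL_order K hu]; norm_num) p hne
  apply hm
  have : Fermat.Agent.S28.evP K (poleL K u) p = 0 := hp
  rw [this]
  rfl

end

end Fermat.Agent.GR.D.Haupt
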