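import Fermat.Agent.GR.D.Haupt3Id
import Fermat.Agent.GR.D.HauptLaurent

/-!
# GR-D, Hauptmodul package: the Hauptmodul `h₃ = (η(q)/η(q³))¹²` of `X₀(3)`

* `h3 R : LaurentSeries R`, `h3 R = q⁻¹ (1 + ⋯)` with integer coefficients;
* `j * h³ = (h + 27) (h + 243)³`, `j(q³) * h = (h + 27) (h + 3)³`,
  `(j - 1728) * h³ = (h² - 486 h - 19683)²`;
* `h3 K ∈ FF K N` for `3 ∣ N`.
-/

set_option autoImplicit false

namespace Fermat.Agent.GR.D.Haupt

open ModularCurve

noncomputable section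

/-- the inverse of Euler's product. -/
def etaInv : PowerSeries ℤ := etaProd.invOfUnit 1

theorem etaProd_mul_etaInv : etaProd * etaInv = 1 :=
  PowerSeries.mul_invOfUnit _ _ (by rw [constantCoeff_etaProd]; rfl)

theorem constantCoeff_etaInv : PowerSeries.constantCoeff etaInv = 1 := by
  have h := congrArg (PowerSeries.constantCoeff (R := ℤ)) etaProd_mul_etaInv
  rwa [map_mul, constantCoeff_etaProd, one_mul, map_one] at h

/-- `∏ (1 - qⁿ)¹²`. -/
def eta12 : PowerSeries ℤ := etaProd ^ 12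

/-- `∏ (1 - q³ⁿ)¹²`. -/
def eta12e : PowerSeries ℤ := PowerSeries.expand 3 (by norm_num) eta12

/-- `∏ (1 - q³ⁿ)⁻¹²`. -/
def eta12ei : PowerSeries ℤ := PowerSeries.expand 3 (by norm_num) (etaInv ^ 12)

theorem eta12e_mul : eta12e * eta12ei = 1 := by
  rw [eta12e, eta12ei, ← map_mul, eta12, ← mul_pow, etaProd_mul_etaInv, one_pow, map_one]

theorem constantCoeff_eta12 : PowerSeries.constantCoeff eta12 = 1 := by
  rw [eta12, map_pow, constantCoeff_etaProd, one_pow]

theorem constantCoeff_eta12e : PowerSeries.constantCoeff eta12e = 1 := by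
  rw [eta12e, PowerSeries.constantCoeff_expand, constantCoeff_eta12]

theorem constantCoeff_eta12ei : PowerSeries.constantCoeff eta12ei = 1 := by
  rw [eta12ei, PowerSeries.constantCoeff_expand, map_pow, constantCoeff_etaInv, one_pow]

theorem DeltaS_eq : DeltaS = PowerSeries.X * eta12 ^ 2 := by
  rw [DeltaS, dedekindEtaUnit, eta12, ← pow_mul]

theorem Delta3_eq : Delta3 = PowerSeries.X ^ 3 * eta12e ^ 2 := by
  rw [Delta3, DeltaS_eq, map_mul, map_pow, PowerSeries.expand_X, eta12e]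

theorem constantCoeff_E43 : PowerSeries.constantCoeff E43 = 1 := by
  rw [E43, PowerSeries.constantCoeff_expand, constantCoeff_eisenstein4]

/-- extraction of a square root from the identities of weight 48. -/
theorem sqrt_id (e : PowerSeries ℤ) (he : PowerSeries.constantCoeff e = 1) (c1 c2 b1 b2 : ℤ)
    (h : DeltaS * Delta3 * (e ^ 3 - (c1 : PowerSeries ℤ) * DeltaS - (c2 : PowerSeries ℤ) * Delta3) ^ 2
      = (DeltaS ^ 2 + (b1 : PowerSeries ℤ) * (DeltaS * Delta3)
          + (b2 : PowerSeries ℤ) * Delta3 ^ 2) ^ 2) :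
    eta12 * eta12e * (e ^ 3 - (c1 : PowerSeries ℤ) * PowerSeries.X * eta12 ^ 2
        - (c2 : PowerSeries ℤ) * PowerSeries.X ^ 3 * eta12e ^ 2)
      = eta12 ^ 4 + (b1 : PowerSeries ℤ) * PowerSeries.X ^ 2 * eta12 ^ 2 * eta12e ^ 2
        + (b2 : PowerSeries ℤ) * PowerSeries.X ^ 4 * eta12e ^ 4 := by
  rw [DeltaS_eq, Delta3_eq] at h
  have h2 : (eta12 * eta12e * (e ^ 3 - (c1 : PowerSeries ℤ) * PowerSeries.X * eta12 ^ 2
        - (c2 : PowerSeries ℤ) * PowerSeries.X ^ 3 * eta12e ^ 2)) ^ 2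
      = (eta12 ^ 4 + (b1 : PowerSeries ℤ) * PowerSeries.X ^ 2 * eta12 ^ 2 * eta12e ^ 2
        + (b2 : PowerSeries ℤ) * PowerSeries.X ^ 4 * eta12e ^ 4) ^ 2 := by
    apply mul_left_cancel₀ (pow_ne_zero 4 (PowerSeries.X_ne_zero (R := ℤ)))
    linear_combination h
  rcases sq_eq_sq_iff_eq_or_eq_neg.mp h2 with h3 | h3
  · exact h3
  · exfalso
    have h4 := congrArg (PowerSeries.constantCoeff (R := ℤ)) h3
    simp [constantCoeff_eta12, constantCoeff_eta12e, he] at h4

theorem sqrt_id_a : eta12 * eta12e * (eisenstein4 ^ 3 - 756 * PowerSeries.X * eta12 ^ 2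
        - 19131876 * PowerSeries.X ^ 3 * eta12e ^ 2)
      = eta12 ^ 4 + 196830 * PowerSeries.X ^ 2 * eta12 ^ 2 * eta12e ^ 2
        + 387420489 * PowerSeries.X ^ 4 * eta12e ^ 4 := by
  have := sqrt_id eisenstein4 constantCoeff_eisenstein4 756 19131876 196830 387420489
    (by simpa using id3a)
  simpa using this

theorem sqrt_id_b : eta12 * eta12e * (E43 ^ 3 - 36 * PowerSeries.X * eta12 ^ 2
        - 756 * PowerSeries.X ^ 3 * eta12e ^ 2)
      = eta12 ^ 4 + 270 * PowerSeries.X ^ 2 * eta12 ^ 2 * eta12e ^ 2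
        + 729 * PowerSeries.X ^ 4 * eta12e ^ 4 := by
  have := sqrt_id E43 constantCoeff_E43 36 756 270 729 (by simpa using id3b)
  simpa using this

theorem abs3a {A : Type*} [CommRing A] (j h x y z e : A) (hu : IsUnit (x * z))
    (R1 : h * x * z = y) (R2 : j * x * y ^ 2 = e ^ 3)
    (S : y * z * (e ^ 3 - 756 * x * y ^ 2 - 19131876 * x ^ 3 * z ^ 2)
      = y ^ 4 + 196830 * x ^ 2 * y ^ 2 * z ^ 2 + 387420489 * x ^ 4 * z ^ 4) :
    j * h ^ 3 = (h + 27) * (h + 243) ^ 3 := by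
  have key : (x * z) ^ 4 * (j * h ^ 3 - (h + 27) * (h + 243) ^ 3) = 0 := by
    calc (x * z) ^ 4 * (j * h ^ 3 - (h + 27) * (h + 243) ^ 3)
        = j * x * z * (h * x * z) ^ 3 - 756 * (x * z) * (h * x * z) ^ 3
          - 19131876 * (x * z) ^ 3 * (h * x * z) - (h * x * z) ^ 4
          - 196830 * (x * z) ^ 2 * (h * x * z) ^ 2 - 387420489 * (x * z) ^ 4 := by ring
      _ = (j * x * y ^ 2) * (y * z) - 756 * (x * z) * y ^ 3
          - 19131876 * (x * z) ^ 3 * y - y ^ 4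
          - 196830 * (x * z) ^ 2 * y ^ 2 - 387420489 * (x * z) ^ 4 := by rw [R1]; ring
      _ = 0 := by rw [R2]; linear_combination S
  exact sub_eq_zero.mp (((hu.pow 4).mul_right_eq_zero).mp key)

theorem abs3b {A : Type*} [CommRing A] (j h x y z e : A) (hu : IsUnit (x * z))
    (R1 : h * x * z = y) (R2 : j * x ^ 3 * z ^ 2 = e ^ 3)
    (S : y * z * (e ^ 3 - 36 * x * y ^ 2 - 756 * x ^ 3 * z ^ 2)
      = y ^ 4 + 270 * x ^ 2 * y ^ 2 * z ^ 2 + 729 * x ^ 4 * z ^ 4) :
    j * h = (h + 27) * (h + 3) ^ 3 := by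
  have key : (x * z) ^ 4 * (j * h - (h + 27) * (h + 3) ^ 3) = 0 := by
    calc (x * z) ^ 4 * (j * h - (h + 27) * (h + 3) ^ 3)
        = (j * x ^ 3 * z ^ 2) * z * (h * x * z) - 36 * (x * z) * (h * x * z) ^ 3
          - 756 * (x * z) ^ 3 * (h * x * z) - (h * x * z) ^ 4
          - 270 * (x * z) ^ 2 * (h * x * z) ^ 2 - 729 * (x * z) ^ 4 := by ring
      _ = 0 := by rw [R1, R2]; linear_combination S
  exact sub_eq_zero.mp (((hu.pow 4).mul_right_eq_zero).mp key)

/-- `∏ ((1 - qⁿ)/(1 - q³ⁿ))¹²`. -/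
def hNum3 : PowerSeries ℤ := eta12 * eta12ei

theorem constantCoeff_hNum3 : PowerSeries.constantCoeff hNum3 = 1 := by
  rw [hNum3, map_mul, constantCoeff_eta12, constantCoeff_eta12ei, one_mul]

variable (R : Type*) [CommRing R]

/-- The Hauptmodul `h₃ = (η(q)/η(q³))¹² = q⁻¹ ∏ ((1 - qⁿ)/(1 - q³ⁿ))¹²` of `X₀(3)`. -/
def h3 : LaurentSeries R := poleL R hNum3

variable {R} in
theorem coeffMap_h3 {S : Type*} [CommRing S] (f : R →+* S) : coeffMap f (h3 R) = h3 S :=
  coeffMap_poleL f _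

theorem h3_coeff_neg_one : (h3 R).coeff (-1) = 1 := poleL_coeff_neg_one R constantCoeff_hNum3

theorem h3_coeff_of_lt {k : ℤ} (hk : k < -1) : (h3 R).coeff k = 0 := poleL_coeff_of_lt R _ hk

theorem h3_order [Nontrivial R] : (h3 R).order = -1 := poleL_order R constantCoeff_hNum3

theorem isUnit_X_mul_eta12e : IsUnit (toL R PowerSeries.X * toL R eta12e) := by
  refine IsUnit.mul ?_ ?_
  · refine IsUnit.of_mul_eq_one (HahnSeries.single (-1 : ℤ) 1) ?_
    rw [toL_X, mul_comm]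
    exact single_neg_one_mul_single_one R
  · refine IsUnit.of_mul_eq_one (toL R eta12ei) ?_
    rw [← map_mul, eta12e_mul, map_one]

theorem h3_rel : h3 R * toL R PowerSeries.X * toL R eta12e = toL R eta12 := by
  have h1 : toL R eta12e * toL R eta12ei = 1 := by rw [← map_mul, eta12e_mul, map_one]
  have h2 := single_neg_one_mul_single_one R
  rw [h3, poleL, hNum3, map_mul, toL_X]
  linear_combination toL R eta12 * h1 + toL R eta12 * toL R eta12e * toL R eta12ei * h2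

theorem j_rel : jqModC R * toL R PowerSeries.X * toL R eta12 ^ 2 = toL R eisenstein4 ^ 3 := by
  have h1 := dL_mul_dLi R
  rw [dL, DeltaS_eq, map_mul, map_pow] at h1
  rw [jqModC_eq]
  linear_combination toL R eisenstein4 ^ 3 * h1

theorem j3_rel : qExpand R 3 (jqModC R) * toL R PowerSeries.X ^ 3 * toL R eta12e ^ 2
    = toL R E43 ^ 3 := by
  have h1 := qExpand_dL_mul R 3
  rw [qExpand_dL] at h1
  have h2 : PowerSeries.expand 3 (NeZero.ne 3) DeltaS = Delta3 := rfl
  rw [h2, Delta3_eq, map_mul, map_pow, map_pow] at h1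
  rw [qExpand_jqModC_eq]
  have h3 : PowerSeries.expand 3 (NeZero.ne 3) eisenstein4 = E43 := rfl
  rw [h3]
  linear_combination toL R E43 ^ 3 * h1

/-- `j h³ = (h + 27) (h + 243)³`. -/
theorem j_mul_h3_cube : jqModC R * h3 R ^ 3 = (h3 R + 27) * (h3 R + 243) ^ 3 := by
  have S := congrArg (toL R) sqrt_id_a
  simp only [map_mul, map_pow, map_add, map_sub, map_ofNat] at S
  exact abs3a _ _ _ _ _ _ (isUnit_X_mul_eta12e R) (h3_rel R) (j_rel R) S

/-- `j(q³) h = (h + 27) (h + 3)³`. -/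
theorem j3_mul_h3 : qExpand R 3 (jqModC R) * h3 R = (h3 R + 27) * (h3 R + 3) ^ 3 := by
  have S := congrArg (toL R) sqrt_id_b
  simp only [map_mul, map_pow, map_add, map_sub, map_ofNat] at S
  exact abs3b _ _ _ _ _ _ (isUnit_X_mul_eta12e R) (h3_rel R) (j3_rel R) S

/-- `(j - 1728) h³ = (h² - 486 h - 19683)²`. -/
theorem j_sub_mul_h3_cube :
    (jqModC R - 1728) * h3 R ^ 3 = (h3 R ^ 2 - 486 * h3 R - 19683) ^ 2 := by
  linear_combination j_mul_h3_cube R

section Field

variable (K : Type*) [Field K]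

theorem h3_transcendental : Transcendental K (h3 K) :=
  poleL_transcendental K constantCoeff_hNum3

theorem h3_ne_zero : h3 K ≠ 0 := fun h => by
  have := h3_coeff_neg_one K
  rw [h] at this
  simp at this

theorem j_eq_h3 : jqModC K = (h3 K + 27) * (h3 K + 243) ^ 3 / h3 K ^ 3 := by
  rw [eq_div_iff (pow_ne_zero _ (h3_ne_zero K))]
  exact j_mul_h3_cube K

theorem j3_eq_h3 : qExpand K 3 (jqModC K) = (h3 K + 27) * (h3 K + 3) ^ 3 / h3 K := by
  rw [eq_div_iff (h3_ne_zero K)]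
  exact j3_mul_h3 K

/-- the denominator of `h₃` as a polynomial in `a = j`, `b = j₃`. -/
def denA3 {A : Type*} [CommRing A] (a b : A) : A :=
  a ^ 2 * b ^ 2 - 1476 * (a ^ 2 * b + a * b ^ 2) + 347760 * (a ^ 2 + b ^ 2) - 1461408480 * (a * b)
    - 2707292160000 * (a + b) + 134217728000000000

/-- the numerator of `h₃` as a polynomial in `a = j`, `b = j₃`. -/
def numB3 {A : Type*} [CommRing A] (a b : A) : A :=
  b ^ 3 + 196830 * (a * b ^ 2) + 729 * (a ^ 2 * b) - 103456080 * b ^ 2 + 18821147040 * (a * b)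
    - 524880 * a ^ 2 + 276373831680000 * b + 14229831680000 * a - 3623878656000000000

open Polynomial in
/-- `h⁸ A(j, j₃)` as a polynomial in `h`. -/
def polyA3 : Polynomial K :=
  ((X + 27) * (X + 243) ^ 3) ^ 2 * ((X + 27) * (X + 3) ^ 3) ^ 2
    - 1476 * (((X + 27) * (X + 243) ^ 3) ^ 2 * ((X + 27) * (X + 3) ^ 3) * X
      + ((X + 27) * (X + 243) ^ 3) * ((X + 27) * (X + 3) ^ 3) ^ 2 * X ^ 3)
    + 347760 * (((X + 27) * (X + 243) ^ 3) ^ 2 * X ^ 2 + ((X + 27) * (X + 3) ^ 3) ^ 2 * X ^ 6)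
    - 1461408480 * (((X + 27) * (X + 243) ^ 3) * ((X + 27) * (X + 3) ^ 3) * X ^ 4)
    - 2707292160000 * (((X + 27) * (X + 243) ^ 3) * X ^ 5 + ((X + 27) * (X + 3) ^ 3) * X ^ 7)
    + 134217728000000000 * X ^ 8

theorem polyA3_ne_zero : polyA3 K ≠ 0 := by
  have h : (polyA3 K).coeff 16 = 1 := by
    unfold polyA3
    compute_degree!
  intro h0
  rw [h0] at h
  simp at h

theorem denA3_ne_zero : denA3 (jqModC K) (qExpand K 3 (jqModC K)) ≠ 0 := by
  intro h0
  have h1 : Polynomial.aeval (h3 K) (polyA3 K)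
      = denA3 (jqModC K) (qExpand K 3 (jqModC K)) * h3 K ^ 8 := by
    have hh := h3_ne_zero K
    rw [denA3, j3_eq_h3, j_eq_h3, polyA3]
    simp only [map_sub, map_mul, map_pow, map_add, Polynomial.aeval_X, map_ofNat]
    field_simp
  rw [h0, zero_mul] at h1
  exact polyA3_ne_zero K ((transcendental_iff.mp (h3_transcendental K)) _ h1)

theorem h3_mul_denA3 : h3 K * denA3 (jqModC K) (qExpand K 3 (jqModC K))
    = numB3 (jqModC K) (qExpand K 3 (jqModC K)) := by
  have hh := h3_ne_zero K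
  rw [denA3, numB3, j3_eq_h3, j_eq_h3]
  field_simp
  ring

/-- `h₃` belongs to the function field of `X₀(N)` as soon as `3 ∣ N`. -/
theorem h3_mem_FF {N : ℕ} (hN : 3 ∣ N) : h3 K ∈ Fermat.Agent.GR.FF K N := by
  have hj : jqModC K ∈ Fermat.Agent.GR.FF K N := jqModC_mem_full K N
  have hj3 : qExpand K 3 (jqModC K) ∈ Fermat.Agent.GR.FF K N := jqModCd_mem_full K N hN
  have e : h3 K = numB3 (jqModC K) (qExpand K 3 (jqModC K))
      / denA3 (jqModC K) (qExpand K 3 (jqModC K)) := by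
    rw [eq_div_iff (denA3_ne_zero K)]
    exact h3_mul_denA3 K
  rw [e]
  have hnat : ∀ n : ℕ, (n : LaurentSeries K) ∈ Fermat.Agent.GR.FF K N := fun n => natCast_mem _ n
  refine div_mem ?_ ?_
  · exact sub_mem (add_mem (add_mem (sub_mem (add_mem (sub_mem (add_mem (add_mem (pow_mem hj3 3)
      (mul_mem (hnat 196830) (mul_mem hj (pow_mem hj3 2))))
      (mul_mem (hnat 729) (mul_mem (pow_mem hj 2) hj3)))
      (mul_mem (hnat 103456080) (pow_mem hj3 2)))
      (mul_mem (hnat 18821147040) (mul_mem hj hj3)))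
      (mul_mem (hnat 524880) (pow_mem hj 2)))
      (mul_mem (hnat 276373831680000) hj3))
      (mul_mem (hnat 14229831680000) hj))
      (hnat 3623878656000000000)
  · exact add_mem (sub_mem (sub_mem (add_mem (sub_mem (mul_mem (pow_mem hj 2) (pow_mem hj3 2))
      (mul_mem (hnat 1476) (add_mem (mul_mem (pow_mem hj 2) hj3) (mul_mem hj (pow_mem hj3 2)))))
      (mul_mem (hnat 347760) (add_mem (pow_mem hj 2) (pow_mem hj3 2))))
      (mul_mem (hnat 1461408480) (mul_mem hj hj3)))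
      (mul_mem (hnat 2707292160000) (add_mem hj hj3)))
      (hnat 134217728000000000)

end Field

end

end Fermat.Agent.GR.D.Haupt
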