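import Fermat.Agent.GR.D.Haupt2
import Fermat.Agent.GR.D.Haupt3
import Fermat.Agent.Lib.Hauptmodul.Main

/-!
# GR-D: the two constructions of the Hauptmoduln agree

`Lib.Hauptmodul.h2R R = GR.D.Haupt.h2 R`, `Lib.Hauptmodul.h3R R = GR.D.Haupt.h3 R`; hence membership
in the function field and transcendence for `h2R`, `h3R`.
-/

set_option autoImplicit false

namespace Fermat.Agent.GR.D.Haupt

open ModularCurve Fermat.Agent.Lib

theorem toL_int (u : PowerSeries ℤ) : toL ℤ u = Hauptmodul.LS u := by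
  rw [toL_apply]
  congr 1

theorem h2_int_rel : h2 ℤ * Hauptmodul.LS (Hauptmodul.V2 Hauptmodul.DeltaS)
    = Hauptmodul.LS Hauptmodul.DeltaS := by
  have h1 := qExpand_dL_mul ℤ 2
  have e1 : Hauptmodul.LS (Hauptmodul.V2 Hauptmodul.DeltaS) = qExpand ℤ 2 (dL ℤ) := by
    rw [qExpand_dL, toL_int]
    rfl
  have e2 : Hauptmodul.LS Hauptmodul.DeltaS = dL ℤ := by
    rw [dL, toL_int]
    rfl
  rw [e1, e2, h2_eq]
  linear_combination dL ℤ * h1

theorem h2_int_eq : Hauptmodul.h2 = h2 ℤ := by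
  apply mul_right_cancel₀ (Hauptmodul.LS_ne_zero Hauptmodul.V2_DeltaS_ne_zero)
  rw [Hauptmodul.h2_mul_V2_DeltaS, h2_int_rel]

theorem h2R_eq (R : Type*) [CommRing R] : Hauptmodul.h2R R = h2 R := by
  rw [Hauptmodul.h2R, h2_int_eq, coeffMap_h2]

theorem h3_int_rel : h3 ℤ ^ 2 * Hauptmodul.LS (Hauptmodul.V3 Hauptmodul.DeltaS)
    = Hauptmodul.LS Hauptmodul.DeltaS := by
  have h1 := h3_rel ℤ
  have e1 : Hauptmodul.LS (Hauptmodul.V3 Hauptmodul.DeltaS)
      = toL ℤ PowerSeries.X ^ 3 * toL ℤ eta12e ^ 2 := by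
    rw [← map_pow, ← map_pow, ← map_mul, ← Delta3_eq, toL_int]
    rfl
  have e2 : Hauptmodul.LS Hauptmodul.DeltaS = toL ℤ PowerSeries.X * toL ℤ eta12 ^ 2 := by
    rw [← map_pow, ← map_mul, ← DeltaS_eq, toL_int]
    rfl
  rw [e1, e2, ← h1]
  ring

theorem h3_int_eq : Hauptmodul.h3 = h3 ℤ := by
  have hsq : Hauptmodul.h3 ^ 2 = h3 ℤ ^ 2 := by
    apply mul_right_cancel₀ (Hauptmodul.LS_ne_zero Hauptmodul.V3_DeltaS_ne_zero)
    rw [Hauptmodul.h3_sq_mul_V3_DeltaS, h3_int_rel]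
  rcases sq_eq_sq_iff_eq_or_eq_neg.mp hsq with h | h
  · exact h
  · exfalso
    have h1 := congrArg (fun x : LaurentSeries ℤ => x.coeff (-1)) h
    simp only [HahnSeries.coeff_neg, Hauptmodul.h3_coeff_neg_one, h3_coeff_neg_one] at h1
    norm_num at h1

theorem h3R_eq (R : Type*) [CommRing R] : Hauptmodul.h3R R = h3 R := by
  rw [Hauptmodul.h3R, h3_int_eq, coeffMap_h3]

variable (K : Type*) [Field K]

theorem h2R_mem_FF {N : ℕ} (hN : 2 ∣ N) : Hauptmodul.h2R K ∈ Fermat.Agent.GR.FF K N := by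
  rw [h2R_eq]; exact h2_mem_FF K hN

theorem h3R_mem_FF {N : ℕ} (hN : 3 ∣ N) : Hauptmodul.h3R K ∈ Fermat.Agent.GR.FF K N := by
  rw [h3R_eq]; exact h3_mem_FF K hN

theorem h2R_transcendental : Transcendental K (Hauptmodul.h2R K) := by
  rw [h2R_eq]; exact h2_transcendental K

theorem h3R_transcendental : Transcendental K (Hauptmodul.h3R K) := by
  rw [h3R_eq]; exact h3_transcendental K

end Fermat.Agent.GR.D.Haupt
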