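import Fermat.Agent.GR.D.HorizDescent

/-!
# GR-D (6c): ramification transfer from the `j`-line to the `h`-line (abstract part)

`v` a place of `F/K`, `j h : F` with `j h² = (h + 256)³` (resp. `j h³ = (h + 27) (h + 243)³`).
If `F/K(j)` is at `v` unramified outside `0, 1728, ∞`, with index dividing `3` over `0` and
dividing `2` over `1728`, then `ord_v (h - a) ≤ 1` for `a ∉ {0, -64}` (resp. `a ∉ {0, -27}`).
-/

set_option autoImplicit false

namespace Fermat.Agent.GR.D.Haupt

open AlgebraicCurve Fermat.Agent.S24.Zeros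

variable {K F : Type*} [Field K] [Field F] [Algebra K F]

/-- the ramification of `F/K(j)` at the place `v`. -/
structure JRam (v : Place K F) (j : F) : Prop where
  nonconst : ∀ c : K, j ≠ algebraMap K F c
  generic : ∀ c : K, c ≠ 0 → c ≠ 1728 → 0 < v.ord (j - algebraMap K F c) →
    v.ord (j - algebraMap K F c) = 1
  zero : 0 < v.ord j → v.ord j ∣ 3
  e1728 : 0 < v.ord (j - algebraMap K F 1728) → v.ord (j - algebraMap K F 1728) ∣ 2

theorem ord_pow' (v : Place K F) (f : F) (n : ℕ) : v.ord (f ^ n) = n * v.ord f := by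
  rw [← zpow_natCast, v.ord_zpow]

/-- comparison of orders from a factorisation. -/
theorem mul_ord_le (v : Place K F) {u x y w : F} (k : ℕ) (hu : v.ord u = 0) (hu0 : u ≠ 0)
    (hx : x ≠ 0) (hw : w ∈ v.toValuationSubring) (e : u * x = y ^ k * w) :
    (k : ℤ) * v.ord y ≤ v.ord x := by
  have hne : y ^ k * w ≠ 0 := e ▸ mul_ne_zero hu0 hx
  have hy : y ^ k ≠ 0 := left_ne_zero_of_mul hne
  have hw0 : w ≠ 0 := right_ne_zero_of_mul hne
  have h1 := congrArg v.ord e
  rw [v.ord_mul hu0 hx, v.ord_mul hy hw0, ord_pow', hu] at h1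
  have := ord_nonneg_of_mem v hw
  omega

theorem ord_eq_zero_of_ord_sub_pos (v : Place K F) {h : F} {a : K} (ha : a ≠ 0)
    (hv : 0 < v.ord (h - algebraMap K F a)) : v.ord h = 0 := by
  have := ord_aeval_eq_zero v hv Polynomial.X (by simpa using ha)
  simpa using this

theorem ne_zero_of_ord_sub_pos (v : Place K F) {h : F} {a : K}
    (hv : 0 < v.ord (h - algebraMap K F a)) : h ≠ 0 := by
  rintro rfl
  rw [zero_sub, ← map_neg, ord_algebraMap] at hv
  exact lt_irrefl _ hv

/-- the common end of the argument. -/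
theorem le_one_of_cases (n m : ℤ) (k : ℕ) (hk : 0 < k) (hn : 0 < n) (h1 : (k : ℤ) * n ≤ m)
    (h2 : 0 < m → m ∣ (k : ℤ)) : n ≤ 1 := by
  have hk' : (0 : ℤ) < k := by exact_mod_cast hk
  have hm : 0 < m := lt_of_lt_of_le (mul_pos hk' hn) h1
  have h3 : m ≤ k := Int.le_of_dvd hk' (h2 hm)
  by_contra hlt
  rw [not_le] at hlt
  nlinarith

theorem ord_h2_sub_le_one (v : Place K F) {j h : F} (hj : JRam v j)
    (rel : j * h ^ 2 = (h + 256) ^ 3) (a : K) (ha : a ≠ 0) (ha' : a ≠ -64) :
    v.ord (h - algebraMap K F a) ≤ 1 := by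
  by_cases hv : 0 < v.ord (h - algebraMap K F a)
  swap
  · omega
  have hh : h ∈ v.toValuationSubring := mem_place_of_ord_sub_pos v hv
  have hh0 : h ≠ 0 := ne_zero_of_ord_sub_pos v hv
  have hord : v.ord h = 0 := ord_eq_zero_of_ord_sub_pos v ha hv
  have hA : algebraMap K F a ∈ v.toValuationSubring := v.algebraMap_mem' a
  have hA0 : algebraMap K F a ≠ 0 := (_root_.map_ne_zero _).2 ha
  have hnat : ∀ n : ℕ, (n : F) ∈ v.toValuationSubring := fun n => natCast_mem _ n
  have hu2 : v.ord (h ^ 2) = 0 := by rw [ord_pow', hord, mul_zero]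
  set c : K := (a + 256) ^ 3 / a ^ 2 with hc
  have hca : c * a ^ 2 = (a + 256) ^ 3 := by rw [hc]; field_simp
  have hcA : algebraMap K F c * algebraMap K F a ^ 2 = (algebraMap K F a + 256) ^ 3 := by
    rw [← map_pow, ← map_mul, hca]
    simp only [map_add, map_pow, map_ofNat]
  by_cases hc0 : c = 0
  · -- `a = -256`
    have ha256 : a = -256 := by
      rw [hc0, zero_mul] at hca
      have := pow_eq_zero_iff (n := 3) (by norm_num) |>.mp hca.symm
      linear_combination this
    have hj0 : j ≠ 0 := fun h0 => hj.nonconst 0 (by rw [h0, map_zero])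
    refine le_one_of_cases _ (v.ord j) 3 (by norm_num) hv ?_ (by simpa using hj.zero)
    refine mul_ord_le v 3 hu2 (pow_ne_zero 2 hh0) hj0 (one_mem _) ?_
    rw [ha256, mul_comm, rel]
    simp only [map_neg, map_ofNat, sub_neg_eq_add, mul_one]
  by_cases hc1 : c = 1728
  · -- `a = 512`
    have ha512 : a = 512 := by
      have h1 : (a + 64) * (a - 512) ^ 2 = 0 := by
        rw [hc1] at hca
        linear_combination -hca
      rcases mul_eq_zero.mp h1 with h2 | h2
      · exact absurd (by linear_combination h2) ha'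
      · have := pow_eq_zero_iff (n := 2) (by norm_num) |>.mp h2
        linear_combination this
    have hj0 : j - algebraMap K F 1728 ≠ 0 := fun h0 => hj.nonconst 1728 (sub_eq_zero.mp h0)
    refine le_one_of_cases _ (v.ord (j - algebraMap K F 1728)) 2 (by norm_num) hv ?_
      (by simpa using hj.e1728)
    refine mul_ord_le v 2 hu2 (pow_ne_zero 2 hh0) hj0 (w := h + 64) (add_mem hh (hnat 64)) ?_
    rw [ha512]
    simp only [map_ofNat]
    linear_combination rel
  · -- generic
    have hj0 : j - algebraMap K F c ≠ 0 := fun h0 => hj.nonconst c (sub_eq_zero.mp h0)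
    have hu : v.ord (algebraMap K F a ^ 2 * h ^ 2) = 0 := by
      rw [v.ord_mul (pow_ne_zero 2 hA0) (pow_ne_zero 2 hh0), hu2, ord_pow', ord_algebraMap]
      simp
    refine le_one_of_cases _ (v.ord (j - algebraMap K F c)) 1 (by norm_num) hv ?_ ?_
    · refine mul_ord_le v 1 hu (mul_ne_zero (pow_ne_zero 2 hA0) (pow_ne_zero 2 hh0)) hj0
        (w := algebraMap K F a ^ 2 * h ^ 2 - 196608 * algebraMap K F a * h
          - 16777216 * (h + algebraMap K F a)) ?_ ?_
      · exact sub_mem (sub_mem (mul_mem (pow_mem hA 2) (pow_mem hh 2))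
          (mul_mem (mul_mem (hnat 196608) hA) hh)) (mul_mem (hnat 16777216) (add_mem hh hA))
      · linear_combination (algebraMap K F a ^ 2) * rel - h ^ 2 * hcA
    · intro hpos
      rw [hj.generic c hc0 hc1 hpos]
      simp

theorem ord_h3_sub_le_one (v : Place K F) {j h : F} (hj : JRam v j)
    (rel : j * h ^ 3 = (h + 27) * (h + 243) ^ 3) (a : K) (ha : a ≠ 0) (ha' : a ≠ -27) :
    v.ord (h - algebraMap K F a) ≤ 1 := by
  by_cases hv : 0 < v.ord (h - algebraMap K F a)
  swap
  · omega
  have hh : h ∈ v.toValuationSubring := mem_place_of_ord_sub_pos v hv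
  have hh0 : h ≠ 0 := ne_zero_of_ord_sub_pos v hv
  have hord : v.ord h = 0 := ord_eq_zero_of_ord_sub_pos v ha hv
  have hA : algebraMap K F a ∈ v.toValuationSubring := v.algebraMap_mem' a
  have hA0 : algebraMap K F a ≠ 0 := (_root_.map_ne_zero _).2 ha
  have hnat : ∀ n : ℕ, (n : F) ∈ v.toValuationSubring := fun n => natCast_mem _ n
  have hu3 : v.ord (h ^ 3) = 0 := by rw [ord_pow', hord, mul_zero]
  set c : K := (a + 27) * (a + 243) ^ 3 / a ^ 3 with hc
  have hca : c * a ^ 3 = (a + 27) * (a + 243) ^ 3 := by rw [hc]; field_simp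
  have hcA : algebraMap K F c * algebraMap K F a ^ 3
      = (algebraMap K F a + 27) * (algebraMap K F a + 243) ^ 3 := by
    rw [← map_pow, ← map_mul, hca]
    simp only [map_add, map_mul, map_pow, map_ofNat]
  by_cases hc0 : c = 0
  · -- `a = -243`
    have ha243 : a = -243 := by
      rw [hc0, zero_mul] at hca
      rcases mul_eq_zero.mp hca.symm with h2 | h2
      · exact absurd (by linear_combination h2) ha'
      · have := pow_eq_zero_iff (n := 3) (by norm_num) |>.mp h2
        linear_combination this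
    have hj0 : j ≠ 0 := fun h0 => hj.nonconst 0 (by rw [h0, map_zero])
    refine le_one_of_cases _ (v.ord j) 3 (by norm_num) hv ?_ (by simpa using hj.zero)
    refine mul_ord_le v 3 hu3 (pow_ne_zero 3 hh0) hj0 (w := h + 27) (add_mem hh (hnat 27)) ?_
    rw [ha243, mul_comm, rel]
    simp only [map_neg, map_ofNat, sub_neg_eq_add]
    ring
  by_cases hc1 : c = 1728
  · -- `a² - 486 a - 19683 = 0`
    have haq : a ^ 2 - 486 * a - 19683 = 0 := by
      have h1 : (a ^ 2 - 486 * a - 19683) ^ 2 = 0 := by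
        rw [hc1] at hca
        linear_combination -hca
      exact pow_eq_zero_iff (n := 2) (by norm_num) |>.mp h1
    have haQ : algebraMap K F a ^ 2 - 486 * algebraMap K F a - 19683 = 0 := by
      have := congrArg (algebraMap K F) haq
      simpa only [map_sub, map_mul, map_pow, map_ofNat, map_zero] using this
    have hj0 : j - algebraMap K F 1728 ≠ 0 := fun h0 => hj.nonconst 1728 (sub_eq_zero.mp h0)
    refine le_one_of_cases _ (v.ord (j - algebraMap K F 1728)) 2 (by norm_num) hv ?_
      (by simpa using hj.e1728)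
    refine mul_ord_le v 2 hu3 (pow_ne_zero 3 hh0) hj0 (w := (h + algebraMap K F a - 486) ^ 2)
      (pow_mem (sub_mem (add_mem hh hA) (hnat 486)) 2) ?_
    simp only [map_ofNat]
    linear_combination rel + (2 * (h ^ 2 - 486 * h - 19683)
      - (algebraMap K F a ^ 2 - 486 * algebraMap K F a - 19683)) * haQ
  · -- generic
    have hj0 : j - algebraMap K F c ≠ 0 := fun h0 => hj.nonconst c (sub_eq_zero.mp h0)
    have hu : v.ord (algebraMap K F a ^ 3 * h ^ 3) = 0 := by
      rw [v.ord_mul (pow_ne_zero 3 hA0) (pow_ne_zero 3 hh0), hu3, ord_pow', ord_algebraMap]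
      simp
    refine le_one_of_cases _ (v.ord (j - algebraMap K F c)) 1 (by norm_num) hv ?_ ?_
    · refine mul_ord_le v 1 hu (mul_ne_zero (pow_ne_zero 3 hA0) (pow_ne_zero 3 hh0)) hj0
        (w := algebraMap K F a ^ 3 * h ^ 3 - 196830 * (algebraMap K F a ^ 2 * h ^ 2)
          - 19131876 * (algebraMap K F a * h * (h + algebraMap K F a))
          - 387420489 * (h ^ 2 + algebraMap K F a * h + algebraMap K F a ^ 2)) ?_ ?_
      · exact sub_mem (sub_mem (sub_mem (mul_mem (pow_mem hA 3) (pow_mem hh 3))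
          (mul_mem (hnat 196830) (mul_mem (pow_mem hA 2) (pow_mem hh 2))))
          (mul_mem (hnat 19131876) (mul_mem (mul_mem hA hh) (add_mem hh hA))))
          (mul_mem (hnat 387420489) (add_mem (add_mem (pow_mem hh 2) (mul_mem hA hh))
            (pow_mem hA 2)))
      · linear_combination (algebraMap K F a ^ 3) * rel - h ^ 3 * hcA
    · intro hpos
      rw [hj.generic c hc0 hc1 hpos]
      simp

/-- the chart at infinity. -/
theorem ord_inv_sub_le_one_of (v : Place K F) (t : F) (c : K) (hc : c ≠ 0)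
    (h : v.ord (t - algebraMap K F c⁻¹) ≤ 1) : v.ord (t⁻¹ - algebraMap K F c) ≤ 1 := by
  by_cases hv : 0 < v.ord (t⁻¹ - algebraMap K F c)
  swap
  · omega
  have ht0 : t⁻¹ ≠ 0 := ne_zero_of_ord_sub_pos v hv
  have ht : t ≠ 0 := fun h0 => ht0 (by rw [h0, inv_zero])
  have hord : v.ord t⁻¹ = 0 := ord_eq_zero_of_ord_sub_pos v hc hv
  have hC0 : algebraMap K F c ≠ 0 := (_root_.map_ne_zero _).2 hc
  have hsub : t⁻¹ - algebraMap K F c ≠ 0 := by
    intro h'
    rw [h'] at hv
    simp at hv
  have e : t⁻¹ - algebraMap K F c = (-algebraMap K F c * t⁻¹) * (t - algebraMap K F c⁻¹) := by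
    rw [map_inv₀]
    field_simp
    ring
  have h2 : t - algebraMap K F c⁻¹ ≠ 0 := fun h' => hsub (by rw [e, h', mul_zero])
  have h3 : v.ord (-algebraMap K F c * t⁻¹) = 0 := by
    rw [v.ord_mul (neg_ne_zero.mpr hC0) ht0, hord, ← map_neg, ord_algebraMap, add_zero]
  rw [e, v.ord_mul (mul_ne_zero (neg_ne_zero.mpr hC0) ht0) h2, h3, zero_add]
  exact h

theorem ord_h2_inv_sub_le_one (v : Place K F) {j h : F} (hj : JRam v j)
    (rel : j * h ^ 2 = (h + 256) ^ 3) (a : K) (ha : a ≠ 0) (ha' : 1 + 64 * a ≠ 0) :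
    v.ord (h⁻¹ - algebraMap K F a) ≤ 1 := by
  refine ord_inv_sub_le_one_of v h a ha (ord_h2_sub_le_one v hj rel a⁻¹ (inv_ne_zero ha) ?_)
  intro h1
  apply ha'
  have : a * a⁻¹ = 1 := mul_inv_cancel₀ ha
  rw [h1] at this
  linear_combination -this

theorem ord_h3_inv_sub_le_one (v : Place K F) {j h : F} (hj : JRam v j)
    (rel : j * h ^ 3 = (h + 27) * (h + 243) ^ 3) (a : K) (ha : a ≠ 0) (ha' : 1 + 27 * a ≠ 0) :
    v.ord (h⁻¹ - algebraMap K F a) ≤ 1 := by
  refine ord_inv_sub_le_one_of v h a ha (ord_h3_sub_le_one v hj rel a⁻¹ (inv_ne_zero ha) ?_)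
  intro h1
  apply ha'
  have : a * a⁻¹ = 1 := mul_inv_cancel₀ ha
  rw [h1] at this
  linear_combination -this

end Fermat.Agent.GR.D.Haupt
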