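import Mathlib
import Fermat.Agent.GR.E.Defs

/-!
# GR-D: shared definitions

`R` DVR with uniformizer `ϖ`; `F` is an `R[X]`-algebra via `X ↦ t`; `𝒪` the Gauss ring;
`A = (1 + ϖR[X])⁻¹R[X]`, `A0 = R[X][1/ϖ] (= L[t])`, `K = Frac R[X] (= L(t))`.
-/

set_option autoImplicit false

namespace Fermat.Agent.GR.D

open Polynomial

/-- `x` lies in the trace dual of the integral closure of `A` in `F`. -/
def InTraceDual (A K : Type*) {F : Type*} [CommRing A] [Field K] [Field F] [Algebra A K]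
    [Algebra K F] [Algebra A F] (x : F) : Prop :=
  ∀ c : F, IsIntegral A c → Algebra.trace K F (x * c) ∈ (algebraMap A K).range

/-- The vertical data for the chart `X ↦ t`. -/
structure VertData {R : Type*} [CommRing R] (ϖ : R) {F : Type*} [Field F] [Algebra R F]
    [Algebra R[X] F] (𝒪 : ValuationSubring F) : Prop where
  mem : ∀ Q : R[X], algebraMap R[X] F Q ∈ 𝒪
  unit : ∀ Q : R[X], ¬ C ϖ ∣ Q → algebraMap R[X] F Q / algebraMap R F ϖ ∉ 𝒪
  int : ∀ x ∈ 𝒪, ∃ Q : R[X], ¬ C ϖ ∣ Q ∧ IsIntegral R[X] (Q • x)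

/-- The trace dual of `𝒪` over `𝒪 ∩ K` is contained in `𝒪`. -/
def TraceSelfDual (K : Type*) {F : Type*} [Field K] [Field F] [Algebra K F]
    (𝒪 : ValuationSubring F) : Prop :=
  ∀ x : F, (∀ c ∈ 𝒪, algebraMap K F (Algebra.trace K F (x * c)) ∈ 𝒪) → x ∈ 𝒪

/-- The tame trace-dual statement on the generic fibre (`A0 = L[t]`). -/
def TameAt (A0 K : Type*) {F : Type*} [CommRing A0] [Field K] [Field F] [Algebra A0 K]
    [Algebra K F] [Algebra A0 F] (b : A0) : Prop :=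
  ∀ y : F, InTraceDual A0 K y →
    IsIntegral A0 (b • y) ∧ ∃ (m : ℕ) (c : F), IsIntegral A0 c ∧ (b • y) ^ m = b • c

/-- The vertical data at `t`, without any auxiliary algebra structure. -/
structure VertAt {R : Type*} [CommRing R] (ϖ : R) {F : Type*} [Field F] [Algebra R F]
    (𝒪 : ValuationSubring F) (t : F) : Prop where
  base : ∀ r : R, algebraMap R F r ∈ 𝒪
  mem : t ∈ 𝒪
  unit : ∀ Q : R[X], ¬ C ϖ ∣ Q → aeval t Q / algebraMap R F ϖ ∉ 𝒪
  int : ∀ x ∈ 𝒪, ∃ Q : R[X], ¬ C ϖ ∣ Q ∧ aeval t Q * x ∈ E.chart R ({t} : Set F)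

end Fermat.Agent.GR.D
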