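import Mathlib

/-!
GR-D, glue lemmas: recognising Dedekind domains.
-/

set_option autoImplicit false

namespace Fermat.Agent.GR.D

/-- Transport of `IsDedekindDomain` along a ring isomorphism. -/
theorem isDedekindDomain_of_ringEquiv {S T : Type*} [CommRing S] [CommRing T] (e : S ≃+* T)
    [IsDedekindDomain S] : IsDedekindDomain T := by
  have hdom : IsDomain T := e.toMulEquiv.isDomain_iff.mp inferInstance
  have hn : IsNoetherianRing T := isNoetherianRing_of_ringEquiv S e
  have hd : Ring.DimensionLEOne T := Ring.DimensionLEOne.of_ringEquiv e.symm
  have hi : IsIntegrallyClosed T := IsIntegrallyClosed.of_equiv e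
  exact { hdom, hn, hd, hi with }

/-- A noetherian integrally closed domain which is integral over a ring of dimension `≤ 1`
is a Dedekind domain. -/
theorem isDedekindDomain_of_isIntegral (A S : Type*) [CommRing A] [Nontrivial A]
    [Ring.DimensionLEOne A] [CommRing S] [IsDomain S] [Algebra A S] [Algebra.IsIntegral A S]
    [IsNoetherianRing S] [IsIntegrallyClosed S] : IsDedekindDomain S := by
  have hd : Ring.DimensionLEOne S := Ring.DimensionLEOne.of_isIntegral A S
  exact { (inferInstance : IsDomain S), (inferInstance : IsNoetherianRing S), hd,
    (inferInstance : IsIntegrallyClosed S) with }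

/-- A domain, finite over a PID and integrally closed, is a Dedekind domain. -/
theorem isDedekindDomain_of_finite (A S : Type*) [CommRing A] [IsDomain A]
    [IsPrincipalIdealRing A] [CommRing S] [IsDomain S] [Algebra A S] [Module.Finite A S]
    [IsIntegrallyClosed S] : IsDedekindDomain S := by
  have : IsNoetherianRing S := IsNoetherianRing.of_finite A S
  exact isDedekindDomain_of_isIntegral A S

end Fermat.Agent.GR.D
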