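import Mathlib
import Fermat.Agent.GR.E.Defs

/-!
# (SemiLoc) the semi-localisation `(1 + πB)⁻¹ B`
-/

set_option autoImplicit false

namespace Fermat.Agent.GR.D

open Polynomial nonZeroDivisors

section General

variable {B : Type*} [CommRing B] (π : B)

/-- the multiplicative set `1 + πB` -/
def oneAddSubmonoid : Submonoid B where
  carrier := {s | π ∣ s - 1}
  one_mem' := by simp
  mul_mem' := by
    rintro a b ⟨x, hx⟩ ⟨y, hy⟩
    exact ⟨x * b + y, by linear_combination b * hx + hy⟩

lemma mem_oneAddSubmonoid {s : B} : s ∈ oneAddSubmonoid π ↔ π ∣ s - 1 := Iff.rfl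

lemma one_add_mul_mem (g : B) : 1 + π * g ∈ oneAddSubmonoid π := ⟨g, by ring⟩

/-- `(1 + πB)⁻¹ B` -/
abbrev SemiLoc := Localization (oneAddSubmonoid π)

variable (A : Type*) [CommRing A] [Algebra B A] [IsLocalization (oneAddSubmonoid π) A]

/-- (S1) `π` lies in the Jacobson radical of `(1 + πB)⁻¹ B`. -/
theorem algebraMap_mem_jacobson : algebraMap B A π ∈ (⊥ : Ideal A).jacobson := by
  rw [Ideal.mem_jacobson_bot]
  intro y
  obtain ⟨⟨f, s⟩, hy⟩ := IsLocalization.surj (oneAddSubmonoid π) y
  have hs : IsUnit (algebraMap B A s) := IsLocalization.map_units A s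
  have hmem : π * f + s ∈ oneAddSubmonoid π := by
    obtain ⟨x, hx⟩ := s.2
    exact ⟨f + x, by linear_combination hx⟩
  have h2 : IsUnit (algebraMap B A (π * f + s)) := IsLocalization.map_units A ⟨_, hmem⟩
  have h3 : (algebraMap B A π * y + 1) * algebraMap B A s = algebraMap B A (π * f + s) := by
    simp only at hy
    rw [map_add, map_mul, ← hy]
    ring
  rw [← h3] at h2
  exact isUnit_of_mul_isUnit_left h2

end General

section Quot

variable {C₀ : Type*} [CommRing C₀] (π : C₀) {C₁ : Type*} [CommRing C₁]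

/-- (S2), elementwise form: if every element of `C₁` is a fraction with denominator `≡ 1 mod π`
then `C₀/π → C₁/π` is bijective. -/
theorem bijective_quotientMap_of_surj (f : C₀ →+* C₁)
    (h1 : ∀ y : C₁, ∃ s d : C₀, π ∣ s - 1 ∧ y * f s = f d)
    (h2 : ∀ a b : C₀, f a = f b → ∃ u : C₀, π ∣ u - 1 ∧ u * a = u * b) :
    Function.Bijective (Ideal.quotientMap (Ideal.span {f π}) f
      (by
        rw [Ideal.span_singleton_le_iff_mem, Ideal.mem_comap]
        exact Ideal.mem_span_singleton_self _ : Ideal.span {π} ≤ _)) := by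
  constructor
  · rw [injective_iff_map_eq_zero]
    intro x hx
    obtain ⟨c, rfl⟩ := Ideal.Quotient.mk_surjective x
    rw [Ideal.quotientMap_mk, Ideal.Quotient.eq_zero_iff_mem, Ideal.mem_span_singleton'] at hx
    obtain ⟨y, hy⟩ := hx
    obtain ⟨s, d, ⟨b, hb⟩, hd⟩ := h1 y
    have h3 : f (s * c) = f (d * π) := by
      rw [map_mul, map_mul, ← hy, ← hd]
      ring
    obtain ⟨u, ⟨a, ha⟩, hu⟩ := h2 _ _ h3
    rw [Ideal.Quotient.eq_zero_iff_mem, Ideal.mem_span_singleton']
    refine ⟨u * d - (a * s + b) * c, ?_⟩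
    linear_combination (c * s) * ha + c * hb - hu
  · intro x
    obtain ⟨y, rfl⟩ := Ideal.Quotient.mk_surjective x
    obtain ⟨s, d, ⟨a, ha⟩, hd⟩ := h1 y
    refine ⟨Ideal.Quotient.mk _ d, ?_⟩
    rw [Ideal.quotientMap_mk, Ideal.Quotient.mk_eq_mk_iff_sub_mem, Ideal.mem_span_singleton']
    refine ⟨f a * y, ?_⟩
    have : f s = 1 + f π * f a := by
      rw [← map_mul, ← ha, map_sub, map_one]
      ring
    rw [← hd, this]
    ring

/-- (S2) the ring isomorphism `C₀/π ≃ C₁/π`, elementwise hypotheses. -/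
noncomputable def quotEquivOfSurj (f : C₀ →+* C₁)
    (h1 : ∀ y : C₁, ∃ s d : C₀, π ∣ s - 1 ∧ y * f s = f d)
    (h2 : ∀ a b : C₀, f a = f b → ∃ u : C₀, π ∣ u - 1 ∧ u * a = u * b) :
    (C₀ ⧸ Ideal.span {π}) ≃+* (C₁ ⧸ Ideal.span {f π}) :=
  RingEquiv.ofBijective _ (bijective_quotientMap_of_surj π f h1 h2)

@[simp] lemma quotEquivOfSurj_mk (f : C₀ →+* C₁)
    (h1 : ∀ y : C₁, ∃ s d : C₀, π ∣ s - 1 ∧ y * f s = f d)
    (h2 : ∀ a b : C₀, f a = f b → ∃ u : C₀, π ∣ u - 1 ∧ u * a = u * b) (c : C₀) :
    quotEquivOfSurj π f h1 h2 (Ideal.Quotient.mk _ c) = Ideal.Quotient.mk _ (f c) := rfl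

variable (M : Submonoid C₀) (hM : M ≤ oneAddSubmonoid π) (C₁) [Algebra C₀ C₁] [IsLocalization M C₁]

/-- (S2) the ring isomorphism `C₀/π ≃ C₁/π` for a localisation at elements `≡ 1 mod π`. -/
noncomputable def quotEquivOfLocalization :
    (C₀ ⧸ Ideal.span {π}) ≃+* (C₁ ⧸ Ideal.span {algebraMap C₀ C₁ π}) :=
  quotEquivOfSurj π (algebraMap C₀ C₁)
    (fun y => by
      obtain ⟨⟨d, s⟩, hd⟩ := IsLocalization.surj M y
      exact ⟨s, d, hM s.2, hd⟩)
    (fun a b hab => by
      obtain ⟨u, hu⟩ := (IsLocalization.eq_iff_exists M C₁).mp hab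
      exact ⟨u, hM u.2, hu⟩)

end Quot

section Domain

variable {B : Type*} [CommRing B] [IsDomain B] {π : B}
  (A : Type*) [CommRing A] [Algebra B A] [IsLocalization (oneAddSubmonoid π) A]

/-- (S4) -/
theorem oneAddSubmonoid_le_nonZeroDivisors (hπ : ¬ IsUnit π) : oneAddSubmonoid π ≤ B⁰ := by
  intro s hs
  rw [mem_nonZeroDivisors_iff_ne_zero]
  rintro rfl
  obtain ⟨x, hx⟩ := hs
  exact hπ (IsUnit.of_mul_eq_one (-x) (by linear_combination hx))

include π in
theorem isDomain_semiLoc (hπ : ¬ IsUnit π) : IsDomain A :=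
  IsLocalization.isDomain_of_le_nonZeroDivisors _ (oneAddSubmonoid_le_nonZeroDivisors hπ)

theorem algebraMap_injective_semiLoc (hπ : ¬ IsUnit π) : Function.Injective (algebraMap B A) :=
  IsLocalization.injective A (oneAddSubmonoid_le_nonZeroDivisors hπ)

/-- (S3) `π` stays prime. -/
theorem prime_algebraMap (hπ : Prime π) : Prime (algebraMap B A π) := by
  have hne : algebraMap B A π ≠ 0 := by
    intro h0
    exact hπ.ne_zero (algebraMap_injective_semiLoc A hπ.not_isUnit (by rw [h0, map_zero]))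
  have : (Ideal.span {π}).IsPrime := (Ideal.span_singleton_prime hπ.ne_zero).mpr hπ
  have e := quotEquivOfLocalization π A (oneAddSubmonoid π) le_rfl
  have hdom : IsDomain (A ⧸ Ideal.span {algebraMap B A π}) := e.symm.toMulEquiv.isDomain _
  exact (Ideal.span_singleton_prime hne).mp ((Ideal.Quotient.isDomain_iff_prime _).mp hdom)

omit [IsDomain B] in
/-- (S5) -/
theorem isPrincipalIdealRing_quotient (h : IsPrincipalIdealRing (B ⧸ Ideal.span {π})) :
    IsPrincipalIdealRing (A ⧸ Ideal.span {algebraMap B A π}) :=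
  IsPrincipalIdealRing.of_surjective
    (quotEquivOfLocalization π A (oneAddSubmonoid π) le_rfl).toRingHom
    (quotEquivOfLocalization π A (oneAddSubmonoid π) le_rfl).surjective

include π in
/-- (S6) every prime element of `(1 + πB)⁻¹ B` comes from a prime element of the UFD `B`. -/
theorem exists_prime_associated [UniqueFactorizationMonoid B] (p : A) (hp : Prime p) :
    ∃ f : B, Prime f ∧ Associated (algebraMap B A f) p := by
  obtain ⟨⟨m, s⟩, hm⟩ := IsLocalization.surj (oneAddSubmonoid π) p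
  simp only at hm
  have hs : IsUnit (algebraMap B A s) := IsLocalization.map_units A s
  have h1 : Associated (algebraMap B A m) p := by
    rw [← hm]
    exact (associated_mul_unit_left p _ hs)
  have hA : IsDomain A := by
    refine isDomain_semiLoc (π := π) A ?_
    intro hu
    -- if `π` is a unit then `0 ∈ 1 + πB` and `A` is trivial
    obtain ⟨v, hv⟩ := hu
    have h0 : (0 : B) ∈ oneAddSubmonoid π := ⟨-(v⁻¹ : Bˣ), by rw [← hv]; simp⟩
    have := IsLocalization.map_units A (⟨0, h0⟩ : oneAddSubmonoid π)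
    simp only [map_zero, isUnit_zero_iff] at this
    exact hp.ne_zero (by rw [← mul_one p, ← this, mul_zero])
  have hirr : Irreducible (algebraMap B A m) := h1.symm.irreducible hp.irreducible
  obtain ⟨u, m', hu, hm', rfl⟩ :=
    (IsLocalization.toLocalizationMap (oneAddSubmonoid π) A).eq_isUnit_map_mul_irreducible_of_irreducible_map
      (m := m) hirr
  refine ⟨m', hm'.prime, ?_⟩
  refine Associated.trans ?_ h1
  rw [map_mul]
  exact (associated_unit_mul_left _ _ hu).symm

end Domain

section Poly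

variable {R : Type*} [CommRing R] [IsDomain R] [IsDiscreteValuationRing R] {ϖ : R}

theorem prime_C (hϖ : Irreducible ϖ) : Prime (C ϖ : R[X]) :=
  Polynomial.prime_C_iff.mpr hϖ.prime

/-- `R[X]/ϖ = k[X]` is a PID. -/
theorem isPrincipalIdealRing_polynomial_quotient (hϖ : Irreducible ϖ) :
    IsPrincipalIdealRing (R[X] ⧸ Ideal.span {(C ϖ : R[X])}) := by
  have hmax : (Ideal.span {ϖ}).IsMaximal := by
    rw [← hϖ.maximalIdeal_eq]
    infer_instance
  let _ := Ideal.Quotient.field (Ideal.span {ϖ})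
  have e := Ideal.polynomialQuotientEquivQuotientPolynomial (Ideal.span {ϖ})
  have hI : (Ideal.span {ϖ}).map (C : R →+* R[X]) = Ideal.span {(C ϖ : R[X])} := by
    rw [Ideal.map_span, Set.image_singleton]
  rw [hI] at e
  exact IsPrincipalIdealRing.of_surjective e.toRingHom e.surjective

/-- the prime elements of `R[X]` -/
theorem prime_polynomial_cases (hϖ : Irreducible ϖ) (L : Type*) [Field L] [Algebra R L]
    [IsFractionRing R L] (f : R[X]) (hf : Prime f) :
    Associated f (C ϖ) ∨
      (¬ (C ϖ : R[X]) ∣ f ∧ f.IsPrimitive ∧ Irreducible (f.map (algebraMap R L))) := by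
  by_cases hdvd : (C ϖ : R[X]) ∣ f
  · left
    exact ((prime_C hϖ).irreducible.associated_of_dvd hf.irreducible hdvd).symm
  · right
    have hdeg : f.natDegree ≠ 0 := by
      intro h0
      obtain ⟨r, rfl⟩ : ∃ r, f = C r := ⟨f.coeff 0, Polynomial.eq_C_of_natDegree_eq_zero h0⟩
      have hr : Irreducible r := (Polynomial.prime_C_iff.mp hf).irreducible
      have := (IsDiscreteValuationRing.associated_of_irreducible R hϖ hr).dvd
      exact hdvd (map_dvd (C : R →+* R[X]) this)
    have hprim : f.IsPrimitive := hf.irreducible.isPrimitive hdeg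
    exact ⟨hdvd, hprim, (hprim.irreducible_iff_irreducible_map_fraction_map).mp hf.irreducible⟩

end Poly

section Closure

variable {B : Type*} [CommRing B] (π : B)
  (A : Type*) [CommRing A] [Algebra B A] [IsLocalization (oneAddSubmonoid π) A]
  {F : Type*} [Field F] [Algebra B F] [Algebra A F] [IsScalarTower B A F]

/-- (S7) integrality over `(1 + πB)⁻¹ B` -/
theorem isIntegral_semiLoc_iff (x : F) :
    IsIntegral A x ↔ ∃ s ∈ oneAddSubmonoid π, IsIntegral B (s • x) := by
  constructor
  · intro hx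
    obtain ⟨m, hm⟩ := IsIntegral.exists_multiple_integral_of_isLocalization (oneAddSubmonoid π) x hx
    exact ⟨m, m.2, hm⟩
  · rintro ⟨s, hs, hx⟩
    have h1 : IsIntegral A (s • x) := hx.tower_top
    obtain ⟨u, hu⟩ := IsLocalization.map_units A (⟨s, hs⟩ : oneAddSubmonoid π)
    have h2 : x = algebraMap A F ((u⁻¹ : Aˣ) : A) * (s • x) := by
      rw [Algebra.smul_def, IsScalarTower.algebraMap_apply B A F, ← mul_assoc, ← map_mul]
      have : ((u⁻¹ : Aˣ) : A) * algebraMap B A s = 1 := by
        have h3 : (u : A) = algebraMap B A s := hu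
        rw [← h3, Units.inv_mul]
      rw [this, map_one, one_mul]
    rw [h2]
    exact isIntegral_algebraMap.mul h1

end Closure

section AlgebraStructure

variable {B : Type*} [CommRing B] (π : B) {F : Type*} [Field F] [Algebra B F]

/-- the `(1 + πB)⁻¹ B`-algebra structure on a field `F` in which `1 + πB` does not vanish -/
@[reducible] noncomputable def semiLocAlgebra (h : ∀ s ∈ oneAddSubmonoid π, algebraMap B F s ≠ 0) :
    Algebra (SemiLoc π) F :=
  (IsLocalization.lift (M := oneAddSubmonoid π) (g := algebraMap B F)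
    (fun s => (h s s.2).isUnit)).toAlgebra

theorem semiLocAlgebra_isScalarTower (h : ∀ s ∈ oneAddSubmonoid π, algebraMap B F s ≠ 0) :
    letI := semiLocAlgebra π h
    IsScalarTower B (SemiLoc π) F := by
  let _ := semiLocAlgebra π h
  refine IsScalarTower.of_algebraMap_eq fun b => ?_
  exact (IsLocalization.lift_eq (M := oneAddSubmonoid π) (g := algebraMap B F)
    (fun s => (h s s.2).isUnit) b).symm

end AlgebraStructure

section Summary

variable {R : Type*} [CommRing R] [IsDomain R] [IsDiscreteValuationRing R] {ϖ : R}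

/-- all ring-theoretic properties of `A₁ = (1 + ϖR[X])⁻¹ R[X]` needed by `Core` -/
theorem semiLoc_polynomial_summary (hϖ : Irreducible ϖ) :
    IsDomain (SemiLoc (C ϖ : R[X])) ∧ IsNoetherianRing (SemiLoc (C ϖ : R[X])) ∧
      UniqueFactorizationMonoid (SemiLoc (C ϖ : R[X])) ∧
      Prime (algebraMap R[X] (SemiLoc (C ϖ : R[X])) (C ϖ)) ∧
      algebraMap R[X] (SemiLoc (C ϖ : R[X])) (C ϖ) ∈ (⊥ : Ideal (SemiLoc (C ϖ : R[X]))).jacobson ∧
      IsPrincipalIdealRing (SemiLoc (C ϖ : R[X]) ⧸
        Ideal.span {algebraMap R[X] (SemiLoc (C ϖ : R[X])) (C ϖ)}) :=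
  ⟨isDomain_semiLoc (π := (C ϖ : R[X])) _ (prime_C hϖ).not_isUnit,
    IsLocalization.isNoetherianRing (oneAddSubmonoid (C ϖ : R[X])) _ inferInstance,
    inferInstance, prime_algebraMap _ (prime_C hϖ), algebraMap_mem_jacobson _ _,
    isPrincipalIdealRing_quotient _ (isPrincipalIdealRing_polynomial_quotient hϖ)⟩

/-- the prime elements of `A₁ = (1 + ϖR[X])⁻¹ R[X]`: `ϖ`, or a primitive polynomial which is
irreducible over the fraction field. -/
theorem prime_semiLoc_cases (hϖ : Irreducible ϖ) (L : Type*) [Field L] [Algebra R L]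
    [IsFractionRing R L] (A : Type*) [CommRing A] [Algebra R[X] A]
    [IsLocalization (oneAddSubmonoid (C ϖ : R[X])) A] (p : A) (hp : Prime p) :
    Associated p (algebraMap R[X] A (C ϖ)) ∨
      ∃ f : R[X], Associated (algebraMap R[X] A f) p ∧ Prime f ∧ ¬ (C ϖ : R[X]) ∣ f ∧
        f.IsPrimitive ∧ Irreducible (f.map (algebraMap R L)) := by
  obtain ⟨f, hf, hfp⟩ := exists_prime_associated (π := (C ϖ : R[X])) A p hp
  rcases prime_polynomial_cases hϖ L f hf with h | ⟨h1, h2, h3⟩
  · left
    exact hfp.symm.trans (h.map (algebraMap R[X] A))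
  · right
    exact ⟨f, hfp, hf, h1, h2, h3⟩

end Summary

section Chart

variable {R : Type*} [CommRing R] {F : Type*} [Field F] [Algebra R F] [Algebra R[X] F]
  [IsScalarTower R R[X] F] {t : F}

theorem algebraMap_polynomial_eq_aeval (ht : algebraMap R[X] F X = t) (p : R[X]) :
    algebraMap R[X] F p = aeval t p := by
  have : IsScalarTower.toAlgHom R R[X] F = aeval t := by
    apply Polynomial.algHom_ext
    rw [aeval_X]
    exact ht
  exact DFunLike.congr_fun this p

/-- `chart R {t}` is the integral closure of `R[X]` (acting through `X ↦ t`). -/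
theorem mem_chart_iff_isIntegral (ht : algebraMap R[X] F X = t) (x : F) :
    x ∈ E.chart R ({t} : Set F) ↔ IsIntegral R[X] x := by
  rw [E.mem_chart]
  let φ : R[X] →+* Algebra.adjoin R ({t} : Set F) :=
    ((aeval t : R[X] →ₐ[R] F).codRestrict (Algebra.adjoin R ({t} : Set F)) (fun p => by
      rw [Algebra.adjoin_singleton_eq_range_aeval]
      exact ⟨p, rfl⟩)).toRingHom
  have hφ : Function.Surjective φ := by
    rintro ⟨y, hy⟩
    rw [Algebra.adjoin_singleton_eq_range_aeval] at hy
    obtain ⟨p, hp⟩ := hy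
    exact ⟨p, Subtype.ext hp⟩
  let _ : Algebra R[X] (Algebra.adjoin R ({t} : Set F)) := φ.toAlgebra
  have : IsScalarTower R[X] (Algebra.adjoin R ({t} : Set F)) F :=
    IsScalarTower.of_algebraMap_eq fun p => algebraMap_polynomial_eq_aeval ht p
  constructor
  · intro hx
    have : Algebra.IsIntegral R[X] (Algebra.adjoin R ({t} : Set F)) :=
      Algebra.isIntegral_of_surjective hφ
    exact isIntegral_trans x hx
  · intro hx
    exact hx.tower_top

section Equiv

variable (ϖ : R) (A : Type*) [CommRing A] [Algebra R[X] A]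
  [IsLocalization (oneAddSubmonoid (C ϖ : R[X])) A] [Algebra A F] [IsScalarTower R[X] A F]

/-- the inclusion of `chart R {t}` into the integral closure of `(1 + ϖR[X])⁻¹ R[X]` -/
def chartInclusion (ht : algebraMap R[X] F X = t) :
    E.chart R ({t} : Set F) →+* integralClosure A F where
  toFun x := ⟨x, ((mem_chart_iff_isIntegral ht (x : F)).mp x.2).tower_top⟩
  map_one' := rfl
  map_mul' _ _ := rfl
  map_zero' := rfl
  map_add' _ _ := rfl

omit [Algebra R[X] F] [IsScalarTower R R[X] F] in
lemma aeval_mem_chart (p : R[X]) : aeval t p ∈ E.chart R ({t} : Set F) := by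
  rw [E.mem_chart]
  have : aeval t p ∈ Algebra.adjoin R ({t} : Set F) := by
    rw [Algebra.adjoin_singleton_eq_range_aeval]
    exact ⟨p, rfl⟩
  exact isIntegral_algebraMap (x := (⟨_, this⟩ : Algebra.adjoin R ({t} : Set F)))

omit [IsLocalization (oneAddSubmonoid (C ϖ : R[X])) A] in
lemma chartInclusion_algebraMap (ht : algebraMap R[X] F X = t) :
    chartInclusion A ht (algebraMap R (E.chart R ({t} : Set F)) ϖ) =
      algebraMap A (integralClosure A F) (algebraMap R[X] A (C ϖ)) := by
  apply Subtype.ext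
  show algebraMap R F ϖ = algebraMap A F (algebraMap R[X] A (C ϖ))
  rw [← IsScalarTower.algebraMap_apply R[X] A F, algebraMap_polynomial_eq_aeval ht, aeval_C]

/-- (S8) `chart R {t} / ϖ ≃ C₁ / ϖ`, `C₁` the integral closure of `(1 + ϖR[X])⁻¹ R[X]` in `F`. -/
noncomputable def chartQuotEquiv (ht : algebraMap R[X] F X = t) :
    (E.chart R ({t} : Set F) ⧸ Ideal.span {algebraMap R (E.chart R ({t} : Set F)) ϖ}) ≃+*
      (integralClosure A F ⧸
        Ideal.span {algebraMap A (integralClosure A F) (algebraMap R[X] A (C ϖ))}) :=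
  (quotEquivOfSurj (algebraMap R (E.chart R ({t} : Set F)) ϖ) (chartInclusion A ht)
    (fun y => by
      obtain ⟨s, ⟨g, hg⟩, hs⟩ := (isIntegral_semiLoc_iff (C ϖ : R[X]) A (y : F)).mp y.2
      refine ⟨⟨aeval t s, aeval_mem_chart s⟩,
        ⟨s • (y : F), (mem_chart_iff_isIntegral ht _).mpr hs⟩,
        ⟨⟨aeval t g, aeval_mem_chart g⟩, ?_⟩, ?_⟩
      · apply Subtype.ext
        show aeval t s - 1 = algebraMap R F ϖ * aeval t g
        have := congrArg (aeval t) hg
        simpa using this
      · apply Subtype.ext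
        show (y : F) * aeval t s = s • (y : F)
        rw [Algebra.smul_def, algebraMap_polynomial_eq_aeval ht, mul_comm])
    (fun a b hab => ⟨1, by simp, by
      have : (a : F) = b := congrArg (fun z : integralClosure A F => (z : F)) hab
      rw [Subtype.ext this]⟩)).trans
  (Ideal.quotEquivOfEq (by rw [chartInclusion_algebraMap]))

end Equiv

end Chart

end Fermat.Agent.GR.D
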