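import Mathlib

/-!
# (T1) a finite normal extension of a "two-dimensional regular" domain is projective
-/

set_option autoImplicit false

namespace Fermat.Agent.GR.D

open Polynomial

section T1a

variable {B C : Type*} [CommRing B] [IsDomain B] [IsIntegrallyClosed B]
  [CommRing C] [IsDomain C] [IsIntegrallyClosed C] [Algebra B C] [Algebra.IsIntegral B C]
  [Module.IsTorsionFree B C]

/-- (T1a) `(π, t)` is a regular sequence on a normal integral extension. -/
theorem exists_eq_smul_of_smul_eq_smul {π t : B} (hπ : Prime π) (ht : ¬ π ∣ t) {u w : C}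
    (h : t • u = π • w) : ∃ y : C, u = π • y := by
  have ht0 : t ≠ 0 := fun h0 => ht (h0 ▸ dvd_zero π)
  have hu : IsIntegral B u := Algebra.IsIntegral.isIntegral u
  have hw : IsIntegral B w := Algebra.IsIntegral.isIntegral w
  have e1 := IsIntegrallyClosed.minpoly_smul ht0 hu
  have e2 := IsIntegrallyClosed.minpoly_smul hπ.ne_zero hw
  rw [h, e2] at e1
  set P := minpoly B u with hP
  set Q := minpoly B w with hQ
  have hdeg : Q.natDegree = P.natDegree := by
    have := congrArg natDegree e1
    rwa [natDegree_scaleRoots, natDegree_scaleRoots] at this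
  -- divisibility of the coefficients
  have hdvd : ∀ i, π ^ (P.natDegree - i) ∣ P.coeff i := by
    intro i
    have := congrArg (fun p => coeff p i) e1
    simp only [coeff_scaleRoots, hdeg] at this
    have h1 : π ^ (P.natDegree - i) ∣ P.coeff i * t ^ (P.natDegree - i) := ⟨Q.coeff i, by rw [← this]; ring⟩
    exact (hπ.pow_dvd_of_dvd_mul_right _ (fun h => ht (hπ.dvd_of_dvd_pow h)) h1)
  let L := FractionRing C
  let f : B →+* L := algebraMap B L
  have hf : Function.Injective f := FaithfulSMul.algebraMap_injective B L
  have hfπ : f π ≠ 0 := fun h0 => hπ.ne_zero (hf (by rw [h0, map_zero]))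
  have hPm : P.Monic := minpoly.monic hu
  set p : L[X] := (P.map f).scaleRoots (f π)⁻¹ with hp
  have hpm : p.Monic := (monic_scaleRoots_iff _).mpr (hPm.map f)
  have hlift : p ∈ lifts f := by
    rw [lifts_iff_coeff_lifts]
    intro i
    obtain ⟨c, hc⟩ := hdvd i
    refine ⟨c, ?_⟩
    rw [hp, coeff_scaleRoots, coeff_map, hPm.natDegree_map, hc, map_mul, map_pow, inv_pow]
    rw [mul_comm (f π ^ _) (f c), mul_assoc, mul_inv_cancel₀ (pow_ne_zero _ hfπ), mul_one]
  obtain ⟨q, hq, -, hqm⟩ := lifts_and_natDegree_eq_and_monic hlift hpm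
  set y : L := (f π)⁻¹ * algebraMap C L u with hy
  have hroot : eval₂ f y q = 0 := by
    rw [← eval_map, hq, hp, hy, mul_comm]
    have h0 : eval₂ (RingHom.id L) (algebraMap C L u) (P.map f) = 0 := by
      rw [eval₂_id, eval_map]
      have : eval₂ f (algebraMap C L u) P = algebraMap C L (aeval u P) := by
        rw [aeval_def, hom_eval₂]
        congr 1
      rw [this, hP, minpoly.aeval, map_zero]
    have := scaleRoots_eval₂_eq_zero (RingHom.id L) (r := algebraMap C L u) (s := (f π)⁻¹) h0
    rwa [eval₂_id, RingHom.id_apply, mul_comm] at this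
  have hyB : IsIntegral B y := ⟨q, hqm, hroot⟩
  have hyC : IsIntegral C y := hyB.tower_top
  obtain ⟨z, hz⟩ := IsIntegrallyClosed.isIntegral_iff.mp hyC
  refine ⟨z, ?_⟩
  apply FaithfulSMul.algebraMap_injective C L
  rw [Algebra.smul_def, map_mul, hz, hy, ← IsScalarTower.algebraMap_apply B C L]
  change _ = f π * _
  rw [mul_inv_cancel_left₀ hfπ]

end T1a

section T1b

open scoped Pointwise

variable {A C : Type*} [CommRing A] [IsDomain A] [IsIntegrallyClosed A]
  [CommRing C] [IsDomain C] [IsIntegrallyClosed C] [Algebra A C] [Algebra.IsIntegral A C]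
  [Module.IsTorsionFree A C]

/-- `C/πC` is torsion-free over `A/π`. -/
theorem isTorsionFree_quotSMulTop {π : A} (hπ : Prime π) :
    haveI : (Ideal.span {π}).IsPrime := (Ideal.span_singleton_prime hπ.ne_zero).mpr hπ
    Module.IsTorsionFree (A ⧸ Ideal.span {π}) (QuotSMulTop π C) := by
  have : (Ideal.span {π}).IsPrime := (Ideal.span_singleton_prime hπ.ne_zero).mpr hπ
  refine Module.IsTorsionFree.of_smul_eq_zero ?_
  intro r m hrm
  obtain ⟨t, rfl⟩ := Ideal.Quotient.mk_surjective r
  obtain ⟨u, rfl⟩ := Submodule.Quotient.mk_surjective _ m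
  by_cases ht : π ∣ t
  · left
    exact Ideal.Quotient.eq_zero_iff_mem.mpr (Ideal.mem_span_singleton.mpr ht)
  · right
    have h1 : (Submodule.Quotient.mk (t • u) : QuotSMulTop π C) = 0 := hrm
    rw [Submodule.Quotient.mk_eq_zero, Submodule.mem_smul_pointwise_iff_exists] at h1
    obtain ⟨w, -, hw⟩ := h1
    obtain ⟨y, hy⟩ := exists_eq_smul_of_smul_eq_smul hπ ht hw.symm
    rw [Submodule.Quotient.mk_eq_zero, Submodule.mem_smul_pointwise_iff_exists]
    exact ⟨y, trivial, hy.symm⟩

/-- (T1, semi-local form) `π` in the Jacobson radical, `A/π` a PID: then `C` is free. -/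
theorem free_of_mem_jacobson [IsNoetherianRing A] [Module.Finite A C] {π : A}
    (hπ : Prime π) (mem : π ∈ (⊥ : Ideal A).jacobson)
    (hpid : IsPrincipalIdealRing (A ⧸ Ideal.span {π})) : Module.Free A C := by
  have : (Ideal.span {π}).IsPrime := (Ideal.span_singleton_prime hπ.ne_zero).mpr hπ
  have reg : IsSMulRegular C π := IsSMulRegular.of_ne_zero hπ.ne_zero
  have : Module.FinitePresentation A C := Module.finitePresentation_of_finite A C
  refine (Module.free_quotSMulTop_iff_free A C mem reg).mp ?_
  have := isTorsionFree_quotSMulTop (C := C) hπ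
  have : Module.Finite (A ⧸ Ideal.span {π}) (QuotSMulTop π C) :=
    Module.Finite.of_restrictScalars_finite A _ _
  infer_instance

/-- (T1, local form) -/
theorem free_of_isLocalRing [IsLocalRing A] [IsNoetherianRing A] [Module.Finite A C] {π : A}
    (hπ : Prime π) (hpid : IsPrincipalIdealRing (A ⧸ Ideal.span {π})) : Module.Free A C := by
  refine free_of_mem_jacobson hπ ?_ hpid
  rw [IsLocalRing.jacobson_eq_maximalIdeal ⊥ bot_ne_top]
  exact (IsLocalRing.mem_maximalIdeal π).mpr hπ.not_isUnit

end T1b

section T1c

open nonZeroDivisors Module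

variable {B C : Type*} [CommRing B] [IsDomain B] [IsIntegrallyClosed B] [IsNoetherianRing B]
  [CommRing C] [IsDomain C] [IsIntegrallyClosed C] [Algebra B C] [Module.Finite B C]
  [Module.IsTorsionFree B C]

/-- (T1, at one prime) -/
theorem free_localization (p : Ideal B) [p.IsPrime]
    (H : IsPrincipalIdealRing (Localization.AtPrime p) ∨
      ∃ π : Localization.AtPrime p, Prime π ∧
        IsPrincipalIdealRing (Localization.AtPrime p ⧸ Ideal.span {π})) :
    Module.Free (Localization.AtPrime p)
      (Localization (Algebra.algebraMapSubmonoid C p.primeCompl)) := by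
  let Rₚ := Localization.AtPrime p
  let Sₚ := Localization (Algebra.algebraMapSubmonoid C p.primeCompl)
  have e : Algebra.algebraMapSubmonoid C p.primeCompl ≤ C⁰ :=
    Submonoid.map_le_of_le_comap _ <| p.primeCompl_le_nonZeroDivisors.trans
      (nonZeroDivisors_le_comap_nonZeroDivisors_of_injective _
        (FaithfulSMul.algebraMap_injective _ _))
  have : IsDomain Sₚ := IsLocalization.isDomain_of_le_nonZeroDivisors _ e
  have : IsTorsionFree Rₚ Sₚ := by
    rw [isTorsionFree_iff_algebraMap_injective]
    exact localizationAlgebra_injective _ _ (FaithfulSMul.algebraMap_injective B C)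
  have : Module.Finite Rₚ Sₚ := .of_isLocalization B C p.primeCompl
  have : IsIntegrallyClosed Sₚ := isIntegrallyClosed_of_isLocalization _ _ e
  have : IsIntegrallyClosed Rₚ :=
    isIntegrallyClosed_of_isLocalization _ _ p.primeCompl_le_nonZeroDivisors
  rcases H with H | ⟨π, hπ, H⟩
  · exact Module.free_of_finite_type_torsion_free'
  · exact free_of_isLocalRing hπ H

/-- (T1, global form) -/
theorem projective_of_isIntegrallyClosed
    (H : ∀ (p : Ideal B) [p.IsMaximal], IsPrincipalIdealRing (Localization.AtPrime p) ∨
      ∃ π : Localization.AtPrime p, Prime π ∧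
        IsPrincipalIdealRing (Localization.AtPrime p ⧸ Ideal.span {π})) :
    Module.Projective B C := by
  have : Module.FinitePresentation B C := Module.finitePresentation_of_finite B C
  refine Module.projective_of_localization_maximal' (fun p _ => Localization.AtPrime p)
    (fun p _ => Localization (Algebra.algebraMapSubmonoid C p.primeCompl))
    (fun p _ => (IsScalarTower.toAlgHom B C _).toLinearMap) ?_
  intro p hp
  have := free_localization (C := C) p (H p)
  infer_instance

end T1c

section Check

open nonZeroDivisors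

variable {B : Type*} [CommRing B] [IsDomain B] [IsNoetherianRing B]

omit [IsDomain B] [IsNoetherianRing B] in
lemma isPrincipalIdealRing_of_isLocalRing_of_isDedekindDomain (A : Type*) [CommRing A]
    [IsLocalRing A] [hA : IsDedekindDomain A] : IsPrincipalIdealRing A :=
  ((tfae_of_isNoetherianRing_of_isLocalRing_of_isDomain A).out 0 2).mpr hA

omit [IsNoetherianRing B] in
/-- the local condition of (T1) at the primes not containing `π` -/
theorem isPrincipalIdealRing_localization_of_not_mem {π : B}
    [IsDedekindDomain (Localization.Away π)] (p : Ideal B) [p.IsPrime] (hp : π ∉ p) :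
    IsPrincipalIdealRing (Localization.AtPrime p) := by
  have hp' : Submonoid.powers π ≤ p.primeCompl := by
    simpa [Submonoid.powers_le, Ideal.primeCompl]
  let Rₚ := Localization.AtPrime p
  let : Algebra (Localization.Away π) Rₚ :=
    IsLocalization.localizationAlgebraOfSubmonoidLe _ _ (.powers π) p.primeCompl hp'
  have : IsScalarTower B (Localization.Away π) Rₚ :=
    IsLocalization.localization_isScalarTower_of_submonoid_le ..
  have : IsLocalization (p.primeCompl.map (algebraMap B (Localization.Away π))) Rₚ :=
    IsLocalization.isLocalization_of_submonoid_le (Localization.Away π) Rₚ _ _ hp'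
  have hle : p.primeCompl.map (algebraMap B (Localization.Away π)) ≤ (Localization.Away π)⁰ :=
    map_le_nonZeroDivisors_of_injective _ (FaithfulSMul.algebraMap_injective _ _)
      p.primeCompl_le_nonZeroDivisors
  have : IsDedekindDomain Rₚ := IsLocalization.isDedekindDomain (Localization.Away π) hle Rₚ
  exact isPrincipalIdealRing_of_isLocalRing_of_isDedekindDomain Rₚ

omit [IsNoetherianRing B] in
/-- the local condition of (T1) at the primes containing `π` -/
theorem exists_prime_localization_of_mem {π : B} (hπ : Prime π)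
    (hD : IsDedekindDomain (B ⧸ Ideal.span {π})) (p : Ideal B) [p.IsPrime] (hp : π ∈ p) :
    ∃ π' : Localization.AtPrime p, Prime π' ∧
      IsPrincipalIdealRing (Localization.AtPrime p ⧸ Ideal.span {π'}) := by
  let Rₚ := Localization.AtPrime p
  let I : Ideal B := Ideal.span {π}
  have hI : I.map (algebraMap B Rₚ) = Ideal.span {algebraMap B Rₚ π} := by
    rw [Ideal.map_span, Set.image_singleton]
  have hle : Algebra.algebraMapSubmonoid (B ⧸ I) p.primeCompl ≤ (B ⧸ I)⁰ := by
    rintro _ ⟨s, hs, rfl⟩
    rw [mem_nonZeroDivisors_iff_ne_zero]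
    intro h0
    have : s ∈ I := Ideal.Quotient.eq_zero_iff_mem.mp h0
    exact hs ((Ideal.span_singleton_le_iff_mem p).mpr hp this)
  have hloc : IsLocalization (Algebra.algebraMapSubmonoid (B ⧸ I) p.primeCompl)
      (Rₚ ⧸ I.map (algebraMap B Rₚ)) := inferInstance
  have hdom : IsDomain (Rₚ ⧸ I.map (algebraMap B Rₚ)) :=
    IsLocalization.isDomain_of_le_nonZeroDivisors _ hle
  have hded : IsDedekindDomain (Rₚ ⧸ I.map (algebraMap B Rₚ)) :=
    IsLocalization.isDedekindDomain (B ⧸ I) hle _
  have hlocal : IsLocalRing (Rₚ ⧸ I.map (algebraMap B Rₚ)) :=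
    IsLocalRing.of_surjective' (Ideal.Quotient.mk _) Ideal.Quotient.mk_surjective
  have hpid : IsPrincipalIdealRing (Rₚ ⧸ I.map (algebraMap B Rₚ)) :=
    isPrincipalIdealRing_of_isLocalRing_of_isDedekindDomain _
  have hprime : (I.map (algebraMap B Rₚ)).IsPrime := (Ideal.Quotient.isDomain_iff_prime _).mp hdom
  have hne : algebraMap B Rₚ π ≠ 0 := by
    intro h0
    exact hπ.ne_zero (FaithfulSMul.algebraMap_injective B Rₚ (by rw [h0, map_zero]))
  refine ⟨algebraMap B Rₚ π, ?_, ?_⟩
  · rw [hI] at hprime
    exact (Ideal.span_singleton_prime hne).mp hprime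
  · rw [← hI]
    exact hpid

end Check

section Main

variable {B C : Type*} [CommRing B] [IsDomain B] [IsIntegrallyClosed B] [IsNoetherianRing B]
  [CommRing C] [IsDomain C] [IsIntegrallyClosed C] [Algebra B C] [Module.Finite B C]
  [Module.IsTorsionFree B C]

/-- (T1) Let `B` be a noetherian normal domain and `π ∈ B` a prime element with `B/π` and `B[1/π]`
Dedekind.  Then every finite torsion-free normal domain over `B` is locally free. -/
theorem free_localization_of_prime {π : B} (hπ : Prime π)
    (hD : IsDedekindDomain (B ⧸ Ideal.span {π})) [IsDedekindDomain (Localization.Away π)]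
    (p : Ideal B) [p.IsPrime] :
    Module.Free (Localization.AtPrime p)
      (Localization (Algebra.algebraMapSubmonoid C p.primeCompl)) := by
  apply free_localization
  by_cases hp : π ∈ p
  · exact Or.inr (exists_prime_localization_of_mem hπ hD p hp)
  · exact Or.inl (isPrincipalIdealRing_localization_of_not_mem p hp)

/-- (T1) -/
theorem projective_of_prime {π : B} (hπ : Prime π)
    (hD : IsDedekindDomain (B ⧸ Ideal.span {π})) [IsDedekindDomain (Localization.Away π)] :
    Module.Projective B C := by
  apply projective_of_isIntegrallyClosed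
  intro p _
  by_cases hp : π ∈ p
  · exact Or.inr (exists_prime_localization_of_mem hπ hD p hp)
  · exact Or.inl (isPrincipalIdealRing_localization_of_not_mem p hp)

end Main

end Fermat.Agent.GR.D
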