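import Mathlib
import Fermat.Agent.GR.E.Defs
import Fermat.Agent.GR.E.E0
import Fermat.Agent.GR.D.T1
import Fermat.Agent.GR.D.SemiLoc
import Fermat.Agent.GR.D.Glue
import Fermat.Agent.GR.D.Defs

/-! GR-D abstract leaves (A7), (A8), (A8'): finiteness. -/

set_option autoImplicit false

namespace Fermat.Agent.GR.D

open Polynomial Fermat.Agent.GR.E

variable {R : Type*} [CommRing R] [IsDomain R] [IsDiscreteValuationRing R] {ϖ : R}
  {F : Type*} [Field F] [Algebra R F] [Algebra R[X] F] [IsScalarTower R R[X] F]
  {𝒪 : ValuationSubring F}

/-- (A7) finiteness of the integral closure of `R[X]`. -/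
theorem finite_integralClosure_polynomial (K : Type*) [Field K] [Algebra R[X] K]
    [IsFractionRing R[X] K] [Algebra K F] [IsScalarTower R[X] K F] [FiniteDimensional K F]
    [Algebra.IsSeparable K F] : Module.Finite R[X] (integralClosure R[X] F) := by
  exact IsIntegralClosure.finite R[X] K F (integralClosure R[X] F)

/-- the ring isomorphism between the integral closure of `R[X]` and the chart -/
def A7_equiv {t : F} (ht : algebraMap R[X] F X = t) :
    integralClosure R[X] F ≃+* chart R ({t} : Set F) where
  toFun x := ⟨x, (mem_chart_iff_isIntegral ht (x : F)).mpr x.2⟩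
  invFun x := ⟨x, (mem_chart_iff_isIntegral ht (x : F)).mp x.2⟩
  left_inv _ := rfl
  right_inv _ := rfl
  map_mul' _ _ := rfl
  map_add' _ _ := rfl

/-- (A8) the chart is noetherian. -/
theorem isNoetherianRing_chart (K : Type*) [Field K] [Algebra R[X] K] [IsFractionRing R[X] K]
    [Algebra K F] [IsScalarTower R[X] K F] [FiniteDimensional K F] [Algebra.IsSeparable K F]
    {t : F} (ht : algebraMap R[X] F X = t) :
    IsNoetherianRing (chart R ({t} : Set F)) := by
  have h1 : Module.Finite R[X] (integralClosure R[X] F) := finite_integralClosure_polynomial K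
  have h2 : IsNoetherianRing (integralClosure R[X] F) := IsNoetherianRing.of_finite R[X] _
  exact isNoetherianRing_of_ringEquiv _ (A7_equiv ht)

/-- (A8') the finiteness statement in the shape of `ModelData.finite`. -/
theorem finite_integralClosure_adjoin (K : Type*) [Field K] [Algebra R[X] K]
    [IsFractionRing R[X] K] [Algebra K F] [IsScalarTower R[X] K F] [FiniteDimensional K F]
    [Algebra.IsSeparable K F] {t : F} (ht : algebraMap R[X] F X = t) :
    Module.Finite (Algebra.adjoin R ({t} : Set F))
      (integralClosure (Algebra.adjoin R ({t} : Set F)) F) := by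
  have h1 : Module.Finite R[X] (integralClosure R[X] F) := finite_integralClosure_polynomial K
  obtain ⟨S, hS⟩ := h1.fg_top
  have hmem : ∀ x : F, IsIntegral R[X] x → x ∈ integralClosure (Algebra.adjoin R ({t} : Set F)) F :=
    fun x hx => (mem_chart_iff_isIntegral ht x).mpr hx
  have hmem' : ∀ x : F, x ∈ integralClosure (Algebra.adjoin R ({t} : Set F)) F → IsIntegral R[X] x :=
    fun x hx => (mem_chart_iff_isIntegral ht x).mp hx
  classical
  let f : integralClosure R[X] F → integralClosure (Algebra.adjoin R ({t} : Set F)) F :=
    fun x => ⟨x, hmem x x.2⟩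
  refine ⟨⟨S.image f, ?_⟩⟩
  rw [eq_top_iff]
  rintro ⟨y, hy⟩ -
  have hy' : (⟨y, hmem' y hy⟩ : integralClosure R[X] F) ∈ Submodule.span R[X] (S : Set _) := by
    rw [hS]; trivial
  have key : ∀ z : integralClosure R[X] F, z ∈ Submodule.span R[X] (S : Set _) →
      f z ∈ Submodule.span (Algebra.adjoin R ({t} : Set F)) ((S.image f : Finset _) : Set _) := by
    intro z hz
    induction hz using Submodule.span_induction with
    | mem x hx =>
      apply Submodule.subset_span
      rw [Finset.coe_image]
      exact ⟨x, hx, rfl⟩
    | zero =>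
      have : f 0 = 0 := rfl
      rw [this]
      exact Submodule.zero_mem _
    | add x y _ _ hx hy =>
      have : f (x + y) = f x + f y := rfl
      rw [this]
      exact Submodule.add_mem _ hx hy
    | smul p x _ hx =>
      have hp : aeval t p ∈ Algebra.adjoin R ({t} : Set F) := by
        rw [Algebra.adjoin_singleton_eq_range_aeval]
        exact ⟨p, rfl⟩
      have : f (p • x) = (⟨aeval t p, hp⟩ : Algebra.adjoin R ({t} : Set F)) • f x := by
        apply Subtype.ext
        show (p • (x : F)) = aeval t p * (x : F)
        rw [Algebra.smul_def, algebraMap_polynomial_eq_aeval ht]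
      rw [this]
      exact Submodule.smul_mem _ _ hx
  exact key _ hy'

end Fermat.Agent.GR.D
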