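import Mathlib
import Fermat.Agent.GR.D.T1
import Fermat.Agent.GR.D.Defs

/-!
# GR-D, abstract core: the special fibre of a normal cover with "log-unramified" trace dual is normal
-/

set_option autoImplicit false

namespace Fermat.Agent.GR.D

/-- L1: an element which is nilpotent modulo a radical element `b` has trace divisible by `b`. -/
theorem core_dvd_trace {R S : Type*} [CommRing R] [CommRing S] [Algebra R S] [Module.Free R S]
    [Module.Finite R S] {b : R} (hb : IsRadical b) {u c : S} {m : ℕ} (h : u ^ m = b • c) :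
    b ∣ Algebra.trace R S u := by
  classical
  let e := Module.Free.chooseBasis R S
  rw [Algebra.trace_eq_matrix_trace e]
  set M := Algebra.leftMulMatrix e u with hM
  have hMm : M ^ m = b • Algebra.leftMulMatrix e c := by
    rw [hM, ← map_pow, h, map_smul]
  let q := Ideal.Quotient.mk (Ideal.span {b})
  have hnil : IsNilpotent (M.map q) := by
    refine ⟨m, ?_⟩
    have : (M.map q) ^ m = (M ^ m).map q := by
      have := map_pow (RingHom.mapMatrix (m := Module.Free.ChooseBasisIndex R S) q) M m
      simpa [RingHom.mapMatrix_apply] using this.symm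
    rw [this, hMm]
    ext i j
    simp only [Matrix.map_apply, Matrix.smul_apply, smul_eq_mul, map_mul, Matrix.zero_apply]
    have : q b = 0 := Ideal.Quotient.eq_zero_iff_mem.2 (Ideal.mem_span_singleton_self b)
    rw [this, zero_mul]
  obtain ⟨N, hN⟩ := Matrix.isNilpotent_trace_of_isNilpotent hnil
  have h2 : (M.map q).trace = q M.trace := by
    simp [Matrix.trace, map_sum]
  rw [h2, ← map_pow, Ideal.Quotient.eq_zero_iff_mem, Ideal.mem_span_singleton] at hN
  exact hb N _ hN

/-- L2: the trace of an element does not depend on the lattice. -/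
theorem core_trace_eq {R S T : Type*} [CommRing R] [IsDomain R] [CommRing S] [CommRing T]
    [Algebra R S] [Algebra R T] [Algebra S T] [IsScalarTower R S T]
    [Module.Free R S] [Module.Finite R S] [Module.Free R T] [Module.Finite R T]
    (a : R) (ha : a ≠ 0) (hinj : Function.Injective (algebraMap S T))
    (h : ∀ t : T, ∃ s : S, a • t = algebraMap S T s) (x : S) :
    Algebra.trace R T (algebraMap S T x) = Algebra.trace R S x := by
  classical
  choose κ hκ using h
  let ι : S →ₗ[R] T := (IsScalarTower.toAlgHom R S T).toLinearMap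
  have hι : ∀ s, ι s = algebraMap S T s := fun s => rfl
  let κ' : T →ₗ[R] S :=
    { toFun := κ
      map_add' := fun t t' => hinj (by rw [map_add, ← hκ, ← hκ, ← hκ, smul_add])
      map_smul' := fun r t => hinj (by
        rw [RingHom.id_apply, ← hκ, Algebra.smul_def r (κ t), map_mul, ← hκ,
          ← IsScalarTower.algebraMap_apply, ← Algebra.smul_def, smul_comm]) }
  have hκ' : ∀ t, κ' t = κ t := fun t => rfl
  have h1 : ι ∘ₗ (LinearMap.mulLeft R x ∘ₗ κ') = a • LinearMap.mulLeft R (algebraMap S T x) := by
    ext t
    simp only [LinearMap.comp_apply, LinearMap.mulLeft_apply, LinearMap.smul_apply, hι, hκ',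
      map_mul, ← hκ, mul_smul_comm]
  have h2 : (LinearMap.mulLeft R x ∘ₗ κ') ∘ₗ ι = a • LinearMap.mulLeft R x := by
    ext s
    apply hinj
    simp only [LinearMap.comp_apply, LinearMap.mulLeft_apply, LinearMap.smul_apply, hι, hκ',
      map_mul, ← hκ]
    rw [Algebra.smul_def a (x * s), map_mul, ← IsScalarTower.algebraMap_apply, map_mul,
      Algebra.smul_def]
    ring
  have h3 := LinearMap.trace_comp_comm' ι (LinearMap.mulLeft R x ∘ₗ κ')
  rw [h1, h2, map_smul, map_smul, smul_eq_mul, smul_eq_mul] at h3
  exact (mul_left_cancel₀ ha h3).symm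

theorem core_repr_mem_of_mem_map {R S : Type*} [CommRing R] [CommRing S] [Algebra R S]
    {ι : Type*} (e : Module.Basis ι R S) (I : Ideal R) {x : S}
    (hx : x ∈ I.map (algebraMap R S)) (i : ι) : e.repr x i ∈ I := by
  have hx' : x ∈ I • (⊤ : Submodule R S) := by
    rw [Ideal.smul_top_eq_map]; exact hx
  clear hx
  induction hx' using Submodule.smul_induction_on' with
  | smul r hr s _ =>
    rw [map_smul, Finsupp.smul_apply, smul_eq_mul]
    exact I.mul_mem_right _ hr
  | add x _ y _ hx hy =>
    rw [map_add, Finsupp.add_apply]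
    exact I.add_mem hx hy

/-- the reduction of a basis modulo an ideal of the base -/
theorem core_exists_basis_quotient {R S : Type*} [CommRing R] [CommRing S] [Algebra R S]
    {ι : Type*} [Fintype ι] (e : Module.Basis ι R S) (I : Ideal R) :
    ∃ B : Module.Basis ι (R ⧸ I) (S ⧸ I.map (algebraMap R S)),
      (∀ i, B i = Ideal.Quotient.mk _ (e i)) ∧
      ∀ x i, B.repr (Ideal.Quotient.mk _ x) i = Ideal.Quotient.mk I (e.repr x i) := by
  classical
  let v : ι → S ⧸ I.map (algebraMap R S) := fun i => Ideal.Quotient.mk _ (e i)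
  have hexp : ∀ x : S, (Ideal.Quotient.mk (I.map (algebraMap R S)) x) =
      ∑ i, Ideal.Quotient.mk I (e.repr x i) • v i := by
    intro x
    conv_lhs => rw [← e.sum_repr x]
    rw [map_sum]
    refine Finset.sum_congr rfl fun i _ => ?_
    rw [Ideal.Quotient.mk_smul_mk_quotient_map_quotient, Algebra.smul_def]
  have hli : LinearIndependent (R ⧸ I) v := by
    rw [Fintype.linearIndependent_iff]
    intro g hg i
    choose g' hg' using fun i => Ideal.Quotient.mk_surjective (g i)
    have h1 : Ideal.Quotient.mk (I.map (algebraMap R S)) (∑ i, g' i • e i) = 0 := by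
      rw [map_sum, ← hg]
      refine Finset.sum_congr rfl fun i _ => ?_
      rw [← hg' i, Ideal.Quotient.mk_smul_mk_quotient_map_quotient, Algebra.smul_def]
    rw [Ideal.Quotient.eq_zero_iff_mem] at h1
    have h2 := core_repr_mem_of_mem_map e I h1 i
    rw [e.repr_sum_self] at h2
    rw [← hg' i]
    exact Ideal.Quotient.eq_zero_iff_mem.2 h2
  have hsp : ⊤ ≤ Submodule.span (R ⧸ I) (Set.range v) := by
    rintro x -
    obtain ⟨x, rfl⟩ := Ideal.Quotient.mk_surjective x
    rw [hexp x]
    exact Submodule.sum_mem _ fun i _ => Submodule.smul_mem _ _ (Submodule.subset_span ⟨i, rfl⟩)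
  refine ⟨Module.Basis.mk hli hsp, fun i => by rw [Module.Basis.mk_apply], fun x i => ?_⟩
  have h3 : (Ideal.Quotient.mk (I.map (algebraMap R S)) x) =
      ∑ i, Ideal.Quotient.mk I (e.repr x i) • (Module.Basis.mk hli hsp) i := by
    rw [hexp x]
    refine Finset.sum_congr rfl fun i _ => ?_
    rw [Module.Basis.mk_apply]
  rw [h3, Module.Basis.repr_sum_self]

/-- L3: the trace commutes with reduction modulo an ideal of the base. -/
theorem core_trace_quotient {R S : Type*} [CommRing R] [CommRing S] [Algebra R S]
    [Module.Free R S] [Module.Finite R S] (I : Ideal R) :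
    Module.Free (R ⧸ I) (S ⧸ I.map (algebraMap R S)) ∧
    Module.Finite (R ⧸ I) (S ⧸ I.map (algebraMap R S)) ∧
    ∀ x : S, Algebra.trace (R ⧸ I) (S ⧸ I.map (algebraMap R S)) (Ideal.Quotient.mk _ x) =
      Ideal.Quotient.mk I (Algebra.trace R S x) := by
  classical
  let e := Module.Free.chooseBasis R S
  obtain ⟨B, hB, hB'⟩ := core_exists_basis_quotient e I
  refine ⟨Module.Free.of_basis B, Module.Finite.of_basis B, fun x => ?_⟩
  rw [Algebra.trace_eq_matrix_trace B, Algebra.trace_eq_matrix_trace e, Matrix.trace, Matrix.trace,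
    map_sum]
  refine Finset.sum_congr rfl fun i _ => ?_
  rw [Matrix.diag_apply, Matrix.diag_apply, Algebra.leftMulMatrix_eq_repr_mul,
    Algebra.leftMulMatrix_eq_repr_mul, hB, ← map_mul, hB']

/-- P4, the order lemma. -/
theorem core_isIntegrallyClosed_of_logDual {R S : Type*} [CommRing R] [IsDomain R]
    [IsPrincipalIdealRing R] [CommRing S] [IsDomain S] [Algebra R S] [Module.Free R S]
    [Module.Finite R S] {ι : Type*} [Fintype ι] (e y : ι → S) (b : R) (hb : Squarefree b)
    (hexp : ∀ w : S, b • w = ∑ i, Algebra.trace R S (y i * w) • e i)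
    (hnil : ∀ i, ∃ (m : ℕ) (c : S), y i ^ m = b • c) : IsIntegrallyClosed S := by
  classical
  have hb0 : b ≠ 0 := hb.ne_zero
  have hbr : IsRadical b := hb.isRadical
  have hRS : Function.Injective (algebraMap R S) := FaithfulSMul.algebraMap_injective R S
  have : Algebra.IsIntegral R S := Algebra.IsIntegral.of_finite R S
  let E := FractionRing S
  have hSE : Function.Injective (algebraMap S E) := IsFractionRing.injective S E
  rw [isIntegrallyClosed_iff E]
  intro z hz
  -- denominators in `R`
  have hden : ∀ s : Finset E, ∃ a : R, a ≠ 0 ∧ ∀ t ∈ s, ∃ w : S, a • t = algebraMap S E w := by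
    intro s
    obtain ⟨⟨v, hv⟩, hv'⟩ := IsLocalization.exist_integer_multiples_of_finset (nonZeroDivisors S) s
    obtain ⟨a, ha, v', hv''⟩ := (Algebra.IsAlgebraic.isAlgebraic (R := R) v).exists_nonzero_dvd hv
    refine ⟨a, ha, fun t ht => ?_⟩
    obtain ⟨w, hw⟩ := hv' t ht
    refine ⟨v' * w, ?_⟩
    rw [map_mul, hw, Algebra.smul_def, IsScalarTower.algebraMap_apply R S E, hv'', map_mul]
    simp only [Algebra.smul_def]
    ring
  let T := Algebra.adjoin S {z}
  have hfinST : Module.Finite S T := Module.Finite.iff_fg.2 hz.fg_adjoin_singleton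
  have hfinRT : Module.Finite R T := Module.Finite.trans S T
  have hTE : Function.Injective (algebraMap T E) := Subtype.val_injective
  have hST : Function.Injective (algebraMap S T) := by
    intro s s' hss
    apply hSE
    have := congrArg (algebraMap T E) hss
    simpa [← IsScalarTower.algebraMap_apply] using this
  have hRT : Function.Injective (algebraMap R T) := by
    rw [IsScalarTower.algebraMap_eq R S T]
    exact hST.comp hRS
  have : Module.IsTorsionFree R T := by
    rw [Module.isTorsionFree_iff_algebraMap_injective]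
    exact hRT
  have hfreeRT : Module.Free R T := inferInstance
  -- a common denominator for `T`
  obtain ⟨a', ha', hT⟩ : ∃ a' : R, a' ≠ 0 ∧ ∀ t : T, ∃ w : S, a' • t = algebraMap S T w := by
    obtain ⟨g, hg⟩ := hfinST.fg_top
    obtain ⟨a', ha', h'⟩ := hden (g.image (algebraMap T E))
    refine ⟨a', ha', fun t => ?_⟩
    have ht : t ∈ Submodule.span S (g : Set T) := hg ▸ Submodule.mem_top
    induction ht using Submodule.span_induction with
    | mem t ht =>
      obtain ⟨w, hw⟩ := h' (algebraMap T E t) (Finset.mem_image_of_mem _ ht)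
      refine ⟨w, hTE ?_⟩
      rw [← IsScalarTower.algebraMap_apply, ← hw, Algebra.smul_def, map_mul,
        ← IsScalarTower.algebraMap_apply, Algebra.smul_def]
    | zero => exact ⟨0, by simp⟩
    | add t t' _ _ h1 h2 =>
      obtain ⟨w, hw⟩ := h1
      obtain ⟨w', hw'⟩ := h2
      exact ⟨w + w', by rw [smul_add, hw, hw', map_add]⟩
    | smul r t _ h1 =>
      obtain ⟨w, hw⟩ := h1
      exact ⟨r * w, by rw [smul_comm, hw, map_mul, Algebra.smul_def]⟩
  have htr : ∀ x : S, Algebra.trace R T (algebraMap S T x) = Algebra.trace R S x :=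
    core_trace_eq a' ha' hST hT
  -- write `z = w / a`
  obtain ⟨a, ha, hza⟩ := hden {z}
  obtain ⟨w, hw⟩ := hza z (Finset.mem_singleton_self z)
  let zT : T := ⟨z, Algebra.self_mem_adjoin_singleton S z⟩
  have hzT : a • zT = algebraMap S T w := by
    apply hTE
    rw [← IsScalarTower.algebraMap_apply, ← hw, Algebra.smul_def, map_mul,
      ← IsScalarTower.algebraMap_apply, Algebra.smul_def]
    rfl
  have key : ∀ i, ∃ t : R, Algebra.trace R S (y i * w) = a * b * t := by
    intro i
    obtain ⟨m, c, hc⟩ := hnil i
    have h1 : (zT * algebraMap S T (y i)) ^ m = b • (zT ^ m * algebraMap S T c) := by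
      rw [mul_pow, ← map_pow, hc, Algebra.smul_def, map_mul, ← IsScalarTower.algebraMap_apply,
        Algebra.smul_def]
      ring
    obtain ⟨t, ht⟩ := core_dvd_trace hbr h1
    refine ⟨t, ?_⟩
    rw [← htr, map_mul, ← hzT, mul_smul_comm, map_smul, mul_comm (algebraMap S T (y i)), ht,
      smul_eq_mul, mul_assoc]
  choose t ht using key
  refine ⟨∑ i, t i • e i, ?_⟩
  have h2 : b • w = b • a • ∑ i, t i • e i := by
    rw [hexp w, Finset.smul_sum, Finset.smul_sum]
    refine Finset.sum_congr rfl fun i _ => ?_
    rw [ht i, smul_smul, smul_smul]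
    congr 1
    ring
  have h3 : w = a • ∑ i, t i • e i := by
    have hbS : algebraMap R S b ≠ 0 := fun h0 => hb0 (hRS (by rw [h0, map_zero]))
    rw [Algebra.smul_def, Algebra.smul_def b] at h2
    exact mul_left_cancel₀ hbS h2
  have haE : algebraMap R E a ≠ 0 := by
    rw [IsScalarTower.algebraMap_apply R S E]
    intro h0
    exact ha (hRS (hSE (by rw [h0, map_zero, map_zero])))
  rw [h3, Algebra.smul_def, Algebra.smul_def, map_mul, ← IsScalarTower.algebraMap_apply] at hw
  exact (mul_left_cancel₀ haE hw).symm

/-- saturation: `π ^ k • u` and `s • u` integral with `π ∤ s` imply `u` integral. -/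
theorem core_isIntegral_of_smul {A : Type*} (K : Type*) {F : Type*} [CommRing A] [IsDomain A]
    [IsIntegrallyClosed A] [Field K] [Algebra A K] [IsFractionRing A K] [Field F] [Algebra K F]
    [Algebra A F] [IsScalarTower A K F] [FiniteDimensional K F]
    {π s : A} (hπ : Prime π) (hs : ¬ π ∣ s) (u : F) (k : ℕ)
    (h1 : IsIntegral A (π ^ k • u)) (h2 : IsIntegral A (s • u)) : IsIntegral A u := by
  have : IsIntegrallyClosed (integralClosure A F) :=
    integralClosure.isIntegrallyClosedOfFiniteExtension K
  have hAF : Function.Injective (algebraMap A F) := by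
    rw [IsScalarTower.algebraMap_eq A K F]
    exact (algebraMap K F).injective.comp (IsFractionRing.injective A K)
  have : Module.IsTorsionFree A (integralClosure A F) := by
    rw [Module.isTorsionFree_iff_algebraMap_injective]
    intro x y hxy
    exact hAF (congrArg (algebraMap (integralClosure A F) F) hxy)
  induction k with
  | zero => simpa using h1
  | succ k ih =>
    apply ih
    let U : integralClosure A F := ⟨π ^ (k + 1) • u, h1⟩
    let W : integralClosure A F := ⟨π ^ k • s • u, h2.smul _⟩
    have hUW : s • U = π • W := by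
      apply Subtype.ext
      change s • π ^ (k + 1) • u = π • π ^ k • s • u
      simp only [smul_smul]
      congr 1
      ring
    obtain ⟨y, hy⟩ := exists_eq_smul_of_smul_eq_smul hπ hs hUW
    have hy' : π ^ (k + 1) • u = π • (y : F) := congrArg Subtype.val hy
    have hπF : algebraMap A F π ≠ 0 := fun h0 => hπ.ne_zero (hAF (by rw [h0, map_zero]))
    have : π ^ k • u = (y : F) := by
      rw [pow_succ', mul_smul, Algebra.smul_def, Algebra.smul_def π (y : F)] at hy'
      exact mul_left_cancel₀ hπF hy'
    rw [this]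
    exact y.2

/-- consequence of `hunr` and `hlog`: `b • x` is integral and nilpotent modulo `b`. -/
theorem core_logDual {A K F : Type*} [CommRing A] [IsDomain A]
    [IsIntegrallyClosed A] [Field K] [Algebra A K] [IsFractionRing A K] [Field F] [Algebra K F]
    [Algebra A F] [IsScalarTower A K F] [FiniteDimensional K F]
    {π b : A} (hπ : Prime π) (hb : ¬ π ∣ b) {x : F}
    (hunr : ∃ s : A, ¬ π ∣ s ∧ IsIntegral A (s • x))
    (hlog : (∃ k : ℕ, IsIntegral A (π ^ k • b • x)) ∧
      ∃ (k m : ℕ) (c : F), IsIntegral A c ∧ π ^ k • (b • x) ^ m = b • c) :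
    IsIntegral A (b • x) ∧ ∃ (m : ℕ) (c : F), IsIntegral A c ∧ (b • x) ^ m = b • c := by
  have hAF : Function.Injective (algebraMap A F) := by
    rw [IsScalarTower.algebraMap_eq A K F]
    exact (algebraMap K F).injective.comp (IsFractionRing.injective A K)
  have hb0 : b ≠ 0 := fun h0 => hb (h0 ▸ dvd_zero π)
  have hbF : algebraMap A F b ≠ 0 := fun h0 => hb0 (hAF (by rw [h0, map_zero]))
  obtain ⟨s, hs, hsx⟩ := hunr
  obtain ⟨⟨k, hk⟩, k', m, c, hc, hkm⟩ := hlog
  have h1 : IsIntegral A (b • x) := by
    refine core_isIntegral_of_smul K hπ hs (b • x) k hk ?_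
    rw [smul_comm]
    exact hsx.smul b
  refine ⟨h1, m, (algebraMap A F b)⁻¹ * (b • x) ^ m, ?_, ?_⟩
  · refine core_isIntegral_of_smul K hπ hb _ k' ?_ ?_
    · rw [← mul_smul_comm, hkm, Algebra.smul_def b c, inv_mul_cancel_left₀ hbF]
      exact hc
    · rw [Algebra.smul_def b (_ * _), mul_inv_cancel_left₀ hbF]
      exact h1.pow m
  · rw [Algebra.smul_def b (_ * _), mul_inv_cancel_left₀ hbF]

/-- **D-core.** -/
theorem core {A K F : Type*} [CommRing A] [IsDomain A] [IsNoetherianRing A]
    [IsIntegrallyClosed A] [Field K] [Algebra A K] [IsFractionRing A K] [Field F] [Algebra K F]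
    [Algebra A F] [IsScalarTower A K F] [FiniteDimensional K F] [Algebra.IsSeparable K F]
    (π b : A) (hπ : Prime π) (hjac : π ∈ (⊥ : Ideal A).jacobson)
    (hpid : IsPrincipalIdealRing (A ⧸ Ideal.span {π}))
    (hb : Squarefree (Ideal.Quotient.mk (Ideal.span {π}) b))
    (hunr : ∀ x : F, InTraceDual A K x → ∃ s : A, ¬ π ∣ s ∧ IsIntegral A (s • x))
    (hlog : ∀ x : F, InTraceDual A K x → (∃ k : ℕ, IsIntegral A (π ^ k • b • x)) ∧
      ∃ (k m : ℕ) (c : F), IsIntegral A c ∧ π ^ k • (b • x) ^ m = b • c)
    (hdom : (Ideal.span {algebraMap A (integralClosure A F) π}).IsPrime) :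
    IsIntegrallyClosed (integralClosure A F ⧸ Ideal.span {algebraMap A (integralClosure A F) π}) := by
  classical
  have hIprime : (Ideal.span {π}).IsPrime := (Ideal.span_singleton_prime hπ.ne_zero).mpr hπ
  have hπb : ¬ π ∣ b := by
    intro h
    have : Ideal.Quotient.mk (Ideal.span {π}) b = 0 :=
      Ideal.Quotient.eq_zero_iff_mem.2 (Ideal.mem_span_singleton.2 h)
    exact hb.ne_zero this
  have hAK : Function.Injective (algebraMap A K) := IsFractionRing.injective A K
  have hAF : Function.Injective (algebraMap A F) := by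
    rw [IsScalarTower.algebraMap_eq A K F]
    exact (algebraMap K F).injective.comp hAK
  have : IsIntegrallyClosed (integralClosure A F) :=
    integralClosure.isIntegrallyClosedOfFiniteExtension K
  have : Module.IsTorsionFree A (integralClosure A F) := by
    rw [Module.isTorsionFree_iff_algebraMap_injective]
    intro x y hxy
    exact hAF (congrArg (algebraMap (integralClosure A F) F) hxy)
  have : Module.Finite A (integralClosure A F) := IsIntegralClosure.finite A K F _
  have : IsLocalization (Algebra.algebraMapSubmonoid (integralClosure A F) (nonZeroDivisors A)) F :=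
    IsIntegralClosure.isLocalization A K F _
  have : Module.Free A (integralClosure A F) := free_of_mem_jacobson hπ hjac hpid
  let e := Module.Free.chooseBasis A (integralClosure A F)
  let eF := e.localizationLocalization K (nonZeroDivisors A) F
  have heF : ∀ i, eF i = (e i : F) := fun i =>
    Module.Basis.localizationLocalization_apply K (nonZeroDivisors A) F e i
  let d := (Algebra.traceForm K F).dualBasis (traceForm_nondegenerate K F) eF
  have hd : ∀ i j, Algebra.trace K F (d i * (e j : F)) = if j = i then 1 else 0 := by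
    intro i j
    rw [← heF, ← Algebra.traceForm_apply]
    exact LinearMap.BilinForm.apply_dualBasis_left _ _ _ _
  -- trace of `d i * w`
  have hdw : ∀ (i) (w : integralClosure A F),
      Algebra.trace K F (d i * (w : F)) = algebraMap A K (e.repr w i) := by
    intro i w
    conv_lhs => rw [← e.sum_repr w]
    have : ((∑ j, e.repr w j • e j : integralClosure A F) : F)
        = ∑ j, algebraMap A K (e.repr w j) • (e j : F) := by
      rw [← Subalgebra.coe_val, map_sum]
      refine Finset.sum_congr rfl fun j _ => ?_
      rw [map_smul, Subalgebra.coe_val, algebraMap_smul]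
    rw [this, Finset.mul_sum, map_sum]
    simp only [mul_smul_comm, map_smul, hd, smul_eq_mul, mul_ite, mul_one, mul_zero,
      Finset.sum_ite_eq', Finset.mem_univ, if_true]
  have hdual : ∀ i, InTraceDual A K (d i) := fun i c hc => ⟨_, (hdw i ⟨c, hc⟩).symm⟩
  have hld := fun i => core_logDual (K := K) hπ hπb (hunr _ (hdual i)) (hlog _ (hdual i))
  let y : _ → integralClosure A F := fun i => ⟨b • d i, (hld i).1⟩
  have hy : ∀ i, ∃ (m : ℕ) (c : integralClosure A F), y i ^ m = b • c := by
    intro i
    obtain ⟨m, c, hc, hm⟩ := (hld i).2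
    exact ⟨m, ⟨c, hc⟩, Subtype.ext hm⟩
  have htr : ∀ (i) (w : integralClosure A F),
      Algebra.trace A (integralClosure A F) (y i * w) = b * e.repr w i := by
    intro i w
    apply hAK
    have : algebraMap (integralClosure A F) F (y i * w) = algebraMap A K b • (d i * (w : F)) := by
      change (b • d i) * (w : F) = _
      rw [smul_mul_assoc, algebraMap_smul]
    rw [← Algebra.trace_localization A (nonZeroDivisors A) (Sₘ := F), this, map_smul, smul_eq_mul,
      hdw, map_mul]
  have hexp : ∀ w : integralClosure A F,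
      b • w = ∑ i, Algebra.trace A (integralClosure A F) (y i * w) • e i := by
    intro w
    conv_lhs => rw [← e.sum_repr w]
    rw [Finset.smul_sum]
    refine Finset.sum_congr rfl fun i _ => ?_
    rw [htr, mul_smul]
  -- reduce modulo `π`
  have hmap : (Ideal.span {π}).map (algebraMap A (integralClosure A F)) =
      Ideal.span {algebraMap A (integralClosure A F) π} := by
    rw [Ideal.map_span, Set.image_singleton]
  rw [← hmap] at hdom ⊢
  obtain ⟨hfree, hfin, htrq⟩ := core_trace_quotient (R := A) (S := integralClosure A F)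
    (Ideal.span {π})
  refine core_isIntegrallyClosed_of_logDual (R := A ⧸ Ideal.span {π})
    (fun i => Ideal.Quotient.mk _ (e i)) (fun i => Ideal.Quotient.mk _ (y i))
    (Ideal.Quotient.mk _ b) hb ?_ ?_
  · intro w
    obtain ⟨w, rfl⟩ := Ideal.Quotient.mk_surjective w
    rw [Ideal.Quotient.mk_smul_mk_quotient_map_quotient, ← Algebra.smul_def, hexp w, map_sum]
    refine Finset.sum_congr rfl fun i _ => ?_
    rw [← map_mul, htrq, Ideal.Quotient.mk_smul_mk_quotient_map_quotient, ← Algebra.smul_def]
  · intro i
    obtain ⟨m, c, hc⟩ := hy i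
    refine ⟨m, Ideal.Quotient.mk _ c, ?_⟩
    rw [← map_pow, hc, Ideal.Quotient.mk_smul_mk_quotient_map_quotient, ← Algebra.smul_def]

end Fermat.Agent.GR.D
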