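import Mathlib

/-!
GR-D, glue: from the trace-dual statement over `A0` (a localisation of `B0`, e.g. `L[X]`) to the
condition (UNR) over another localisation `A` of `B0` (e.g. the semilocalisation of `R[X]`).
-/

set_option autoImplicit false

namespace Fermat.Agent.GR.D

section

variable {B0 A A0 K0 F : Type*} [CommRing B0] [CommRing A] [CommRing A0] [Field K0] [Field F]
  [Algebra B0 A] [Algebra B0 A0] [Algebra B0 K0] [Algebra A K0] [Algebra A0 K0]
  [IsScalarTower B0 A K0] [IsScalarTower B0 A0 K0]
  [Algebra K0 F] [Algebra B0 F] [Algebra A F] [Algebra A0 F]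
  [IsScalarTower B0 K0 F] [IsScalarTower A K0 F] [IsScalarTower A0 K0 F]
  [IsScalarTower B0 A F] [IsScalarTower B0 A0 F]

omit [Algebra B0 K0] [Algebra A0 K0] [IsScalarTower B0 A0 K0] [Algebra K0 F] [IsScalarTower B0 K0 F]
  [IsScalarTower A0 K0 F] [Field K0] in
/-- Common denominator for finitely many elements integral over a localisation. -/
theorem glue_exists_common_multiple (M0 : Submonoid B0) [IsLocalization M0 A0]
    (s : Finset (integralClosure A0 F)) :
    ∃ μ ∈ M0, ∀ c ∈ s, IsIntegral B0 (algebraMap B0 F μ * (c : F)) := by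
  classical
  choose m hm using fun c : integralClosure A0 F =>
    IsIntegral.exists_multiple_integral_of_isLocalization M0 (c : F) c.2
  refine ⟨∏ c ∈ s, (m c : B0), Submonoid.prod_mem _ fun c _ => (m c).2, fun c hc => ?_⟩
  rw [← Finset.mul_prod_erase s _ hc, mul_comm (m c : B0), map_mul, mul_assoc]
  refine IsIntegral.mul isIntegral_algebraMap ?_
  have := hm c
  rwa [Submonoid.smul_def, Algebra.smul_def] at this

omit [IsScalarTower A K0 F] in
theorem unr_of_tame (M M0 : Submonoid B0) [IsLocalization M A] [IsLocalization M0 A0]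
    [Module.Finite A0 (integralClosure A0 F)] (T : B0)
    (tame : ∀ y : F, (∀ a : F, IsIntegral A0 a →
      Algebra.trace K0 F (y * a) ∈ (algebraMap A0 K0).range) →
        IsIntegral A0 (algebraMap B0 F T * y))
    (x : F) (hx : ∀ c : F, IsIntegral A c → Algebra.trace K0 F (x * c) ∈ (algebraMap A K0).range) :
    ∃ σ ∈ M, ∃ μ ∈ M0, IsIntegral B0 (algebraMap B0 F (μ * T * σ) * x) := by
  classical
  obtain ⟨s, hs⟩ := (Module.Finite.fg_top : (⊤ : Submodule A0 (integralClosure A0 F)).FG)
  obtain ⟨μ1, hμ1, hint⟩ := glue_exists_common_multiple (A0 := A0) (F := F) M0 s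
  -- traces against the integral multiples
  have h1 : ∀ c : integralClosure A0 F, c ∈ s →
      Algebra.trace K0 F (x * (algebraMap B0 F μ1 * (c : F))) ∈ (algebraMap A K0).range :=
    fun c hc => hx _ ((hint c hc).tower_top)
  choose! a ha using h1
  obtain ⟨σ, hσ⟩ := IsLocalization.exist_integer_multiples M s a
  set y : F := algebraMap B0 F σ * x with hy
  have hunit : IsUnit (algebraMap B0 K0 μ1) := by
    rw [IsScalarTower.algebraMap_apply B0 A0 K0]
    exact (IsLocalization.map_units A0 (⟨μ1, hμ1⟩ : M0)).map _
  have hgen : ∀ c ∈ s, Algebra.trace K0 F (y * (c : F)) ∈ (algebraMap A0 K0).range := by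
    intro c hc
    obtain ⟨b, hb⟩ := hσ c hc
    refine ⟨IsLocalization.mk' A0 b (⟨μ1, hμ1⟩ : M0), ?_⟩
    have e1 : algebraMap B0 K0 μ1 * Algebra.trace K0 F (y * (c : F)) = algebraMap B0 K0 b := by
      have e2 : algebraMap B0 K0 (σ : B0) * Algebra.trace K0 F (x * (algebraMap B0 F μ1 * (c : F))) =
          algebraMap B0 K0 b := by
        rw [← ha c hc, IsScalarTower.algebraMap_apply B0 A K0, ← map_mul,
          IsScalarTower.algebraMap_apply B0 A K0 b, hb, Algebra.smul_def]
      rw [← e2, ← smul_eq_mul, ← smul_eq_mul (a := algebraMap B0 K0 (σ : B0)), ← map_smul,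
        ← map_smul]
      congr 1
      rw [hy, Algebra.smul_def, Algebra.smul_def, ← IsScalarTower.algebraMap_apply,
        ← IsScalarTower.algebraMap_apply]
      ring
    have e3 : algebraMap B0 K0 μ1 * algebraMap A0 K0 (IsLocalization.mk' A0 b (⟨μ1, hμ1⟩ : M0)) =
        algebraMap B0 K0 b := by
      rw [IsScalarTower.algebraMap_apply B0 A0 K0, ← map_mul,
        IsScalarTower.algebraMap_apply B0 A0 K0 b]
      congr 1
      exact IsLocalization.mul_mk'_eq_mk'_of_mul _ _ _ |>.trans (by
        rw [IsLocalization.mk'_eq_iff_eq_mul]; rw [mul_comm]; simp)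
    exact hunit.mul_left_cancel (e3.trans e1.symm)
  have hall : ∀ a : F, IsIntegral A0 a →
      Algebra.trace K0 F (y * a) ∈ (algebraMap A0 K0).range := by
    intro a haI
    have hmem : (⟨a, haI⟩ : integralClosure A0 F) ∈ Submodule.span A0 (s : Set _) := by
      rw [hs]; trivial
    have key : ∀ z : integralClosure A0 F, z ∈ Submodule.span A0 (s : Set (integralClosure A0 F)) →
        Algebra.trace K0 F (y * (z : F)) ∈ (algebraMap A0 K0).range := by
      intro z hz
      induction hz using Submodule.span_induction with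
      | mem z hz => exact hgen z hz
      | zero => simp
      | add z w _ _ hz hw =>
        have : y * ((z + w : integralClosure A0 F) : F) = y * (z : F) + y * (w : F) := by
          push_cast; ring
        rw [this, map_add]
        exact add_mem hz hw
      | smul α z _ hz =>
        have : y * ((α • z : integralClosure A0 F) : F) = algebraMap A0 K0 α • (y * (z : F)) := by
          have h2 : ((α • z : integralClosure A0 F) : F) = algebraMap A0 F α * (z : F) := by
            rw [Algebra.smul_def]; rfl
          rw [h2, Algebra.smul_def (algebraMap A0 K0 α), ← IsScalarTower.algebraMap_apply]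
          ring
        rw [this, map_smul, smul_eq_mul]
        exact mul_mem ⟨α, rfl⟩ hz
    exact key _ hmem
  obtain ⟨μ2, hμ2⟩ := IsIntegral.exists_multiple_integral_of_isLocalization M0 _ (tame y hall)
  refine ⟨σ, σ.2, μ2, μ2.2, ?_⟩
  rw [Submonoid.smul_def, Algebra.smul_def] at hμ2
  have e : algebraMap B0 F (μ2 * T * σ) * x =
      algebraMap B0 F μ2 * (algebraMap B0 F T * y) := by
    rw [hy, map_mul, map_mul]
    ring
  rw [e]
  exact hμ2

end

end Fermat.Agent.GR.D
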