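import Mathlib

/-!
# GR-D, step (Q1): the inverse different in residue characteristic zero

`A` Dedekind with fraction field `K`, `L/K` finite separable, `B` the integral closure of `A` in `L`,
all residue fields of `A` of characteristic zero.  If every nonzero prime of `B` not containing
`T : A` is unramified over `A`, then `T * y` lies in the radical of `T B` for every `y` in the
trace dual of `B`.
-/

set_option autoImplicit false

open Module nonZeroDivisors

namespace Fermat.Agent.GR.D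

attribute [local instance] FractionRing.liftAlgebra FractionRing.isScalarTower_liftAlgebra
  Ideal.Quotient.field

section Tame

variable (A : Type*) {B : Type*} [CommRing A] [CommRing B] [Algebra A B]
  [IsDedekindDomain A] [IsDedekindDomain B] [IsTorsionFree A B] [Module.Finite A B]

/-- The tame bound for the different: if `p B = I * Q` with `I`, `Q` coprime, `I` proper, and the
residue field of `p` has characteristic zero, then `I` does not divide the different. -/
theorem not_dvd_differentIdeal_of_charZero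
    [Algebra.IsSeparable (FractionRing A) (FractionRing B)]
    {p : Ideal A} [p.IsMaximal] [CharZero (A ⧸ p)] (I Q : Ideal B) (hI : I ≠ ⊤)
    (hIQ : IsCoprime I Q) (hP : I * Q = Ideal.map (algebraMap A B) p) :
    ¬ I ∣ differentIdeal A B := by
  let _ : Algebra (A ⧸ p) (B ⧸ Q) := Ideal.Quotient.algebraQuotientOfLEComap (by
      rw [← Ideal.map_le_iff_le_comap, ← hP]
      exact Ideal.mul_le_right (I := I) (J := Q))
  let _ : Algebra (A ⧸ p) (B ⧸ I) := Ideal.Quotient.algebraQuotientOfLEComap (by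
      rw [← Ideal.map_le_iff_le_comap, ← hP]
      exact Ideal.mul_le_left (I := I) (J := Q))
  have : IsScalarTower A (A ⧸ p) (B ⧸ Q) := .of_algebraMap_eq' rfl
  have : IsScalarTower A (A ⧸ p) (B ⧸ I) := .of_algebraMap_eq' rfl
  have : Module.Finite (A ⧸ p) (B ⧸ Q) :=
    Module.Finite.of_restrictScalars_finite A (A ⧸ p) (B ⧸ Q)
  have : Module.Finite (A ⧸ p) (B ⧸ I) :=
    Module.Finite.of_restrictScalars_finite A (A ⧸ p) (B ⧸ I)
  have : Nontrivial (B ⧸ I) := Ideal.Quotient.nontrivial_iff.mpr hI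
  let e : (B ⧸ p.map (algebraMap A B)) ≃ₐ[A ⧸ p] ((B ⧸ I) × B ⧸ Q) :=
    { __ := (Ideal.quotEquivOfEq hP.symm).trans (Ideal.quotientMulEquivQuotientProd I Q hIQ),
      commutes' := Quotient.ind fun _ ↦ rfl }
  obtain ⟨y, hy⟩ := Ideal.Quotient.mk_surjective (e.symm (1, 0))
  refine not_dvd_differentIdeal_of_intTrace_not_mem A I Q hP y ?_ ?_
  · have := congr((e $hy).2)
    simp at this
    simpa [e, Ideal.Quotient.eq_zero_iff_mem] using this
  · rw [← Ideal.Quotient.eq_zero_iff_mem, ← Algebra.trace_quotient_eq_of_isDedekindDomain,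
      hy, Algebra.trace_eq_of_algEquiv, Algebra.trace_prod_apply]
    have h1 : Algebra.trace (A ⧸ p) (B ⧸ I) 1 = (finrank (A ⧸ p) (B ⧸ I) : A ⧸ p) := by
      have := Algebra.trace_algebraMap (R := A ⧸ p) (S := B ⧸ I) (1 : A ⧸ p)
      simpa using this
    simp only [map_zero, add_zero, h1]
    exact Nat.cast_ne_zero.mpr (Module.finrank_pos).ne'

/-- prime-by-prime comparison of the different with `T B`. -/
theorem differentIdeal_mul_dvd_span
    [Algebra.IsSeparable (FractionRing A) (FractionRing B)]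
    (hchar : ∀ p : Ideal A, p.IsMaximal → CharZero (A ⧸ p))
    (T : A)
    (hT : ∀ (P : Ideal B) [P.IsPrime], P ≠ ⊥ → algebraMap A B T ∉ P → Algebra.IsUnramifiedAt A P)
    (𝔯 : Ideal B) (h𝔯0 : 𝔯 ≠ ⊥)
    (h𝔯 : ∀ P : Ideal B, Prime P → ¬ P ^ 2 ∣ 𝔯 ∧ (P ∣ 𝔯 → algebraMap A B T ∈ P)) :
    differentIdeal A B * 𝔯 ∣ Ideal.span {algebraMap A B T} := by
  rw [UniqueFactorizationMonoid.dvd_iff_emultiplicity_le
    (mul_ne_zero differentIdeal_ne_bot h𝔯0)]
  intro P hP
  have hPbot : P ≠ ⊥ := hP.ne_zero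
  have hPprime : P.IsPrime := Ideal.isPrime_of_prime hP
  rw [emultiplicity_mul hP]
  by_cases hTP : algebraMap A B T ∈ P
  · have hp : P.under A ≠ ⊥ := mt Ideal.eq_bot_of_comap_eq_bot hPbot
    have hp' := (Ideal.map_eq_bot_iff_of_injective
      (FaithfulSMul.algebraMap_injective A B)).not.mpr hp
    have hpmax : (P.under A).IsMaximal := Ideal.IsPrime.isMaximal inferInstance hp
    have := hchar _ hpmax
    have hPmax : P.IsMaximal := Ideal.IsPrime.isMaximal hPprime hPbot
    obtain ⟨Q, h₁, h₂⟩ := Ideal.eq_prime_pow_mul_coprime hp' P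
    set e := Multiset.count P (UniqueFactorizationMonoid.normalizedFactors
      (Ideal.map (algebraMap A B) (P.under A))) with he
    have hle : Ideal.map (algebraMap A B) (P.under A) ≤ P := Ideal.map_comap_le
    have he0 : e ≠ 0 := by
      intro h0
      rw [h0, pow_zero, one_mul] at h₂
      apply hPprime.ne_top
      rw [eq_top_iff, ← h₁]
      exact sup_le le_rfl (h₂ ▸ hle)
    have hItop : P ^ e ≠ ⊤ := by
      intro h
      exact hPprime.ne_top (eq_top_iff.mpr (h ▸ Ideal.pow_le_self he0))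
    have hcop : IsCoprime (P ^ e) Q := (Ideal.isCoprime_iff_sup_eq.mpr h₁).pow_left
    have h1 : ¬ P ^ e ∣ differentIdeal A B :=
      not_dvd_differentIdeal_of_charZero A (P ^ e) Q hItop hcop h₂.symm
    have h2 : ¬ P ^ 2 ∣ 𝔯 := (h𝔯 P hP).1
    have h3 : P ^ e ∣ Ideal.span {algebraMap A B T} := by
      refine (Dvd.intro _ h₂.symm).trans ?_
      rw [Ideal.dvd_iff_le, Ideal.span_singleton_le_iff_mem]
      exact Ideal.mem_map_of_mem _ (show T ∈ P.under A from hTP)
    rw [← emultiplicity_lt_iff_not_dvd] at h1 h2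
    have h3' := le_emultiplicity_of_pow_dvd h3
    obtain ⟨a, ha⟩ := ENat.ne_top_iff_exists.mp (ne_top_of_lt h1)
    obtain ⟨b, hb⟩ := ENat.ne_top_iff_exists.mp (ne_top_of_lt h2)
    rw [← ha] at h1 ⊢
    rw [← hb] at h2 ⊢
    refine le_trans ?_ h3'
    norm_cast at h1 h2 ⊢
    omega
  · have h1 : ¬ P ∣ differentIdeal A B :=
      not_dvd_differentIdeal_iff.mpr (hT P hPbot hTP)
    have h2 : ¬ P ∣ 𝔯 := fun h => hTP ((h𝔯 P hP).2 h)
    rw [emultiplicity_eq_zero.mpr h1, emultiplicity_eq_zero.mpr h2]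
    simp

end Tame

section Main

variable (A K : Type*) {L : Type*} {B : Type*} [CommRing A] [Field K] [CommRing B] [Field L]
  [Algebra A K] [Algebra B L] [Algebra A B] [Algebra K L] [Algebra A L]
  [IsScalarTower A K L] [IsScalarTower A B L]
  [IsFractionRing A K] [FiniteDimensional K L] [Algebra.IsSeparable K L]
  [IsIntegralClosure B A L] [IsFractionRing B L] [IsDedekindDomain A] [IsDedekindDomain B]
  [IsTorsionFree A B]

omit [FiniteDimensional K L] [IsIntegralClosure B A L] in
include K L in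
theorem isSeparable_fractionRing :
    Algebra.IsSeparable (FractionRing A) (FractionRing B) := by
  have H : RingHom.comp (algebraMap (FractionRing A) (FractionRing B))
      ↑(FractionRing.algEquiv A K).symm.toRingEquiv =
        RingHom.comp ↑(FractionRing.algEquiv B L).symm.toRingEquiv (algebraMap K L) := by
    apply IsLocalization.ringHom_ext A⁰
    ext
    simp only [RingHom.coe_comp, RingHom.coe_coe,
      AlgEquiv.coe_ringEquiv, Function.comp_apply, AlgEquiv.commutes,
      ← IsScalarTower.algebraMap_apply]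
    rw [IsScalarTower.algebraMap_apply A B L, AlgEquiv.commutes, ← IsScalarTower.algebraMap_apply]
  exact Algebra.IsSeparable.of_equiv_equiv _ _ H

/-- auxiliary form of `tame_dual`: membership in any "squarefree" ideal supported on `T`. -/
theorem tame_dual_aux
    (hchar : ∀ p : Ideal A, p.IsMaximal → CharZero (A ⧸ p))
    (T : A)
    (hT : ∀ (P : Ideal B) [P.IsPrime], P ≠ ⊥ → algebraMap A B T ∉ P → Algebra.IsUnramifiedAt A P)
    (𝔯 : Ideal B) (h𝔯0 : 𝔯 ≠ ⊥)
    (h𝔯 : ∀ P : Ideal B, Prime P → ¬ P ^ 2 ∣ 𝔯 ∧ (P ∣ 𝔯 → algebraMap A B T ∈ P))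
    (y : L) (hy : ∀ b : B, Algebra.trace K L (y * algebraMap B L b) ∈ (algebraMap A K).range) :
    ∃ ρ ∈ 𝔯, algebraMap B L ρ = algebraMap A L T * y := by
  have := isSeparable_fractionRing A K (L := L) (B := B)
  have : Module.Finite A B := IsIntegralClosure.finite A K L B
  obtain ⟨𝔠, h𝔠⟩ := differentIdeal_mul_dvd_span A hchar T hT 𝔯 h𝔯0 h𝔯
  have hydual : y ∈ FractionalIdeal.dual A K (1 : FractionalIdeal B⁰ L) := by
    rw [FractionalIdeal.mem_dual (one_ne_zero' (FractionalIdeal B⁰ L))]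
    intro a ha
    obtain ⟨b, rfl⟩ := (FractionalIdeal.mem_one_iff _).mp ha
    exact hy b
  have hD := coeIdeal_differentIdeal A K L B
  have hdual0 : FractionalIdeal.dual A K (1 : FractionalIdeal B⁰ L) ≠ 0 :=
    FractionalIdeal.dual_ne_zero A K one_ne_zero
  have hmem : algebraMap B L (algebraMap A B T) * y ∈
      ((Ideal.span {algebraMap A B T} : Ideal B) : FractionalIdeal B⁰ L) *
        FractionalIdeal.dual A K (1 : FractionalIdeal B⁰ L) :=
    FractionalIdeal.mul_mem_mul
      ((FractionalIdeal.mem_coeIdeal _).mpr ⟨_, Ideal.mem_span_singleton_self _, rfl⟩) hydual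
  rw [h𝔠, FractionalIdeal.coeIdeal_mul, FractionalIdeal.coeIdeal_mul, hD] at hmem
  have hrw : (FractionalIdeal.dual A K (1 : FractionalIdeal B⁰ L))⁻¹ * (𝔯 : FractionalIdeal B⁰ L) *
      (𝔠 : FractionalIdeal B⁰ L) * FractionalIdeal.dual A K (1 : FractionalIdeal B⁰ L) =
      ((𝔯 * 𝔠 : Ideal B) : FractionalIdeal B⁰ L) := by
    rw [FractionalIdeal.coeIdeal_mul]
    field_simp
  rw [hrw] at hmem
  obtain ⟨ρ, hρ, hρe⟩ := (FractionalIdeal.mem_coeIdeal _).mp hmem
  refine ⟨ρ, Ideal.mul_le_left hρ, ?_⟩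
  rw [hρe, ← IsScalarTower.algebraMap_apply]

/-- **(Q1)** In residue characteristic zero, if `B/A` is unramified outside `T`, then `T` times the
trace dual of `B` lies in the radical of `T B`. -/
theorem tame_dual
    (hchar : ∀ p : Ideal A, p.IsMaximal → CharZero (A ⧸ p))
    (T : A)
    (hT : ∀ (P : Ideal B) [P.IsPrime], P ≠ ⊥ → algebraMap A B T ∉ P → Algebra.IsUnramifiedAt A P)
    (y : L) (hy : ∀ b : B, Algebra.trace K L (y * algebraMap B L b) ∈ (algebraMap A K).range) :
    ∃ ρ : B, algebraMap B L ρ = algebraMap A L T * y ∧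
      ρ ∈ (Ideal.span {algebraMap A B T}).radical := by
  obtain ⟨ρ, -, hρ⟩ := tame_dual_aux A K hchar T hT ⊤ top_ne_bot (by
    intro P hP
    have hPtop : P ≠ ⊤ := (Ideal.isPrime_of_prime hP).ne_top
    refine ⟨fun h => ?_, fun h => ?_⟩
    · exact hPtop (eq_top_iff.mpr ((Ideal.dvd_iff_le.mp h).trans (Ideal.pow_le_self two_ne_zero)))
    · exact absurd (eq_top_iff.mpr (Ideal.dvd_iff_le.mp h)) hPtop) y hy
  refine ⟨ρ, hρ, ?_⟩
  rw [Ideal.radical_eq_sInf, Ideal.mem_sInf]
  rintro P' ⟨hTP', hP'⟩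
  rw [Ideal.span_singleton_le_iff_mem] at hTP'
  by_cases hbot : P' = ⊥
  · subst hbot
    have hT0 : algebraMap A B T = 0 := hTP'
    have : algebraMap B L ρ = 0 := by
      rw [hρ, IsScalarTower.algebraMap_apply A B L, hT0, map_zero, zero_mul]
    rw [Ideal.mem_bot]
    exact (IsFractionRing.injective B L) (by rw [this, map_zero])
  · have hprime : Prime P' := Ideal.prime_of_isPrime hbot hP'
    obtain ⟨ρ', hρ'mem, hρ'⟩ := tame_dual_aux A K hchar T hT P' hbot (by
      intro P hP
      refine ⟨fun h => ?_, fun h => ?_⟩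
      · exact hP.not_isUnit (hprime.irreducible.squarefree P (by rwa [← pow_two]))
      · exact Ideal.dvd_iff_le.mp h hTP') y hy
    have : ρ = ρ' := (IsFractionRing.injective B L) (by rw [hρ, hρ'])
    rw [this]
    exact hρ'mem

end Main

end Fermat.Agent.GR.D
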