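import Mathlib
import Fermat.Agent.GR.D.Core
import Fermat.Agent.GR.D.GlueUnr
import Fermat.Agent.GR.D.TameDual

/-!
GR-D, glue: from the trace-dual statement over `A0` (a localisation of `B0`, e.g. `L[X]`) to the
hypothesis `hlog` of `core` over another localisation `A` of `B0`
(e.g. the semilocalisation of `R[X]`).
-/

set_option autoImplicit false

namespace Fermat.Agent.GR.D

section

variable {B0 A A0 K0 F : Type*} [CommRing B0] [CommRing A] [CommRing A0] [Field K0] [Field F]
  [Algebra B0 A] [Algebra B0 A0] [Algebra B0 K0] [Algebra A K0] [Algebra A0 K0]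
  [IsScalarTower B0 A K0] [IsScalarTower B0 A0 K0]
  [Algebra K0 F] [Algebra B0 F] [Algebra A F] [Algebra A0 F]
  [IsScalarTower B0 K0 F] [IsScalarTower A K0 F] [IsScalarTower A0 K0 F]
  [IsScalarTower B0 A F] [IsScalarTower B0 A0 F]

omit [IsScalarTower A K0 F] in
/-- An element of the trace dual over `A` becomes, after multiplication by some `σ ∈ M`, an element
of the trace dual over `A0`. -/
theorem glueLog_exists_dual (M M0 : Submonoid B0) [IsLocalization M A] [IsLocalization M0 A0]
    [Module.Finite A0 (integralClosure A0 F)]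
    (x : F) (hx : ∀ c : F, IsIntegral A c → Algebra.trace K0 F (x * c) ∈ (algebraMap A K0).range) :
    ∃ σ ∈ M, ∀ a : F, IsIntegral A0 a →
      Algebra.trace K0 F (algebraMap B0 F σ * x * a) ∈ (algebraMap A0 K0).range := by
  classical
  obtain ⟨s, hs⟩ := (Module.Finite.fg_top : (⊤ : Submodule A0 (integralClosure A0 F)).FG)
  obtain ⟨μ1, hμ1, hint⟩ := glue_exists_common_multiple (A0 := A0) (F := F) M0 s
  have h1 : ∀ c : integralClosure A0 F, c ∈ s →
      Algebra.trace K0 F (x * (algebraMap B0 F μ1 * (c : F))) ∈ (algebraMap A K0).range :=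
    fun c hc => hx _ ((hint c hc).tower_top)
  choose! a ha using h1
  obtain ⟨σ, hσ⟩ := IsLocalization.exist_integer_multiples M s a
  set y : F := algebraMap B0 F σ * x with hy
  have hunit : IsUnit (algebraMap B0 K0 μ1) := by
    rw [IsScalarTower.algebraMap_apply B0 A0 K0]
    exact (IsLocalization.map_units A0 (⟨μ1, hμ1⟩ : M0)).map _
  have hgen : ∀ c ∈ s, Algebra.trace K0 F (y * (c : F)) ∈ (algebraMap A0 K0).range := by
    intro c hc
    obtain ⟨b, hb⟩ := hσ c hc
    refine ⟨IsLocalization.mk' A0 b (⟨μ1, hμ1⟩ : M0), ?_⟩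
    have e1 : algebraMap B0 K0 μ1 * Algebra.trace K0 F (y * (c : F)) = algebraMap B0 K0 b := by
      have e2 : algebraMap B0 K0 (σ : B0) * Algebra.trace K0 F (x * (algebraMap B0 F μ1 * (c : F))) =
          algebraMap B0 K0 b := by
        rw [← ha c hc, IsScalarTower.algebraMap_apply B0 A K0, ← map_mul,
          IsScalarTower.algebraMap_apply B0 A K0 b, hb, Algebra.smul_def]
      rw [← e2, ← smul_eq_mul, ← smul_eq_mul (a := algebraMap B0 K0 (σ : B0)), ← map_smul,
        ← map_smul]
      congr 1
      rw [hy, Algebra.smul_def, Algebra.smul_def, ← IsScalarTower.algebraMap_apply,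
        ← IsScalarTower.algebraMap_apply]
      ring
    have e3 : algebraMap B0 K0 μ1 * algebraMap A0 K0 (IsLocalization.mk' A0 b (⟨μ1, hμ1⟩ : M0)) =
        algebraMap B0 K0 b := by
      rw [IsScalarTower.algebraMap_apply B0 A0 K0, ← map_mul,
        IsScalarTower.algebraMap_apply B0 A0 K0 b]
      congr 1
      exact IsLocalization.mul_mk'_eq_mk'_of_mul _ _ _ |>.trans (by
        rw [IsLocalization.mk'_eq_iff_eq_mul]; rw [mul_comm]; simp)
    exact hunit.mul_left_cancel (e3.trans e1.symm)
  refine ⟨σ, σ.2, ?_⟩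
  intro a haI
  have hmem : (⟨a, haI⟩ : integralClosure A0 F) ∈ Submodule.span A0 (s : Set _) := by
    rw [hs]; trivial
  have key : ∀ z : integralClosure A0 F, z ∈ Submodule.span A0 (s : Set (integralClosure A0 F)) →
      Algebra.trace K0 F (y * (z : F)) ∈ (algebraMap A0 K0).range := by
    intro z hz
    induction hz using Submodule.span_induction with
    | mem z hz => exact hgen z hz
    | zero => simp
    | add z w _ _ hz hw =>
      have : y * ((z + w : integralClosure A0 F) : F) = y * (z : F) + y * (w : F) := by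
        push_cast; ring
      rw [this, map_add]
      exact add_mem hz hw
    | smul α z _ hz =>
      have : y * ((α • z : integralClosure A0 F) : F) = algebraMap A0 K0 α • (y * (z : F)) := by
        have h2 : ((α • z : integralClosure A0 F) : F) = algebraMap A0 F α * (z : F) := by
          rw [Algebra.smul_def]; rfl
        rw [h2, Algebra.smul_def (algebraMap A0 K0 α), ← IsScalarTower.algebraMap_apply]
        ring
      rw [this, map_smul, smul_eq_mul]
      exact mul_mem ⟨α, rfl⟩ hz
  exact key _ hmem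

/-- clearing a denominator in `M0` by a power of `π` -/
theorem glueLog_exists_pow_isIntegral (M0 : Submonoid B0) [IsLocalization M0 A0] (π : B0)
    (hM0 : ∀ μ ∈ M0, ∃ k : ℕ, μ ∣ π ^ k) {c : F} (hc : IsIntegral A0 c) :
    ∃ k : ℕ, IsIntegral B0 (algebraMap B0 F π ^ k * c) := by
  obtain ⟨μ, hμ⟩ := IsIntegral.exists_multiple_integral_of_isLocalization M0 _ hc
  obtain ⟨k, ν, hk⟩ := hM0 μ μ.2
  refine ⟨k, ?_⟩
  rw [Submonoid.smul_def, Algebra.smul_def] at hμ
  rw [← map_pow, hk, mul_comm (μ : B0), map_mul, mul_assoc]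
  exact IsIntegral.mul isIntegral_algebraMap hμ

omit [IsScalarTower A K0 F] in
/-- The hypothesis `hlog` of `core` from the tame trace-dual statement over `A0`. -/
theorem log_of_tame (M M0 : Submonoid B0) [IsLocalization M A] [IsLocalization M0 A0]
    [Module.Finite A0 (integralClosure A0 F)] (T π : B0)
    (hM0 : ∀ μ ∈ M0, ∃ k : ℕ, μ ∣ π ^ k)
    (tame : ∀ y : F, (∀ a : F, IsIntegral A0 a →
      Algebra.trace K0 F (y * a) ∈ (algebraMap A0 K0).range) →
        IsIntegral A0 (algebraMap B0 F T * y) ∧ ∃ (m : ℕ) (c : F), IsIntegral A0 c ∧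
          (algebraMap B0 F T * y) ^ m = algebraMap B0 F T * c)
    (x : F) (hx : InTraceDual A K0 x) :
    (∃ k : ℕ, IsIntegral A (algebraMap B0 A π ^ k • algebraMap B0 A T • x)) ∧
      ∃ (k m : ℕ) (c : F), IsIntegral A c ∧
        algebraMap B0 A π ^ k • (algebraMap B0 A T • x) ^ m = algebraMap B0 A T • c := by
  obtain ⟨σ, hσ, hdual⟩ := glueLog_exists_dual (A := A) (A0 := A0) (K0 := K0) M M0 x hx
  obtain ⟨h1, m, c, hc, hm⟩ := tame _ hdual
  obtain ⟨σ', hσ'⟩ := (IsLocalization.map_units A (⟨σ, hσ⟩ : M)).exists_left_inv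
  have hσF : algebraMap A F σ' * algebraMap B0 F σ = 1 := by
    rw [IsScalarTower.algebraMap_apply B0 A F, ← map_mul]
    simpa using congrArg (algebraMap A F) hσ'
  obtain ⟨k, hk⟩ := glueLog_exists_pow_isIntegral (A0 := A0) M0 π hM0 h1
  obtain ⟨k', hk'⟩ := glueLog_exists_pow_isIntegral (A0 := A0) M0 π hM0 hc
  refine ⟨⟨k, ?_⟩, k', m, algebraMap A F σ' ^ m * (algebraMap B0 F π ^ k' * c), ?_, ?_⟩
  · have e : algebraMap B0 A π ^ k • algebraMap B0 A T • x =
        algebraMap A F σ' * (algebraMap B0 F π ^ k * (algebraMap B0 F T * (algebraMap B0 F σ * x))) := by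
      rw [Algebra.smul_def, Algebra.smul_def, map_pow, ← IsScalarTower.algebraMap_apply,
        ← IsScalarTower.algebraMap_apply]
      calc algebraMap B0 F π ^ k * (algebraMap B0 F T * x)
          = (algebraMap A F σ' * algebraMap B0 F σ) *
              (algebraMap B0 F π ^ k * (algebraMap B0 F T * x)) := by rw [hσF, one_mul]
        _ = _ := by ring
    rw [e]
    exact IsIntegral.mul isIntegral_algebraMap hk.tower_top
  · exact IsIntegral.mul (isIntegral_algebraMap.pow m) hk'.tower_top
  · rw [Algebra.smul_def, Algebra.smul_def, Algebra.smul_def, map_pow,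
      ← IsScalarTower.algebraMap_apply, ← IsScalarTower.algebraMap_apply]
    calc algebraMap B0 F π ^ k' * (algebraMap B0 F T * x) ^ m
        = (algebraMap A F σ' * algebraMap B0 F σ) ^ m *
            (algebraMap B0 F π ^ k' * (algebraMap B0 F T * x) ^ m) := by rw [hσF, one_pow, one_mul]
      _ = algebraMap A F σ' ^ m * (algebraMap B0 F π ^ k' *
            (algebraMap B0 F T * (algebraMap B0 F σ * x)) ^ m) := by ring
      _ = _ := by rw [hm]; ring

end

/-- helper53's `tame_dual` for `B = integralClosure A0 F`, in the shape of the hypothesis `tame` of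
`log_of_tame`. -/
theorem tame_of_tameDual {A0 K0 F : Type*} [CommRing A0] [IsDedekindDomain A0] [Field K0] [Field F]
    [Algebra A0 K0] [IsFractionRing A0 K0] [Algebra K0 F] [Algebra A0 F] [IsScalarTower A0 K0 F]
    [FiniteDimensional K0 F] [Algebra.IsSeparable K0 F]
    (hchar : ∀ p : Ideal A0, p.IsMaximal → CharZero (A0 ⧸ p)) (T : A0)
    (hT : ∀ (P : Ideal (integralClosure A0 F)) [P.IsPrime], P ≠ ⊥ →
      algebraMap A0 (integralClosure A0 F) T ∉ P → Algebra.IsUnramifiedAt A0 P)
    (y : F) (hy : ∀ a : F, IsIntegral A0 a →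
      Algebra.trace K0 F (y * a) ∈ (algebraMap A0 K0).range) :
    IsIntegral A0 (algebraMap A0 F T * y) ∧ ∃ (m : ℕ) (c : F), IsIntegral A0 c ∧
      (algebraMap A0 F T * y) ^ m = algebraMap A0 F T * c := by
  have : IsFractionRing (integralClosure A0 F) F :=
    integralClosure.isFractionRing_of_finite_extension K0 F
  have : IsDedekindDomain (integralClosure A0 F) := integralClosure.isDedekindDomain A0 K0 F
  have hAF : Function.Injective (algebraMap A0 F) := by
    rw [IsScalarTower.algebraMap_eq A0 K0 F]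
    exact (algebraMap K0 F).injective.comp (IsFractionRing.injective A0 K0)
  have : Module.IsTorsionFree A0 (integralClosure A0 F) := by
    rw [Module.isTorsionFree_iff_algebraMap_injective]
    intro x y hxy
    exact hAF (congrArg (algebraMap (integralClosure A0 F) F) hxy)
  obtain ⟨ρ, hρ, m, hm⟩ := tame_dual A0 K0 (L := F) (B := integralClosure A0 F) hchar T hT y
    (fun b => hy _ b.2)
  obtain ⟨c, hc⟩ := Ideal.mem_span_singleton.1 hm
  refine ⟨hρ ▸ ρ.2, m, c, c.2, ?_⟩
  rw [← hρ, ← map_pow, hc, map_mul]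
  rfl

end Fermat.Agent.GR.D
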