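import Mathlib
import Fermat.Agent.GR.E.Defs
import Fermat.Agent.GR.D.SemiLoc
import Fermat.Agent.GR.D.Core
import Fermat.Agent.GR.D.GlueLog
import Fermat.Agent.GR.D.Glue

/-!
GR-D, the final glue: `Core` + `SemiLoc` + `TameDual` (through `GlueLog`) give
`GoodChart.dedekind` for `chart R {t}` (theorem `dedekind_chart`).
-/

set_option autoImplicit false

namespace Fermat.Agent.GR.D

open Polynomial nonZeroDivisors IntermediateField
open scoped IntermediateField.algebraAdjoinAdjoin

section Dvd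

variable {B : Type*} [CommRing B] [IsDomain B] {π : B}
  (A : Type*) [CommRing A] [Algebra B A] [IsLocalization (oneAddSubmonoid π) A]

omit [IsDomain B] in
theorem not_dvd_of_mem_oneAddSubmonoid (hπ : ¬ IsUnit π) {s : B} (hs : s ∈ oneAddSubmonoid π) :
    ¬ π ∣ s := by
  intro h
  obtain ⟨x, hx⟩ := hs
  obtain ⟨y, hy⟩ := h
  exact hπ (IsUnit.of_mul_eq_one (y - x) (by linear_combination hx - hy))

/-- divisibility by `π` can be tested in `B` -/
theorem dvd_of_algebraMap_dvd_semiLoc (hπ : Prime π) {s : B}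
    (h : algebraMap B A π ∣ algebraMap B A s) : π ∣ s := by
  obtain ⟨z, hz⟩ := h
  obtain ⟨⟨a, σ⟩, ha⟩ := IsLocalization.surj (oneAddSubmonoid π) z
  simp only at ha
  have h1 : algebraMap B A (s * σ) = algebraMap B A (π * a) := by
    rw [map_mul, map_mul, hz, ← ha]; ring
  have h2 := algebraMap_injective_semiLoc A hπ.not_isUnit h1
  have h3 : π ∣ s * σ := ⟨a, h2⟩
  rcases hπ.dvd_or_dvd h3 with h | h
  · exact h
  · exact absurd h (not_dvd_of_mem_oneAddSubmonoid hπ.not_isUnit σ.2)

end Dvd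

theorem glue_squarefree_map_equiv {M N : Type*} [Monoid M] [Monoid N] (e : M ≃* N) {x : M}
    (h : Squarefree x) : Squarefree (e x) := by
  intro y hy
  have h1 : e.symm y * e.symm y ∣ x := by
    have := map_dvd e.symm hy
    simpa using this
  have h2 := (h _ h1).map e
  simpa using h2

section Sqf

variable {R : Type*} [CommRing R] [IsDomain R] [IsDiscreteValuationRing R] {ϖ : R}

/-- `R[X]/ϖ ≃ k[X]` -/
noncomputable def glueQuotEquiv (hϖ : Irreducible ϖ) :
    (R[X] ⧸ Ideal.span {(C ϖ : R[X])}) ≃+* (IsLocalRing.ResidueField R)[X] :=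
  (Ideal.quotEquivOfEq (by
    rw [Polynomial.ker_mapRingHom, IsLocalRing.ker_residue, hϖ.maximalIdeal_eq, Ideal.map_span,
      Set.image_singleton])).trans
  (RingHom.quotientKerEquivOfSurjective
    (f := Polynomial.mapRingHom (IsLocalRing.residue R))
    (Polynomial.map_surjective _ IsLocalRing.residue_surjective))

theorem glueQuotEquiv_mk (hϖ : Irreducible ϖ) (T : R[X]) :
    glueQuotEquiv hϖ (Ideal.Quotient.mk _ T) = T.map (IsLocalRing.residue R) := rfl

theorem glue_squarefree_mk (hϖ : Irreducible ϖ) (A : Type*) [CommRing A] [Algebra R[X] A]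
    [IsLocalization (oneAddSubmonoid (C ϖ : R[X])) A] (T : R[X])
    (hT : Squarefree (T.map (IsLocalRing.residue R))) :
    Squarefree (Ideal.Quotient.mk (Ideal.span {algebraMap R[X] A (C ϖ)}) (algebraMap R[X] A T)) := by
  have h1 : Squarefree (Ideal.Quotient.mk (Ideal.span {(C ϖ : R[X])}) T) := by
    have := glue_squarefree_map_equiv (glueQuotEquiv hϖ).symm.toMulEquiv hT
    rw [← glueQuotEquiv_mk hϖ] at this
    simpa using this
  exact glue_squarefree_map_equiv
    (quotEquivOfLocalization (C ϖ : R[X]) A (oneAddSubmonoid (C ϖ : R[X])) le_rfl).toMulEquiv h1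

end Sqf

section Abstract

variable {R : Type*} [CommRing R] [IsDomain R] [IsDiscreteValuationRing R] {ϖ : R}
  {A A0 K0 F : Type*} [CommRing A] [CommRing A0] [Field K0] [Field F]
  [Algebra R[X] A] [Algebra R[X] A0] [Algebra R[X] K0] [Algebra A K0] [Algebra A0 K0]
  [IsScalarTower R[X] A K0] [IsScalarTower R[X] A0 K0]
  [Algebra K0 F] [Algebra R[X] F] [Algebra A F] [Algebra A0 F]
  [IsScalarTower R[X] K0 F] [IsScalarTower A K0 F] [IsScalarTower A0 K0 F]
  [IsScalarTower R[X] A F] [IsScalarTower R[X] A0 F]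
  [IsLocalization (oneAddSubmonoid (C ϖ : R[X])) A]
  [IsLocalization (Submonoid.map (C : R →+* R[X]) R⁰) A0]
  [IsFractionRing A K0] [IsFractionRing A0 K0] [IsDedekindDomain A0]
  [FiniteDimensional K0 F] [Algebra.IsSeparable K0 F]

theorem glue_isIntegrallyClosed (hϖ : Irreducible ϖ) (T : R[X])
    (hT : Squarefree (T.map (IsLocalRing.residue R)))
    (hchar : ∀ p : Ideal A0, p.IsMaximal → CharZero (A0 ⧸ p))
    (horiz : ∀ (P : Ideal (integralClosure A0 F)) [P.IsPrime], P ≠ ⊥ →
      algebraMap A0 (integralClosure A0 F) (algebraMap R[X] A0 T) ∉ P →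
        Algebra.IsUnramifiedAt A0 P)
    (vert : ∀ x : F, (∀ c : F, IsIntegral R[X] c → ∃ a s : R[X], ¬ (C ϖ : R[X]) ∣ s ∧
      algebraMap R[X] K0 s * Algebra.trace K0 F (x * c) = algebraMap R[X] K0 a) →
        ∃ s : R[X], ¬ (C ϖ : R[X]) ∣ s ∧ IsIntegral R[X] (algebraMap R[X] F s * x))
    (hdom : (Ideal.span {algebraMap A (integralClosure A F) (algebraMap R[X] A (C ϖ))}).IsPrime) :
    IsIntegrallyClosed (integralClosure A F ⧸
      Ideal.span {algebraMap A (integralClosure A F) (algebraMap R[X] A (C ϖ))}) := by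
  have hπ : Prime (C ϖ : R[X]) := prime_C hϖ
  have hdomA : IsDomain A := isDomain_semiLoc (π := (C ϖ : R[X])) A hπ.not_isUnit
  have hnoeth : IsNoetherianRing A :=
    IsLocalization.isNoetherianRing (oneAddSubmonoid (C ϖ : R[X])) _ inferInstance
  have hic : IsIntegrallyClosed A :=
    isIntegrallyClosed_of_isLocalization A (oneAddSubmonoid (C ϖ : R[X]))
      (oneAddSubmonoid_le_nonZeroDivisors hπ.not_isUnit)
  have hfin : Module.Finite A0 (integralClosure A0 F) :=
    IsIntegralClosure.finite A0 K0 F _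
  refine core (K := K0) (algebraMap R[X] A (C ϖ)) (algebraMap R[X] A T) (prime_algebraMap A hπ)
    (algebraMap_mem_jacobson _ _)
    (isPrincipalIdealRing_quotient _ (isPrincipalIdealRing_polynomial_quotient hϖ))
    (glue_squarefree_mk hϖ A T hT) ?_ ?_ hdom
  · -- (UNR) at `ϖ`
    intro x hx
    obtain ⟨s, hs, hsx⟩ := vert x (by
      intro c hc
      obtain ⟨α, hα⟩ := hx c hc.tower_top
      obtain ⟨⟨a, σ⟩, ha⟩ := IsLocalization.surj (oneAddSubmonoid (C ϖ : R[X])) α
      simp only at ha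
      refine ⟨a, σ, not_dvd_of_mem_oneAddSubmonoid hπ.not_isUnit σ.2, ?_⟩
      rw [← hα, IsScalarTower.algebraMap_apply R[X] A K0, IsScalarTower.algebraMap_apply R[X] A K0,
        ← ha, map_mul, mul_comm])
    refine ⟨algebraMap R[X] A s, fun h => hs (dvd_of_algebraMap_dvd_semiLoc A hπ h), ?_⟩
    rw [Algebra.smul_def, ← IsScalarTower.algebraMap_apply R[X] A F]
    exact hsx.tower_top
  · -- the logarithmic trace dual
    intro x hx
    refine log_of_tame (A := A) (A0 := A0) (K0 := K0) (oneAddSubmonoid (C ϖ : R[X]))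
      (Submonoid.map (C : R →+* R[X]) R⁰) T (C ϖ) ?_ ?_ x hx
    · rintro _ ⟨r, hr, rfl⟩
      have hr0 : r ≠ 0 := nonZeroDivisors.ne_zero hr
      obtain ⟨n, u, hu⟩ := IsDiscreteValuationRing.eq_unit_mul_pow_irreducible hr0 hϖ
      refine ⟨n, C ((u⁻¹ : Rˣ) : R), ?_⟩
      change (C ϖ : R[X]) ^ n = C r * C ((u⁻¹ : Rˣ) : R)
      rw [hu, ← C_pow, ← C_mul]
      congr 1
      rw [mul_comm (u : R), mul_assoc, Units.mul_inv, mul_one]
    · intro y hy
      have := tame_of_tameDual (K0 := K0) hchar (algebraMap R[X] A0 T) horiz y hy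
      rwa [← IsScalarTower.algebraMap_apply R[X] A0 F] at this

/-- the final step: Dedekind from integrally closed -/
theorem isDedekindDomain_of_isIntegral_of_map_eq_zero {B S : Type*} [CommRing B] [CommRing S]
    [Algebra B S] [Algebra.IsIntegral B S] (π : B) (hπ : Prime π)
    (hpid : IsPrincipalIdealRing (B ⧸ Ideal.span {π})) (h0 : algebraMap B S π = 0)
    [IsDomain S] [IsNoetherianRing S] [IsIntegrallyClosed S] : IsDedekindDomain S := by
  have : (Ideal.span {π}).IsPrime := (Ideal.span_singleton_prime hπ.ne_zero).mpr hπ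
  let _ : Algebra (B ⧸ Ideal.span {π}) S := (Ideal.Quotient.lift _ (algebraMap B S) (by
    intro a ha
    obtain ⟨c, rfl⟩ := Ideal.mem_span_singleton.1 ha
    rw [map_mul, h0, zero_mul])).toAlgebra
  have : IsScalarTower B (B ⧸ Ideal.span {π}) S := IsScalarTower.of_algebraMap_eq (fun x => rfl)
  have : Algebra.IsIntegral (B ⧸ Ideal.span {π}) S := Algebra.IsIntegral.tower_top B
  exact isDedekindDomain_of_isIntegral (B ⧸ Ideal.span {π}) S

variable (A A0 K0) in
include A A0 K0 in
theorem glue_isDedekindDomain_chart [Algebra R F] [IsScalarTower R R[X] F] {t : F}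
    (ht : algebraMap R[X] F X = t) (hϖ : Irreducible ϖ) (T : R[X])
    (hT : Squarefree (T.map (IsLocalRing.residue R)))
    (hchar : ∀ p : Ideal A0, p.IsMaximal → CharZero (A0 ⧸ p))
    (horiz : ∀ (P : Ideal (integralClosure A0 F)) [P.IsPrime], P ≠ ⊥ →
      algebraMap A0 (integralClosure A0 F) (algebraMap R[X] A0 T) ∉ P →
        Algebra.IsUnramifiedAt A0 P)
    (vert : ∀ x : F, (∀ c : F, IsIntegral R[X] c → ∃ a s : R[X], ¬ (C ϖ : R[X]) ∣ s ∧
      algebraMap R[X] K0 s * Algebra.trace K0 F (x * c) = algebraMap R[X] K0 a) →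
        ∃ s : R[X], ¬ (C ϖ : R[X]) ∣ s ∧ IsIntegral R[X] (algebraMap R[X] F s * x))
    (hdom : IsDomain (E.chart R ({t} : Set F) ⧸
      Ideal.span {algebraMap R (E.chart R ({t} : Set F)) ϖ}))
    (hnoeth : IsNoetherianRing (E.chart R ({t} : Set F))) :
    IsDedekindDomain (E.chart R ({t} : Set F) ⧸
      Ideal.span {algebraMap R (E.chart R ({t} : Set F)) ϖ}) := by
  have e := chartQuotEquiv ϖ A ht
  have hdom1 : IsDomain (integralClosure A F ⧸
      Ideal.span {algebraMap A (integralClosure A F) (algebraMap R[X] A (C ϖ))}) :=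
    e.symm.toMulEquiv.isDomain _
  have hic1 := glue_isIntegrallyClosed (A := A) (A0 := A0) (K0 := K0) (F := F) hϖ T hT hchar horiz
    vert ((Ideal.Quotient.isDomain_iff_prime _).mp hdom1)
  have hic : IsIntegrallyClosed (E.chart R ({t} : Set F) ⧸
      Ideal.span {algebraMap R (E.chart R ({t} : Set F)) ϖ}) := IsIntegrallyClosed.of_equiv e.symm
  have htmem : t ∈ E.chart R ({t} : Set F) := by
    have := aeval_mem_chart (R := R) (t := t) X
    rwa [aeval_X] at this
  let _ : Algebra R[X] (E.chart R ({t} : Set F)) :=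
    (aeval (⟨t, htmem⟩ : E.chart R ({t} : Set F)) : R[X] →ₐ[R] _).toRingHom.toAlgebra
  have : IsScalarTower R[X] (E.chart R ({t} : Set F)) F := IsScalarTower.of_algebraMap_eq (by
    intro p
    rw [algebraMap_polynomial_eq_aeval ht]
    change aeval t p = ((aeval (⟨t, htmem⟩ : E.chart R ({t} : Set F)) p : E.chart R ({t} : Set F)) : F)
    have := (Polynomial.aeval_algHom_apply (E.chart R ({t} : Set F)).val
      (⟨t, htmem⟩ : E.chart R ({t} : Set F)) p)
    exact this)
  have : Algebra.IsIntegral R[X] (E.chart R ({t} : Set F)) := ⟨fun x => by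
    have h1 : IsIntegral R[X] (algebraMap (E.chart R ({t} : Set F)) F x) :=
      (mem_chart_iff_isIntegral ht (x : F)).mp x.2
    exact (isIntegral_algebraMap_iff Subtype.val_injective).mp h1⟩
  refine isDedekindDomain_of_isIntegral_of_map_eq_zero (B := R[X]) (C ϖ) (prime_C hϖ)
    (isPrincipalIdealRing_polynomial_quotient hϖ) ?_
  change Ideal.Quotient.mk _ (aeval (⟨t, htmem⟩ : E.chart R ({t} : Set F)) (C ϖ)) = 0
  rw [aeval_C, Ideal.Quotient.eq_zero_iff_mem]
  exact Ideal.mem_span_singleton_self _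

end Abstract

section Setup

variable {R L F : Type*} [CommRing R] [Field L] [Algebra R L]
  [Field F] [Algebra R F] [Algebra L F] [IsScalarTower R L F] (t : F)

theorem glue_aeval_mem_adjoin (p : R[X]) : aeval t p ∈ Algebra.adjoin L ({t} : Set F) := by
  rw [← aeval_map_algebraMap L, Algebra.adjoin_singleton_eq_range_aeval]
  exact ⟨_, rfl⟩

theorem glue_aeval_mem_field (p : R[X]) : aeval t p ∈ L⟮t⟯ :=
  algebra_adjoin_le_adjoin L _ (glue_aeval_mem_adjoin (L := L) t p)

/-- `R[X] → F`, `X ↦ t` -/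
@[reducible] noncomputable def glueAlgF : Algebra R[X] F := (aeval t : R[X] →ₐ[R] F).toRingHom.toAlgebra

/-- `R[X] → L[t]`, `X ↦ t` -/
@[reducible] noncomputable def glueAlgA0 : Algebra R[X] (Algebra.adjoin L ({t} : Set F)) :=
  ((aeval t : R[X] →ₐ[R] F).toRingHom.codRestrict (Algebra.adjoin L ({t} : Set F))
    (glue_aeval_mem_adjoin t)).toAlgebra

/-- `R[X] → L(t)`, `X ↦ t` -/
@[reducible] noncomputable def glueAlgK0 : Algebra R[X] L⟮t⟯ :=
  ((aeval t : R[X] →ₐ[R] F).toRingHom.codRestrict L⟮t⟯ (glue_aeval_mem_field t)).toAlgebra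

variable [IsDomain R] [IsFractionRing R L]

omit [IsDomain R] in
include L in
theorem glue_aeval_injective (ht : Transcendental L t) :
    Function.Injective (aeval t : R[X] →ₐ[R] F) := by
  intro p q hpq
  rw [← aeval_map_algebraMap L, ← aeval_map_algebraMap L t q] at hpq
  have := (transcendental_iff_injective.mp ht) hpq
  exact Polynomial.map_injective _ (IsFractionRing.injective R L) this

omit [IsDomain R] in
/-- clearing denominators -/
theorem glue_exists_clear (p : L[X]) : ∃ r ∈ R⁰, ∃ p' : R[X],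
    aeval t p' = algebraMap R F r * aeval t p := by
  obtain ⟨b, hb, h⟩ := IsLocalization.integerNormalization_spec R⁰ p
  refine ⟨b, hb, IsLocalization.integerNormalization R⁰ p, ?_⟩
  rw [← aeval_map_algebraMap L, h, ← IsScalarTower.algebraMap_smul L b p, map_smul,
    Algebra.smul_def, ← IsScalarTower.algebraMap_apply]

theorem glue_isLocalization_adjoin (ht : Transcendental L t) :
    letI := glueAlgA0 (R := R) (L := L) t
    IsLocalization (Submonoid.map (C : R →+* R[X]) R⁰) (Algebra.adjoin L ({t} : Set F)) := by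
  let _ := glueAlgA0 (R := R) (L := L) t
  have hmap : ∀ p : R[X], ((algebraMap R[X] (Algebra.adjoin L ({t} : Set F)) p :
      Algebra.adjoin L ({t} : Set F)) : F) = aeval t p := fun p => rfl
  refine ⟨?_, ?_, ?_⟩
  · rintro ⟨_, r, hr, rfl⟩
    have hr0 : algebraMap R L r ≠ 0 := by
      rw [Ne, map_eq_zero_iff _ (IsFractionRing.injective R L)]
      exact nonZeroDivisors.ne_zero hr
    refine IsUnit.of_mul_eq_one (algebraMap L _ (algebraMap R L r)⁻¹) ?_
    apply Subtype.ext
    change aeval t (C r) * algebraMap L F (algebraMap R L r)⁻¹ = 1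
    rw [aeval_C, IsScalarTower.algebraMap_apply R L F, ← map_mul, mul_inv_cancel₀ hr0, map_one]
  · rintro ⟨z, hz⟩
    rw [Algebra.adjoin_singleton_eq_range_aeval] at hz
    obtain ⟨p, rfl⟩ := hz
    obtain ⟨r, hr, p', hp'⟩ := glue_exists_clear (R := R) t p
    refine ⟨(p', ⟨C r, r, hr, rfl⟩), ?_⟩
    apply Subtype.ext
    change aeval t p * aeval t (C r) = aeval t p'
    rw [hp', aeval_C, mul_comm]
  · intro x y hxy
    refine ⟨1, ?_⟩
    have := congrArg (Subtype.val) hxy
    rw [hmap, hmap] at this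
    rw [glue_aeval_injective (L := L) t ht this]

theorem glue_isFractionRing_poly (ht : Transcendental L t) :
    letI := glueAlgK0 (R := R) (L := L) t
    IsFractionRing R[X] L⟮t⟯ := by
  let _ := glueAlgK0 (R := R) (L := L) t
  have hinj : Function.Injective (algebraMap R[X] L⟮t⟯) := by
    intro p q hpq
    exact glue_aeval_injective (L := L) t ht (congrArg Subtype.val hpq)
  have : FaithfulSMul R[X] L⟮t⟯ := (faithfulSMul_iff_algebraMap_injective _ _).mpr hinj
  refine IsFractionRing.of_field _ _ ?_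
  rintro ⟨z, hz⟩
  obtain ⟨p, q, rfl⟩ := (mem_adjoin_simple_iff L z).mp hz
  obtain ⟨r, hr, p', hp'⟩ := glue_exists_clear (R := R) t p
  obtain ⟨r', hr', q', hq'⟩ := glue_exists_clear (R := R) t q
  refine ⟨C r' * p', C r * q', ?_⟩
  apply Subtype.ext
  change aeval t p / aeval t q = aeval t (C r' * p') / aeval t (C r * q')
  have h0 : ∀ r ∈ R⁰, algebraMap R F r ≠ 0 := by
    intro r hr
    rw [IsScalarTower.algebraMap_apply R L F, Ne, map_eq_zero,
      map_eq_zero_iff _ (IsFractionRing.injective R L)]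
    exact nonZeroDivisors.ne_zero hr
  rw [map_mul, map_mul, aeval_C, aeval_C, hp', hq']
  have h1 := h0 r hr
  have h2 := h0 r' hr'
  by_cases hq : aeval t q = 0
  · simp [hq]
  · field_simp

end Setup


section Final

variable {R L F : Type*} [CommRing R] [IsDomain R] [IsDiscreteValuationRing R] {ϖ : R}
  [Field L] [CharZero L] [Algebra R L] [IsFractionRing R L]
  [Field F] [Algebra R F] [Algebra L F] [IsScalarTower R L F]

/-- THE GLUE: `GoodChart.dedekind` from the horizontal input (unramifiedness over `L[t]` outside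
`T`), the vertical input ((UNR) at `ϖ`), `T` squarefree mod `ϖ`, and `C/ϖ` a domain. -/
theorem dedekind_chart (hϖ : Irreducible ϖ) (t : F) (ht : Transcendental L t)
    [FiniteDimensional L⟮t⟯ F] (T : R[X]) (hT : Squarefree (T.map (IsLocalRing.residue R)))
    (horiz : ∀ (P : Ideal (integralClosure (Algebra.adjoin L ({t} : Set F)) F)) [P.IsPrime],
      P ≠ ⊥ → algebraMap (Algebra.adjoin L ({t} : Set F))
        (integralClosure (Algebra.adjoin L ({t} : Set F)) F)
          ⟨aeval t T, glue_aeval_mem_adjoin t T⟩ ∉ P →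
        Algebra.IsUnramifiedAt (Algebra.adjoin L ({t} : Set F)) P)
    (vert : ∀ x : F, (∀ c ∈ E.chart R ({t} : Set F), ∃ a s : R[X], ¬ (C ϖ : R[X]) ∣ s ∧
      aeval t s * algebraMap L⟮t⟯ F (Algebra.trace L⟮t⟯ F (x * c)) = aeval t a) →
        ∃ s : R[X], ¬ (C ϖ : R[X]) ∣ s ∧ aeval t s * x ∈ E.chart R ({t} : Set F))
    (hdom : IsDomain (E.chart R ({t} : Set F) ⧸
      Ideal.span {algebraMap R (E.chart R ({t} : Set F)) ϖ}))
    (hnoeth : IsNoetherianRing (E.chart R ({t} : Set F))) :
    IsDedekindDomain (E.chart R ({t} : Set F) ⧸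
      Ideal.span {algebraMap R (E.chart R ({t} : Set F)) ϖ}) := by
  have hπ : Prime (C ϖ : R[X]) := prime_C hϖ
  let _ : Algebra R[X] F := glueAlgF t
  let _ : Algebra R[X] (Algebra.adjoin L ({t} : Set F)) := glueAlgA0 t
  let _ : Algebra R[X] L⟮t⟯ := glueAlgK0 t
  have hinjF : Function.Injective (algebraMap R[X] F) := glue_aeval_injective (L := L) t ht
  have hinjK : Function.Injective (algebraMap R[X] L⟮t⟯) := fun p q hpq =>
    hinjF (congrArg Subtype.val hpq)
  have hne : ∀ s ∈ oneAddSubmonoid (C ϖ : R[X]), s ≠ 0 := fun s hs =>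
    nonZeroDivisors.ne_zero (oneAddSubmonoid_le_nonZeroDivisors hπ.not_isUnit hs)
  have hF : ∀ s ∈ oneAddSubmonoid (C ϖ : R[X]), algebraMap R[X] F s ≠ 0 := fun s hs h =>
    hne s hs (hinjF (by rw [h, map_zero]))
  have hK : ∀ s ∈ oneAddSubmonoid (C ϖ : R[X]), algebraMap R[X] L⟮t⟯ s ≠ 0 := fun s hs h =>
    hne s hs (hinjK (by rw [h, map_zero]))
  let _ : Algebra (SemiLoc (C ϖ : R[X])) F := semiLocAlgebra (C ϖ : R[X]) hF
  let _ : Algebra (SemiLoc (C ϖ : R[X])) L⟮t⟯ := semiLocAlgebra (C ϖ : R[X]) hK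
  have : IsScalarTower R[X] (SemiLoc (C ϖ : R[X])) F := semiLocAlgebra_isScalarTower _ hF
  have : IsScalarTower R[X] (SemiLoc (C ϖ : R[X])) L⟮t⟯ := semiLocAlgebra_isScalarTower _ hK
  have : IsScalarTower R R[X] F := IsScalarTower.of_algebraMap_eq fun r => (aeval_C t r).symm
  have : IsScalarTower R[X] (Algebra.adjoin L ({t} : Set F)) L⟮t⟯ :=
    IsScalarTower.of_algebraMap_eq fun p => rfl
  have : IsScalarTower R[X] L⟮t⟯ F := IsScalarTower.of_algebraMap_eq fun p => rfl
  have : IsScalarTower R[X] (Algebra.adjoin L ({t} : Set F)) F :=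
    IsScalarTower.of_algebraMap_eq fun p => rfl
  have : IsScalarTower (SemiLoc (C ϖ : R[X])) L⟮t⟯ F := by
    refine IsScalarTower.of_algebraMap_eq' ?_
    refine IsLocalization.ringHom_ext (oneAddSubmonoid (C ϖ : R[X])) ?_
    ext p
    · simp only [RingHom.comp_apply]
      rw [← IsScalarTower.algebraMap_apply R[X] (SemiLoc (C ϖ : R[X])) F,
        ← IsScalarTower.algebraMap_apply R[X] (SemiLoc (C ϖ : R[X])) L⟮t⟯,
        ← IsScalarTower.algebraMap_apply R[X] L⟮t⟯ F]
    · simp only [RingHom.comp_apply]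
      rw [← IsScalarTower.algebraMap_apply R[X] (SemiLoc (C ϖ : R[X])) F,
        ← IsScalarTower.algebraMap_apply R[X] (SemiLoc (C ϖ : R[X])) L⟮t⟯,
        ← IsScalarTower.algebraMap_apply R[X] L⟮t⟯ F]
  have : IsLocalization (Submonoid.map (C : R →+* R[X]) R⁰) (Algebra.adjoin L ({t} : Set F)) :=
    glue_isLocalization_adjoin t ht
  have : IsFractionRing R[X] L⟮t⟯ := glue_isFractionRing_poly t ht
  have : IsFractionRing (SemiLoc (C ϖ : R[X])) L⟮t⟯ :=
    IsFractionRing.isFractionRing_of_isDomain_of_isLocalization (oneAddSubmonoid (C ϖ : R[X])) _ _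
  have : IsPrincipalIdealRing (Algebra.adjoin L ({t} : Set F)) :=
    IsPrincipalIdealRing.of_surjective
      (Polynomial.algEquivOfTranscendental L t ht).toRingEquiv.toRingHom
      (Polynomial.algEquivOfTranscendental L t ht).surjective
  have : CharZero L⟮t⟯ := charZero_of_injective_algebraMap (algebraMap L L⟮t⟯).injective
  refine glue_isDedekindDomain_chart (SemiLoc (C ϖ : R[X])) (Algebra.adjoin L ({t} : Set F)) L⟮t⟯
    (t := t) (aeval_X t) hϖ T hT ?_ horiz ?_ hdom hnoeth
  · intro p hp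
    have : Nontrivial (Algebra.adjoin L ({t} : Set F) ⧸ p) :=
      Ideal.Quotient.nontrivial_iff.mpr hp.ne_top
    exact charZero_of_injective_algebraMap
      (algebraMap L (Algebra.adjoin L ({t} : Set F) ⧸ p)).injective
  · intro x hx
    obtain ⟨s, hs, hsx⟩ := vert x (by
      intro c hc
      obtain ⟨a, s, hs, h⟩ := hx c ((mem_chart_iff_isIntegral (aeval_X t) c).mp hc)
      exact ⟨a, s, hs, congrArg Subtype.val h⟩)
    exact ⟨s, hs, (mem_chart_iff_isIntegral (aeval_X t) _).mp hsx⟩

end Final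

end Fermat.Agent.GR.D
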