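import Fermat.Agent.S24.Zeros
import Fermat.Agent.S24.InducedPlace

/-!
# GR-D, horizontal unramifiedness: transfer from an algebraically closed constant field

`isUnramifiedAt_of_not_mem_sq` : criterion `x ∈ P \ P ^ 2` with `x` in the base ring.
`isUnramifiedAt_of_places` : if all places of `Fb / Kb` (`Kb` algebraically closed, algebraic over
`L`) at which `T0` is a unit have `ord (t - a) ≤ 1`, then every prime of the integral closure of
`L[t]` in `F` which does not contain `T0` is unramified over `L[t]`.
-/

set_option autoImplicit false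
set_option linter.unusedSectionVars false

namespace Fermat.Agent.GR.D

open AlgebraicCurve IntermediateField IsDedekindDomain Polynomial
open scoped IntermediateField.algebraAdjoinAdjoin

theorem isUnramifiedAt_of_not_mem_sq {A C : Type*} [CommRing A] [CommRing C] [Algebra A C]
    [IsDedekindDomain C] [Algebra.EssFiniteType A C] [Algebra.IsIntegral A C]
    (P : Ideal C) [P.IsPrime] (hP : P ≠ ⊥) [PerfectField (P.under A).ResidueField]
    (x : A) (hx : algebraMap A C x ∈ P) (hx2 : algebraMap A C x ∉ P ^ 2) :
    Algebra.IsUnramifiedAt A P := by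
  let p₀ := P.under A
  let := Localization.AtPrime.algebraOfLiesOver p₀ P
  rw [Algebra.isUnramifiedAt_iff_map_eq A p₀ P]
  refine ⟨Algebra.IsAlgebraic.isSeparable_of_perfectField, ?_⟩
  rw [← Ideal.IsDedekindDomain.ramificationIdx'_eq_one_iff hP Ideal.map_comap_le, ← not_ne_iff,
    Ideal.ramificationIdx'_ne_one_iff Ideal.map_comap_le]
  intro H
  exact hx2 (H (Ideal.mem_map_of_mem _ hx))

section Transfer

variable {L F Kb Fb : Type} [Field L] [Field F] [Algebra L F] [CharZero L]
  [Field Kb] [Field Fb] [Algebra Kb Fb] [IsAlgClosed Kb] [CharZero Kb]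
  [Algebra L Kb] [Algebra.IsAlgebraic L Kb]
  (ι : F →+* Fb) (hι : ∀ a : L, ι (algebraMap L F a) = algebraMap Kb Fb (algebraMap L Kb a))
  (t : F)

include hι in
theorem horiz_map_adjoin (x : F) (hx : x ∈ Algebra.adjoin L {t}) :
    ι x ∈ Algebra.adjoin Kb {ι t} := by
  induction hx using Algebra.adjoin_induction with
  | mem y hy =>
    rw [Set.mem_singleton_iff] at hy
    rw [hy]
    exact Algebra.self_mem_adjoin_singleton Kb _
  | algebraMap r => rw [hι]; exact Subalgebra.algebraMap_mem _ _
  | add y z _ _ hy hz => rw [map_add]; exact add_mem hy hz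
  | mul y z _ _ hy hz => rw [map_mul]; exact mul_mem hy hz

/-- The restriction of `ι` to `L[t] → Kb[ι t]`. -/
def horizBase : Algebra.adjoin L {t} →+* Algebra.adjoin Kb {ι t} where
  toFun x := ⟨ι x, horiz_map_adjoin ι hι t x x.2⟩
  map_one' := Subtype.ext (map_one ι)
  map_mul' x y := Subtype.ext (map_mul ι (x : F) (y : F))
  map_zero' := Subtype.ext (map_zero ι)
  map_add' x y := Subtype.ext (map_add ι (x : F) (y : F))

include hι in
theorem horiz_map_integralClosure (x : F) (hx : x ∈ integralClosure (Algebra.adjoin L {t}) F) :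
    ι x ∈ integralClosure (Algebra.adjoin Kb {ι t}) Fb := by
  obtain ⟨p, hp, hpx⟩ := hx
  refine ⟨p.map (horizBase ι hι t), hp.map _, ?_⟩
  rw [Polynomial.eval₂_map]
  have h := congrArg ι hpx
  rw [Polynomial.hom_eval₂, map_zero] at h
  exact h

/-- The restriction of `ι` to the integral closures. -/
def horizCl : integralClosure (Algebra.adjoin L {t}) F →+*
    integralClosure (Algebra.adjoin Kb {ι t}) Fb where
  toFun x := ⟨ι x, horiz_map_integralClosure ι hι t x x.2⟩
  map_one' := Subtype.ext (map_one ι)
  map_mul' x y := Subtype.ext (map_mul ι (x : F) (y : F))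
  map_zero' := Subtype.ext (map_zero ι)
  map_add' x y := Subtype.ext (map_add ι (x : F) (y : F))

theorem horizCl_injective : Function.Injective (horizCl ι hι t) := by
  intro x y h
  apply Subtype.ext
  exact ι.injective (congrArg Subtype.val h)

/-- `Kb[ι t]` is integral over `L[t]`. -/
theorem horizBase_isIntegral : (horizBase ι hι t).IsIntegral := by
  rintro ⟨y, hy⟩
  induction hy using Algebra.adjoin_induction with
  | mem y hy =>
    have hy' : y = ι t := hy
    subst hy'
    exact (horizBase ι hι t).isIntegralElem_map (x := ⟨t, Algebra.self_mem_adjoin_singleton L t⟩)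
  | algebraMap r =>
    obtain ⟨p, hp, hpr⟩ := (Algebra.IsIntegral.isIntegral (R := L) r)
    refine ⟨p.map (algebraMap L (Algebra.adjoin L {t})), hp.map _, ?_⟩
    rw [Polynomial.eval₂_map]
    apply Subtype.ext
    have h1 : (algebraMap (Algebra.adjoin Kb {ι t}) Fb)
        (Polynomial.eval₂ ((horizBase ι hι t).comp (algebraMap L (Algebra.adjoin L {t})))
          (⟨algebraMap Kb Fb r, Subalgebra.algebraMap_mem _ r⟩ : Algebra.adjoin Kb {ι t}) p) =
        algebraMap Kb Fb (Polynomial.eval₂ (algebraMap L Kb) r p) := by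
      rw [Polynomial.hom_eval₂, Polynomial.hom_eval₂]
      congr 1
      ext a
      exact hι a
    rw [hpr, map_zero] at h1
    exact h1
  | add y z hy hz hy' hz' => exact RingHom.IsIntegralElem.add _ hy' hz'
  | mul y z hy hz hy' hz' => exact RingHom.IsIntegralElem.mul _ hy' hz'

theorem horizCl_isIntegral : (horizCl ι hι t).IsIntegral := by
  intro y
  -- `y` is integral over `Kb[ι t]`, which is integral over `L[t]`
  have h1 : ((algebraMap (Algebra.adjoin Kb {ι t})
      (integralClosure (Algebra.adjoin Kb {ι t}) Fb)).comp (horizBase ι hι t)).IsIntegral :=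
    RingHom.IsIntegral.trans _ _ (horizBase_isIntegral ι hι t)
      (algebraMap_isIntegral_iff.2 inferInstance)
  have h2 : (algebraMap (Algebra.adjoin Kb {ι t})
      (integralClosure (Algebra.adjoin Kb {ι t}) Fb)).comp (horizBase ι hι t) =
      (horizCl ι hι t).comp (algebraMap (Algebra.adjoin L {t})
        (integralClosure (Algebra.adjoin L {t}) F)) := by
    ext x
    rfl
  rw [h2] at h1
  exact RingHom.IsIntegral.tower_top _ _ h1 y

open Fermat.Agent.S24 in
include hι in
theorem isUnramifiedAt_of_places (ht : Transcendental L t) [FiniteDimensional L⟮t⟯ F]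
    (htb : Transcendental Kb (ι t)) [FiniteDimensional Kb⟮ι t⟯ Fb]
    (T0 : Algebra.adjoin L {t})
    (hunr : ∀ (v : Place Kb Fb) (a : Kb), v.ord (ι (T0 : F)) = 0 →
      v.ord (ι t - algebraMap Kb Fb a) ≤ 1)
    (P : Ideal (integralClosure (Algebra.adjoin L {t}) F)) [P.IsPrime] (hP : P ≠ ⊥)
    (hT : algebraMap (Algebra.adjoin L {t}) (integralClosure (Algebra.adjoin L {t}) F) T0 ∉ P) :
    Algebra.IsUnramifiedAt (Algebra.adjoin L {t}) P := by
  classical
  have hDL := induced_isDedekindDomain t ht
  have hDK := induced_isDedekindDomain (ι t) htb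
  have hFK := induced_isFractionRing (K := Kb) (ι t)
  -- lying over
  let _ : Algebra (integralClosure (Algebra.adjoin L {t}) F)
      (integralClosure (Algebra.adjoin Kb {ι t}) Fb) := (horizCl ι hι t).toAlgebra
  have hint : Algebra.IsIntegral (integralClosure (Algebra.adjoin L {t}) F)
      (integralClosure (Algebra.adjoin Kb {ι t}) Fb) :=
    algebraMap_isIntegral_iff.1 (horizCl_isIntegral ι hι t)
  obtain ⟨Pb, hPbprime, hPbcomap⟩ := Ideal.exists_ideal_over_prime_of_isIntegral_of_isDomain
    (S := integralClosure (Algebra.adjoin Kb {ι t}) Fb) P (by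
      have : RingHom.ker (algebraMap (integralClosure (Algebra.adjoin L {t}) F)
          (integralClosure (Algebra.adjoin Kb {ι t}) Fb)) = ⊥ :=
        (RingHom.injective_iff_ker_eq_bot _).1 (horizCl_injective ι hι t)
      rw [this]
      exact bot_le)
  have hmemP : ∀ c : integralClosure (Algebra.adjoin L {t}) F, c ∈ P ↔ horizCl ι hι t c ∈ Pb := by
    intro c
    rw [← hPbcomap]
    rfl
  have hPb0 : Pb ≠ ⊥ := by
    intro h
    apply hP
    rw [eq_bot_iff]
    intro c hc
    rw [hmemP, h, Ideal.mem_bot] at hc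
    rw [Ideal.mem_bot]
    exact horizCl_injective ι hι t (by rw [hc, map_zero])
  let w : HeightOneSpectrum (integralClosure (Algebra.adjoin Kb {ι t}) Fb) := ⟨Pb, hPbprime, hPb0⟩
  let v : Place Kb Fb := Place.ofHeightOneSpectrum (K := Kb) w
  have hordnn : ∀ r : integralClosure (Algebra.adjoin Kb {ι t}) Fb, 0 ≤ v.ord (r : Fb) := fun r =>
    Zeros.ord_nonneg_of_mem v (Zeros.algebraMap_mem_ofHeightOneSpectrum w r)
  have hordpos : ∀ r : integralClosure (Algebra.adjoin Kb {ι t}) Fb, r ≠ 0 →
      (r ∈ Pb ↔ 0 < v.ord (r : Fb)) := fun r hr => Zeros.mem_asIdeal_iff_ord_pos (K := Kb) w hr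
  -- `T0` is a unit at `v`
  have hT0 : v.ord (ι (T0 : F)) = 0 := by
    have h1 := hordnn (horizCl ι hι t (algebraMap _ _ T0))
    have h2 : horizCl ι hι t (algebraMap _ _ T0) ∉ Pb := fun h => hT ((hmemP _).2 h)
    have h3 : horizCl ι hι t (algebraMap _ _ T0) ≠ 0 := fun h => h2 (h ▸ zero_mem _)
    rw [hordpos _ h3] at h2
    have h4 : ((horizCl ι hι t (algebraMap _ _ T0) : integralClosure (Algebra.adjoin Kb {ι t}) Fb)
      : Fb) = ι (T0 : F) := rfl
    rw [h4] at h1 h2
    omega
  -- the centre of `v`
  have htmem : ι t ∈ integralClosure (Algebra.adjoin Kb {ι t}) Fb :=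
    horiz_map_integralClosure ι hι t t
      ((integralClosure (Algebra.adjoin L {t}) F).algebraMap_mem
        ⟨t, Algebra.self_mem_adjoin_singleton L t⟩)
  obtain ⟨a, ha⟩ : ∃ a : Kb, 0 < v.ord (ι t - algebraMap Kb Fb a) := by
    rcases exists_center (ι t) htb v with h | h
    · exfalso
      rw [v.ord_inv] at h
      have := hordnn ⟨ι t, htmem⟩
      simp only at this
      omega
    · exact h
  have ha1 : v.ord (ι t - algebraMap Kb Fb a) = 1 := by
    have := hunr v a hT0
    omega
  -- the minimal polynomial of the centre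
  have haint : IsIntegral L a := Algebra.IsIntegral.isIntegral a
  obtain ⟨g, hg⟩ : (X - C a) ∣ (minpoly L a).map (algebraMap L Kb) := by
    rw [Polynomial.dvd_iff_isRoot, Polynomial.IsRoot.def, Polynomial.eval_map,
      ← Polynomial.aeval_def, minpoly.aeval]
  have hsep : ((minpoly L a).map (algebraMap L Kb)).Separable :=
    ((minpoly.irreducible haint).separable).map
  have hga : g.eval a ≠ 0 := by
    rw [hg] at hsep
    have hcop := hsep.isCoprime
    obtain ⟨u, w', huw⟩ := hcop
    intro h0
    have := congrArg (Polynomial.eval a) huw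
    simp [h0] at this
  have hpolymem : ∀ q : Kb[X], aeval (ι t) q ∈ integralClosure (Algebra.adjoin Kb {ι t}) Fb := by
    intro q
    have h1 : aeval (ι t) q ∈ Algebra.adjoin Kb {ι t} := by
      rw [Algebra.adjoin_singleton_eq_range_aeval]
      exact ⟨q, rfl⟩
    exact (integralClosure (Algebra.adjoin Kb {ι t}) Fb).algebraMap_mem ⟨_, h1⟩
  have hgord : v.ord (aeval (ι t) g) = 0 := by
    have h1 : g = C (g.eval a) + (X - C a) * (g /ₘ (X - C a)) := by
      conv_lhs => rw [← Polynomial.modByMonic_add_div g (X - C a)]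
      rw [Polynomial.modByMonic_X_sub_C_eq_C_eval]
    have h2 : aeval (ι t) g = algebraMap Kb Fb (g.eval a) +
        (ι t - algebraMap Kb Fb a) * aeval (ι t) (g /ₘ (X - C a)) := by
      conv_lhs => rw [h1]
      simp
    have h3 : algebraMap Kb Fb (g.eval a) ≠ 0 := by
      simpa using hga
    rcases eq_or_ne (aeval (ι t) (g /ₘ (X - C a))) 0 with h4 | h4
    · rw [h2, h4, mul_zero, add_zero, Zeros.ord_algebraMap]
    · have h5 : ι t - algebraMap Kb Fb a ≠ 0 := by
        intro h
        rw [h, v.ord_zero] at ha1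
        omega
      rw [h2, Zeros.ord_add_eq_of_lt v _ h3, Zeros.ord_algebraMap]
      rw [Zeros.ord_algebraMap, v.ord_mul h5 h4, ha1]
      have := hordnn ⟨_, hpolymem (g /ₘ (X - C a))⟩
      simp only at this
      omega
  let tt : Algebra.adjoin L {t} := ⟨t, Algebra.self_mem_adjoin_singleton L t⟩
  let x : Algebra.adjoin L {t} := aeval tt (minpoly L a)
  have hxF : ι ((x : Algebra.adjoin L {t}) : F) =
      (ι t - algebraMap Kb Fb a) * aeval (ι t) g := by
    have h1 : ((x : Algebra.adjoin L {t}) : F) = aeval t (minpoly L a) := by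
      have := Polynomial.aeval_algHom_apply (Algebra.adjoin L {t}).val tt (minpoly L a)
      exact this.symm
    have h2 : ι (aeval t (minpoly L a)) = aeval (ι t) ((minpoly L a).map (algebraMap L Kb)) := by
      rw [Polynomial.aeval_def, Polynomial.hom_eval₂, Polynomial.aeval_def, Polynomial.eval₂_map]
      congr 1
      ext b
      exact hι b
    rw [h1, h2, hg]
    simp
  have hxord : v.ord (ι ((x : Algebra.adjoin L {t}) : F)) = 1 := by
    have h5 : ι t - algebraMap Kb Fb a ≠ 0 := by
      intro h
      rw [h, v.ord_zero] at ha1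
      omega
    have h6 : aeval (ι t) g ≠ 0 := by
      intro h
      have h7 : g = 0 := by
        by_contra hne
        exact htb ⟨g, hne, h⟩
      rw [h7] at hga
      simp at hga
    rw [hxF, v.ord_mul h5 h6, ha1, hgord]
    rfl
  have hxne : horizCl ι hι t (algebraMap _ _ x) ≠ 0 := by
    intro h
    have h1 : ι ((x : Algebra.adjoin L {t}) : F) = 0 := congrArg Subtype.val h
    rw [h1, v.ord_zero] at hxord
    omega
  have hxP : algebraMap (Algebra.adjoin L {t}) (integralClosure (Algebra.adjoin L {t}) F) x ∈ P := by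
    rw [hmemP, hordpos _ hxne]
    have h4 : ((horizCl ι hι t (algebraMap _ _ x) : integralClosure (Algebra.adjoin Kb {ι t}) Fb)
      : Fb) = ι (x : F) := rfl
    rw [h4, hxord]
    exact one_pos
  have hxP2 : algebraMap (Algebra.adjoin L {t}) (integralClosure (Algebra.adjoin L {t}) F) x
      ∉ P ^ 2 := by
    intro h
    have h1 : horizCl ι hι t (algebraMap _ _ x) ∈ Pb ^ 2 := by
      have h2 : Ideal.map (horizCl ι hι t) (P ^ 2) ≤ Pb ^ 2 := by
        rw [Ideal.map_pow]
        apply Ideal.pow_right_mono
        rw [Ideal.map_le_iff_le_comap]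
        intro c hc
        exact (hmemP c).1 hc
      exact h2 (Ideal.mem_map_of_mem _ h)
    have h3 := Zeros.ord_ofHeightOneSpectrum_algebraMap (K := Kb) (F := Fb) w hxne
    have h4 : (algebraMap (integralClosure (Algebra.adjoin Kb {ι t}) Fb) Fb)
        (horizCl ι hι t (algebraMap _ _ x)) = ι (x : F) := rfl
    rw [h4] at h3
    have h5 : 2 ≤ multiplicity w.asIdeal (Ideal.span {horizCl ι hι t (algebraMap _ _ x)}) := by
      apply FiniteMultiplicity.le_multiplicity_of_pow_dvd
      · apply FiniteMultiplicity.of_not_isUnit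
        · rw [Ideal.isUnit_iff]
          exact hPbprime.ne_top
        · rw [Ne, Ideal.zero_eq_bot, Ideal.span_singleton_eq_bot]
          exact hxne
      · rw [Ideal.dvd_span_singleton]
        exact h1
    have h6 : v.ord (ι (x : F)) = _ := h3
    rw [hxord] at h6
    omega
  -- instances for the criterion
  have hPID := induced_isPrincipalIdealRing (K := L) t ht
  have hc0 : CharZero L⟮t⟯ := charZero_of_injective_algebraMap (algebraMap L L⟮t⟯).injective
  have hfin : Module.Finite (Algebra.adjoin L {t}) (integralClosure (Algebra.adjoin L {t}) F) :=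
    IsIntegralClosure.finite (Algebra.adjoin L {t}) L⟮t⟯ F _
  have hperf : PerfectField (P.under (Algebra.adjoin L {t})).ResidueField := by
    have : CharZero (P.under (Algebra.adjoin L {t})).ResidueField :=
      charZero_of_injective_ringHom
        (((algebraMap (Algebra.adjoin L {t}) (P.under (Algebra.adjoin L {t})).ResidueField).comp
          (algebraMap L (Algebra.adjoin L {t}))).injective)
    infer_instance
  exact isUnramifiedAt_of_not_mem_sq P hP x hxP hxP2

end Transfer

end Fermat.Agent.GR.D
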