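import Fermat.Agent.S24.PlacesDedekind

/-!
# GR-D, input (H), part 3: descent of unramifiedness from `K = ℚ̄` to a subfield `L`

Abstract setting: `L ⊆ K` algebraic, `K` algebraically closed, `F ⊆ F'` function fields over
`L` and `K`.
-/

set_option autoImplicit false

namespace Fermat.Agent.GR.D

open AlgebraicCurve Polynomial Fermat.Agent.S24.Zeros

section OneField

variable {K F : Type*} [Field K] [Field F] [Algebra K F]

theorem aeval_mem_place (v : Place K F) {h : F} (hh : h ∈ v.toValuationSubring) (g : K[X]) :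
    aeval h g ∈ v.toValuationSubring := by
  induction g using Polynomial.induction_on' with
  | add p q hp hq => rw [map_add]; exact add_mem hp hq
  | monomial n a =>
    rw [aeval_monomial]
    exact mul_mem (v.algebraMap_mem' a) (pow_mem hh n)

theorem mem_place_of_ord_sub_pos (v : Place K F) {h : F} {c : K}
    (hv : 0 < v.ord (h - algebraMap K F c)) : h ∈ v.toValuationSubring := by
  have h1 : h - algebraMap K F c ∈ v.toValuationSubring := mem_of_ord_nonneg v hv.le
  have h2 := add_mem h1 (v.algebraMap_mem' c)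
  simpa using h2

/-- the value of a polynomial at `h ≡ c` is a unit if the value at `c` is nonzero. -/
theorem ord_aeval_eq_zero (v : Place K F) {h : F} {c : K}
    (hv : 0 < v.ord (h - algebraMap K F c)) (g : K[X]) (hg : g.eval c ≠ 0) :
    v.ord (aeval h g) = 0 := by
  have hh := mem_place_of_ord_sub_pos v hv
  have hdec : g = C (g.eval c) + (X - C c) * (g /ₘ (X - C c)) := by
    have := modByMonic_add_div g (X - C c)
    rw [modByMonic_X_sub_C_eq_C_eval] at this
    exact this.symm
  have hval : aeval h g = algebraMap K F (g.eval c) +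
      (h - algebraMap K F c) * aeval h (g /ₘ (X - C c)) := by
    conv_lhs => rw [hdec]
    simp [aeval_C]
  rw [hval]
  have h0 : v.ord (algebraMap K F (g.eval c)) = 0 := ord_algebraMap v _
  have hne : algebraMap K F (g.eval c) ≠ 0 := (_root_.map_ne_zero _).2 hg
  rcases eq_or_ne (aeval h (g /ₘ (X - C c))) 0 with hq | hq
  · rw [hq, mul_zero, add_zero, h0]
  have hsub : h - algebraMap K F c ≠ 0 := by
    intro h'
    rw [h'] at hv
    simp at hv
  rw [ord_add_eq_of_lt v _ hne, h0]
  rw [h0, v.ord_mul hsub hq]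
  have := ord_nonneg_of_mem v (aeval_mem_place v hh (g /ₘ (X - C c)))
  omega

theorem exists_root_ord_pos [IsAlgClosed K] (v : Place K F) {h : F}
    (hh : h ∈ v.toValuationSubring) (f : K[X]) (hf : 0 < v.ord (aeval h f)) :
    ∃ c, f.IsRoot c ∧ 0 < v.ord (h - algebraMap K F c) := by
  induction hn : f.natDegree using Nat.strong_induction_on generalizing f with
  | _ n ih =>
    have hf0 : aeval h f ≠ 0 := by
      intro h'
      rw [h'] at hf
      simp at hf
    have hdeg : f.degree ≠ 0 := by
      intro hd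
      rw [eq_C_of_degree_eq_zero hd, aeval_C, ord_algebraMap] at hf
      exact lt_irrefl _ hf
    obtain ⟨c, hc⟩ := IsAlgClosed.exists_root f hdeg
    have hdec : f = (X - C c) * (f /ₘ (X - C c)) := (mul_divByMonic_eq_iff_isRoot.2 hc).symm
    have hval : aeval h f = (h - algebraMap K F c) * aeval h (f /ₘ (X - C c)) := by
      conv_lhs => rw [hdec]
      simp [aeval_C]
    have h1 : h - algebraMap K F c ≠ 0 := fun h' => hf0 (by rw [hval, h', zero_mul])
    have h2 : aeval h (f /ₘ (X - C c)) ≠ 0 := fun h' => hf0 (by rw [hval, h', mul_zero])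
    rw [hval, v.ord_mul h1 h2] at hf
    by_cases hpos : 0 < v.ord (h - algebraMap K F c)
    · exact ⟨c, hc, hpos⟩
    · have h3 : 0 ≤ v.ord (h - algebraMap K F c) :=
        ord_nonneg_of_mem v (sub_mem hh (v.algebraMap_mem' c))
      have hf00 : f ≠ 0 := by
        rintro rfl
        simp at hf0
      have hlt : (f /ₘ (X - C c)).natDegree < n := by
        rw [natDegree_divByMonic _ (monic_X_sub_C c), natDegree_X_sub_C, ← hn]
        have : 0 < f.natDegree := by
          rw [natDegree_pos_iff_degree_pos]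
          exact lt_of_le_of_ne (zero_le_degree_iff.2 hf00) (Ne.symm hdeg)
        omega
      obtain ⟨c', hc', hpos'⟩ := ih _ hlt (f /ₘ (X - C c)) (by omega) rfl
      refine ⟨c', ?_, hpos'⟩
      rw [hdec, IsRoot.def, eval_mul, hc'.eq_zero, mul_zero]

theorem ord_aeval_eq_one [IsAlgClosed K] (v : Place K F) {h : F}
    (hh : h ∈ v.toValuationSubring) (f : K[X]) (hsep : f.Separable)
    (hf : 0 < v.ord (aeval h f))
    (hbr : ∀ c, f.IsRoot c → 0 < v.ord (h - algebraMap K F c) →
      v.ord (h - algebraMap K F c) = 1) :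
    v.ord (aeval h f) = 1 := by
  obtain ⟨c, hc, hpos⟩ := exists_root_ord_pos v hh f hf
  have hdec : f = (X - C c) * (f /ₘ (X - C c)) := (mul_divByMonic_eq_iff_isRoot.2 hc).symm
  have hval : aeval h f = (h - algebraMap K F c) * aeval h (f /ₘ (X - C c)) := by
    conv_lhs => rw [hdec]
    simp [aeval_C]
  have hq : (f /ₘ (X - C c)).eval c ≠ 0 := by
    intro hq
    have hder : (derivative f).eval c = 0 := by
      rw [hdec, derivative_mul]
      simp [hq]
    obtain ⟨a, b, hab⟩ := hsep
    have := congrArg (eval c) hab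
    rw [eval_add, eval_mul, eval_mul, hc.eq_zero, hder] at this
    simp at this
  have h0 := ord_aeval_eq_zero v hpos _ hq
  have h1 : h - algebraMap K F c ≠ 0 := by
    intro h'
    rw [h'] at hpos
    simp at hpos
  have h2 : aeval h (f /ₘ (X - C c)) ≠ 0 := by
    intro h'
    rw [hval, h', mul_zero] at hf
    simp at hf
  rw [hval, v.ord_mul h1 h2, h0, add_zero, hbr c hc hpos]

end OneField

section TwoFields

variable {L K F F' : Type*} [Field L] [Field K] [Field F] [Field F'] [Algebra L K] [Algebra L F]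
  [Algebra K F'] [Algebra F F'] [Algebra L F'] [IsScalarTower L K F'] [IsScalarTower L F F']

/-- Every valuation subring of `F` extends to `F'` (with `V' ∩ F = V`). -/
theorem exists_valuationSubring_extending (V : ValuationSubring F) :
    ∃ V' : ValuationSubring F', ∀ x : F, x ∈ V ↔ algebraMap F F' x ∈ V' := by
  obtain ⟨V', hV', hloc⟩ :=
    IsLocalRing.exists_factor_valuationRing ((algebraMap F F').comp V.subtype)
  refine ⟨V', fun x => ⟨fun hx => hV' ⟨x, hx⟩, fun hx => ?_⟩⟩
  by_contra hxV
  have hx0 : x ≠ 0 := fun h => hxV (h ▸ V.zero_mem)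
  have hinv : x⁻¹ ∈ V := (V.mem_or_inv_mem x).resolve_left hxV
  have hunit : IsUnit ((((algebraMap F F').comp V.subtype).codRestrict V'.toSubring hV')
      ⟨x⁻¹, hinv⟩) := by
    refine isUnit_iff_exists_inv.2 ⟨⟨algebraMap F F' x, hx⟩, ?_⟩
    apply Subtype.ext
    show algebraMap F F' x⁻¹ * algebraMap F F' x = 1
    rw [← map_mul, inv_mul_cancel₀ hx0, map_one]
  have h2 := hloc.map_nonunit _ hunit
  obtain ⟨y, hy⟩ := isUnit_iff_exists_inv.1 h2
  apply hxV
  have hy' : x⁻¹ * (y : F) = 1 := congrArg Subtype.val hy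
  have : (y : F) = x := by
    field_simp at hy'
    exact hy'
  rw [← this]
  exact y.2

variable [Algebra.IsAlgebraic L K]

theorem exists_place_extending
    (hplace : ∀ V' : ValuationSubring F', (∀ a : K, algebraMap K F' a ∈ V') → V' ≠ ⊤ →
      IsPrincipalIdealRing V')
    (V : ValuationSubring F) (hL : ∀ a : L, algebraMap L F a ∈ V) (hV : V ≠ ⊤) :
    ∃ v : Place K F', ∀ x : F, x ∈ V ↔ algebraMap F F' x ∈ v.toValuationSubring := by
  obtain ⟨V', hV'⟩ := exists_valuationSubring_extending (F' := F') V
  have hK : ∀ a : K, algebraMap K F' a ∈ V' := by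
    intro a
    have hint : IsIntegral L a := Algebra.IsIntegral.isIntegral a
    have h1 : IsIntegral L (algebraMap K F' a) := hint.map (IsScalarTower.toAlgHom L K F')
    let φ : L →+* V' := (algebraMap L F').codRestrict V'.toSubring (fun a => by
      rw [IsScalarTower.algebraMap_apply L F F']
      exact (hV' _).1 (hL a))
    have h2 : IsIntegral V' (algebraMap K F' a) := by
      obtain ⟨p, hp, hp0⟩ := h1
      refine ⟨p.map φ, hp.map _, ?_⟩
      rw [eval₂_map]
      exact hp0
    obtain ⟨y, hy⟩ := IsIntegrallyClosed.isIntegral_iff.1 h2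
    rw [← hy]
    exact y.2
  have hne : V' ≠ ⊤ := by
    intro h
    apply hV
    rw [eq_top_iff]
    intro x _
    rw [hV', h]
    trivial
  exact ⟨⟨V', hK, hne, hplace V' hK hne⟩, hV'⟩

variable [IsAlgClosed K]

/-- (H3) Let `f ∈ L[X]` be separable and suppose that all places of `F'/K` over the roots of `f`
are unramified over `K(h)`.  Then `f(h)` is a uniformizer of every valuation subring `V ⊇ L` of
`F` in which it is a nonunit. -/
theorem div_mem_of_separable
    (hplace : ∀ V' : ValuationSubring F', (∀ a : K, algebraMap K F' a ∈ V') → V' ≠ ⊤ →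
      IsPrincipalIdealRing V')
    (V : ValuationSubring F) (hL : ∀ a : L, algebraMap L F a ∈ V) {h : F} (hh : h ∈ V)
    (f : L[X]) (hsep : f.Separable) (hfV : aeval h f ∈ V.nonunits)
    (hbr : ∀ (v : Place K F') (c : K), aeval c f = 0 →
      0 < v.ord (algebraMap F F' h - algebraMap K F' c) →
      v.ord (algebraMap F F' h - algebraMap K F' c) = 1) :
    ∀ x ∈ V.nonunits, x / aeval h f ∈ V := by
  intro x hx
  rcases eq_or_ne (aeval h f) 0 with hf0 | hf0
  · rw [hf0, div_zero]; exact V.zero_mem
  rcases eq_or_ne x 0 with rfl | hx0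
  · rw [zero_div]; exact V.zero_mem
  have hnon : ∀ y : F, y ≠ 0 → y ∈ V.nonunits → y⁻¹ ∉ V := by
    intro y hy0 hy hinv
    rw [ValuationSubring.mem_nonunits_iff] at hy
    have h1 := (V.valuation_le_one_iff _).2 hinv
    rw [map_inv₀] at h1
    have h2 : V.valuation y ≠ 0 := (Valuation.ne_zero_iff _).2 hy0
    have h3 : (1 : V.ValueGroup) ≤ V.valuation y := by
      have := (inv_le_one₀ (zero_lt_iff.2 h2)).1 h1
      exact this
    exact absurd hy (not_lt.2 h3)
  have hV : V ≠ ⊤ := by
    intro h'
    apply hnon _ hf0 hfV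
    rw [h']; trivial
  obtain ⟨v, hv⟩ := exists_place_extending (K := K) (F' := F') hplace V hL hV
  have hpos : ∀ y : F, y ≠ 0 → y ∈ V.nonunits → 0 < v.ord (algebraMap F F' y) := by
    intro y hy0 hy
    have h1 := hnon y hy0 hy
    rw [hv, map_inv₀, mem_iff_ord_nonneg', v.ord_inv] at h1
    omega
  have hmap : algebraMap F F' (aeval h f) = aeval (algebraMap F F' h) (f.map (algebraMap L K)) := by
    rw [aeval_map_algebraMap, aeval_algebraMap_apply]
  have h1 : v.ord (algebraMap F F' (aeval h f)) = 1 := by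
    rw [hmap]
    refine ord_aeval_eq_one v ((hv h).1 hh) _ hsep.map ?_ ?_
    · rw [← hmap]; exact hpos _ hf0 hfV
    · intro c hc
      apply hbr v c
      rw [IsRoot.def, eval_map_algebraMap] at hc
      exact hc
  rw [hv, map_div₀, mem_iff_ord_nonneg', div_eq_mul_inv,
    v.ord_mul ((_root_.map_ne_zero _).2 hx0) (inv_ne_zero ((_root_.map_ne_zero _).2 hf0)),
    v.ord_inv, h1]
  have := hpos x hx0 hx
  omega

end TwoFields

end Fermat.Agent.GR.D
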