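import Mathlib
import Fermat.Agent.GR.E.Defs
import Fermat.Agent.GR.E.E0
import Fermat.Agent.GR.D.T1
import Fermat.Agent.GR.D.SemiLoc
import Fermat.Agent.GR.D.Glue
import Fermat.Agent.GR.D.Defs

/-! GR-D abstract leaves (A1)-(A6): consequences of `VertData`. -/

set_option autoImplicit false
set_option linter.unusedSectionVars false

namespace Fermat.Agent.GR.D

open Polynomial Fermat.Agent.GR.E

variable {R : Type*} [CommRing R] [IsDomain R] [IsDiscreteValuationRing R] {ϖ : R}
  {F : Type*} [Field F] [Algebra R F] [Algebra R[X] F] [IsScalarTower R R[X] F]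
  {𝒪 : ValuationSubring F}

omit [IsDomain R] [IsDiscreteValuationRing R] in
theorem A1_algebraMap_C (r : R) : algebraMap R[X] F (C r) = algebraMap R F r := by
  rw [IsScalarTower.algebraMap_apply R R[X] F, Polynomial.algebraMap_eq]

theorem A1_unif_ne_zero (hϖ : Irreducible ϖ) (hV : VertData ϖ 𝒪) : algebraMap R F ϖ ≠ 0 := by
  intro h0
  have h1 : ¬ (C ϖ : R[X]) ∣ 1 := fun h => (prime_C hϖ).not_isUnit (isUnit_of_dvd_one h)
  apply hV.unit 1 h1
  rw [h0, div_zero]
  exact zero_mem _

/-- (A1) `R[X] → F` is injective. -/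
theorem VertData.injective (hϖ : Irreducible ϖ) (hV : VertData ϖ 𝒪) :
    Function.Injective (algebraMap R[X] F) := by
  rw [injective_iff_map_eq_zero]
  intro Q hQ
  by_contra hQ0
  obtain ⟨n, Q', hQ', rfl⟩ := WfDvdMonoid.max_power_factor hQ0 (prime_C hϖ).irreducible
  rw [map_mul, map_pow, A1_algebraMap_C] at hQ
  rcases mul_eq_zero.mp hQ with h | h
  · exact A1_unif_ne_zero hϖ hV (pow_eq_zero_iff (n := n) (by
      rintro rfl
      simp at h) |>.mp h)
  · apply hV.unit Q' hQ'
    rw [h, zero_div]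
    exact zero_mem _

/-- (A2) elements integral over `R[X]` lie in `𝒪`. -/
theorem VertData.mem_of_isIntegral (hV : VertData ϖ 𝒪) {x : F} (hx : IsIntegral R[X] x) :
    x ∈ 𝒪 := by
  let φ : R[X] →+* 𝒪 := (algebraMap R[X] F).codRestrict 𝒪.toSubring hV.mem
  have h1 : IsIntegral 𝒪 x := by
    have := hx.map_of_comp_eq φ (RingHom.id F) (by ext <;> rfl)
    simpa using this
  obtain ⟨y, hy⟩ := (IsIntegrallyClosed.isIntegral_iff (R := 𝒪) (K := F)).mp h1
  rw [← hy]
  exact y.2

/-- (A3) saturation: `x` integral over `R[X]` and `x / ϖ ∈ 𝒪` imply `x / ϖ` integral. -/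
theorem VertData.sat (hϖ : Irreducible ϖ) (hV : VertData ϖ 𝒪) {x : F} (hx : IsIntegral R[X] x)
    (hx' : x / algebraMap R F ϖ ∈ 𝒪) : IsIntegral R[X] (x / algebraMap R F ϖ) := by
  have hϖ0 := A1_unif_ne_zero hϖ hV
  have hinj := hV.injective hϖ
  obtain ⟨Q, hQ, hQy⟩ := hV.int _ hx'
  have : IsIntegrallyClosed (integralClosure R[X] F) :=
    IsIntegrallyClosed.of_isIntegrallyClosed_of_isIntegrallyClosedIn (integralClosure R[X] F) F
  have : Module.IsTorsionFree R[X] (integralClosure R[X] F) := by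
    rw [Module.isTorsionFree_iff_algebraMap_injective]
    intro a b hab
    exact hinj (congrArg (algebraMap (integralClosure R[X] F) F) hab)
  let U : integralClosure R[X] F := ⟨x, hx⟩
  let W : integralClosure R[X] F := ⟨Q • (x / algebraMap R F ϖ), hQy⟩
  have hUW : Q • U = (C ϖ : R[X]) • W := by
    apply Subtype.ext
    change Q • x = (C ϖ : R[X]) • Q • (x / algebraMap R F ϖ)
    rw [Algebra.smul_def, Algebra.smul_def, Algebra.smul_def, A1_algebraMap_C]
    field_simp
  obtain ⟨y, hy⟩ := exists_eq_smul_of_smul_eq_smul (prime_C hϖ) hQ hUW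
  have hy' : x = (C ϖ : R[X]) • (y : F) := congrArg Subtype.val hy
  have : x / algebraMap R F ϖ = (y : F) := by
    rw [hy', Algebra.smul_def, A1_algebraMap_C]
    field_simp
  rw [this]
  exact y.2

/-- (A4) -/
theorem VertData.satChart (hϖ : Irreducible ϖ) (hV : VertData ϖ 𝒪) {t : F}
    (ht : algebraMap R[X] F X = t) : SatChart ϖ 𝒪 (chart R ({t} : Set F)) where
  le x hx := hV.mem_of_isIntegral ((mem_chart_iff_isIntegral ht x).mp hx)
  sat x hx hx' := (mem_chart_iff_isIntegral ht _).mpr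
    (hV.sat hϖ ((mem_chart_iff_isIntegral ht x).mp hx) hx')
  closed x hx := chart_closed _ x hx

/-- (A5) -/
theorem VertData.frac (hV : VertData ϖ 𝒪) {t : F} (ht : algebraMap R[X] F X = t) :
    ∀ x ∈ 𝒪, ∃ b ∈ chart R ({t} : Set F), b / algebraMap R F ϖ ∉ 𝒪 ∧
      x * b ∈ chart R ({t} : Set F) := by
  intro x hx
  obtain ⟨Q, hQ, hQx⟩ := hV.int x hx
  refine ⟨algebraMap R[X] F Q, ?_, hV.unit Q hQ, ?_⟩
  · exact (mem_chart_iff_isIntegral ht _).mpr isIntegral_algebraMap
  · rw [mem_chart_iff_isIntegral ht, mul_comm, ← Algebra.smul_def]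
    exact hQx

/-- (A6) the special fibre of the chart is a domain. -/
theorem VertData.isPrime_chart (hϖ : Irreducible ϖ) (hG : GaussRing ϖ 𝒪) (hV : VertData ϖ 𝒪)
    {t : F} (ht : algebraMap R[X] F X = t) :
    (Ideal.span {algebraMap R (chart R ({t} : Set F)) ϖ}).IsPrime := by
  have hS := hV.satChart hϖ ht
  have hϖ0 := hG.ne_zero
  have key : ∀ x : chart R ({t} : Set F),
      x ∈ Ideal.span {algebraMap R (chart R ({t} : Set F)) ϖ} ↔
        (x : F) / algebraMap R F ϖ ∈ 𝒪 := by
    intro x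
    rw [Ideal.mem_span_singleton]
    constructor
    · rintro ⟨y, rfl⟩
      have : ((algebraMap R (chart R ({t} : Set F)) ϖ * y : chart R ({t} : Set F)) : F)
          / algebraMap R F ϖ = (y : F) := by
        rw [Subalgebra.coe_mul, Subalgebra.coe_algebraMap]
        field_simp
      rw [this]
      exact hS.le _ y.2
    · intro hx
      refine ⟨⟨_, hS.sat _ x.2 hx⟩, ?_⟩
      apply Subtype.ext
      rw [Subalgebra.coe_mul, Subalgebra.coe_algebraMap]
      field_simp
  refine ⟨?_, ?_⟩
  · rw [Ideal.ne_top_iff_one, key]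
    rw [Subalgebra.coe_one, one_div]
    exact hG.inv_not_mem
  · intro x y hxy
    rw [key] at hxy
    rw [key, key]
    by_contra hcon
    rw [not_or] at hcon
    obtain ⟨h1, h2⟩ := hcon
    rcases hG.unif _ (hS.le _ x.2) with h | h
    · exact h1 h
    · apply h2
      have hx0 : (x : F) ≠ 0 := by
        intro h0
        apply h1
        rw [h0, zero_div]
        exact zero_mem _
      have : (y : F) / algebraMap R F ϖ
          = (x : F)⁻¹ * (((x * y : chart R ({t} : Set F)) : F) / algebraMap R F ϖ) := by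
        rw [Subalgebra.coe_mul]
        field_simp
      rw [this]
      exact mul_mem h hxy

end Fermat.Agent.GR.D
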