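import Mathlib
import Fermat.Agent.GR.E.Defs
import Fermat.Agent.GR.E.E0
import Fermat.Agent.GR.D.T1
import Fermat.Agent.GR.D.SemiLoc
import Fermat.Agent.GR.D.Glue
import Fermat.Agent.GR.D.Defs
import Fermat.Agent.GR.D.GlueUnr
import Fermat.Agent.GR.D.GlueLog

/-! GR-D abstract leaf (A10): the log condition from the tame statement. -/

set_option autoImplicit false

namespace Fermat.Agent.GR.D

open Polynomial Fermat.Agent.GR.E

variable {R : Type*} [CommRing R] [IsDomain R] [IsDiscreteValuationRing R] {ϖ : R}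
  {F : Type*} [Field F] [Algebra R F] [Algebra R[X] F] [IsScalarTower R R[X] F]
  {𝒪 : ValuationSubring F}

variable (A : Type*) [CommRing A] [Algebra R[X] A]
  [IsLocalization (oneAddSubmonoid (C ϖ : R[X])) A] [Algebra A F] [IsScalarTower R[X] A F]

/-- (A10) the log condition of `core` from the tame statement on the generic fibre. -/
theorem log_of_tameAt (A0 K : Type*) [CommRing A0] [Algebra R[X] A0]
    [IsLocalization.Away (C ϖ : R[X]) A0] [Field K] [Algebra R[X] K] [Algebra A K] [Algebra A0 K]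
    [IsScalarTower R[X] A K] [IsScalarTower R[X] A0 K] [Algebra K F] [Algebra A0 F]
    [IsScalarTower R[X] K F] [IsScalarTower A K F] [IsScalarTower A0 K F]
    [IsScalarTower R[X] A0 F] [Module.Finite A0 (integralClosure A0 F)] (b : R[X])
    (hT : TameAt A0 K (F := F) (algebraMap R[X] A0 b)) (x : F) (hx : InTraceDual A K x) :
    (∃ k : ℕ, IsIntegral A (algebraMap R[X] A (C ϖ) ^ k • algebraMap R[X] A b • x)) ∧
      ∃ (k m : ℕ) (c : F), IsIntegral A c ∧
        algebraMap R[X] A (C ϖ) ^ k • (algebraMap R[X] A b • x) ^ m = algebraMap R[X] A b • c := by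
  refine log_of_tame (B0 := R[X]) (A := A) (A0 := A0) (K0 := K) (F := F)
    (oneAddSubmonoid (C ϖ : R[X])) (Submonoid.powers (C ϖ : R[X])) b (C ϖ) ?_ ?_ x hx
  · rintro μ ⟨k, rfl⟩
    exact ⟨k, dvd_rfl⟩
  · intro y hy
    have h := hT y hy
    simp only [Algebra.smul_def, ← IsScalarTower.algebraMap_apply] at h
    exact h

end Fermat.Agent.GR.D
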