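import Mathlib
import Fermat.Agent.GR.E.Defs
import Fermat.Agent.GR.E.E0
import Fermat.Agent.GR.D.T1
import Fermat.Agent.GR.D.SemiLoc
import Fermat.Agent.GR.D.Glue
import Fermat.Agent.GR.D.Defs
import Fermat.Agent.GR.D.A1
import Fermat.Agent.GR.D.A7

/-! GR-D abstract leaves (A11)-(A13). -/

set_option autoImplicit false

namespace Fermat.Agent.GR.D

open Polynomial Fermat.Agent.GR.E

variable {R : Type*} [CommRing R] [IsDomain R] [IsDiscreteValuationRing R] {ϖ : R}
  {F : Type*} [Field F] [Algebra R F] [Algebra R[X] F] [IsScalarTower R R[X] F]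
  {𝒪 : ValuationSubring F}

variable (A : Type*) [CommRing A] [Algebra R[X] A]
  [IsLocalization (oneAddSubmonoid (C ϖ : R[X])) A] [Algebra A F] [IsScalarTower R[X] A F]

omit [IsDomain R] [IsDiscreteValuationRing R] [IsLocalization (oneAddSubmonoid (C ϖ : R[X])) A]
  [Algebra A F] [IsScalarTower R[X] A F] [Algebra R F] [Algebra R[X] F]
  [IsScalarTower R R[X] F] [Field F] [Algebra R[X] A] [CommRing A] [CommRing R] in
/-- squarefreeness is transported by ring isomorphisms. -/
theorem A11_squarefree_map {S T : Type*} [CommRing S] [CommRing T] (e : S ≃+* T) {x : S}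
    (hx : Squarefree x) : Squarefree (e x) := by
  intro y hy
  have h1 : e.symm y * e.symm y ∣ x := by
    have := map_dvd e.symm hy
    rwa [map_mul, RingEquiv.symm_apply_apply] at this
  have h2 := (hx _ h1).map e
  rwa [RingEquiv.apply_symm_apply] at h2

/-- (A11) primality of `ϖ` in the integral closure of `A`. -/
theorem isPrime_span_integralClosure (hϖ : Irreducible ϖ) (hG : GaussRing ϖ 𝒪)
    (hV : VertData ϖ 𝒪) :
    (Ideal.span {algebraMap A (integralClosure A F) (algebraMap R[X] A (C ϖ))}).IsPrime := by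
  have h1 := hV.isPrime_chart hϖ hG (t := algebraMap R[X] F X) rfl
  have e := chartQuotEquiv ϖ A (t := algebraMap R[X] F X) rfl
  have hdom := (Ideal.Quotient.isDomain_iff_prime _).mpr h1
  exact (Ideal.Quotient.isDomain_iff_prime _).mp (e.toMulEquiv.isDomain_iff.mp hdom)

omit [Algebra A F] [IsScalarTower R[X] A F] [Algebra R F] [Algebra R[X] F]
  [IsScalarTower R R[X] F] [Field F] in
/-- (A12) squarefreeness transported to `A / ϖ`. -/
theorem squarefree_mk_semiLoc (hϖ : Irreducible ϖ) (b : R[X])
    (hb : Squarefree (b.map (IsLocalRing.residue R))) :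
    Squarefree (Ideal.Quotient.mk (Ideal.span {algebraMap R[X] A (C ϖ)})
      (algebraMap R[X] A b)) := by
  have hsurj : Function.Surjective (Polynomial.mapRingHom (IsLocalRing.residue R)) :=
    Polynomial.map_surjective _ IsLocalRing.residue_surjective
  have hker : RingHom.ker (Polynomial.mapRingHom (IsLocalRing.residue R)) =
      Ideal.span {(C ϖ : R[X])} := by
    rw [Polynomial.ker_mapRingHom, IsLocalRing.ker_residue, hϖ.maximalIdeal_eq, Ideal.map_span,
      Set.image_singleton]
  let e₂ : (R[X] ⧸ Ideal.span {(C ϖ : R[X])}) ≃+* (IsLocalRing.ResidueField R)[X] :=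
    (Ideal.quotEquivOfEq hker.symm).trans (RingHom.quotientKerEquivOfSurjective hsurj)
  let e₁ := quotEquivOfLocalization (C ϖ : R[X]) A (oneAddSubmonoid (C ϖ : R[X])) le_rfl
  have h1 : e₁ (e₂.symm (b.map (IsLocalRing.residue R))) =
      Ideal.Quotient.mk (Ideal.span {algebraMap R[X] A (C ϖ)}) (algebraMap R[X] A b) := by
    have h2 : e₂ (Ideal.Quotient.mk _ b) = b.map (IsLocalRing.residue R) := rfl
    rw [← h2, RingEquiv.symm_apply_apply]
    rfl
  rw [← h1]
  exact A11_squarefree_map (e₂.symm.trans e₁) hb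

/-- (A13) from integrally closed to Dedekind. -/
theorem isDedekindDomain_quotient_of_isIntegrallyClosed (K : Type*) [Field K] [Algebra R[X] K]
    [IsFractionRing R[X] K] [Algebra A K] [IsScalarTower R[X] A K] [Algebra K F]
    [IsScalarTower R[X] K F] [IsScalarTower A K F] [FiniteDimensional K F]
    [Algebra.IsSeparable K F] (hϖ : Irreducible ϖ)
    (hdom : (Ideal.span {algebraMap A (integralClosure A F) (algebraMap R[X] A (C ϖ))}).IsPrime)
    (hic : IsIntegrallyClosed (integralClosure A F ⧸
      Ideal.span {algebraMap A (integralClosure A F) (algebraMap R[X] A (C ϖ))})) :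
    IsDedekindDomain (integralClosure A F ⧸
      Ideal.span {algebraMap A (integralClosure A F) (algebraMap R[X] A (C ϖ))}) := by
  have hπ : Prime (C ϖ : R[X]) := prime_C hϖ
  have hdomA : IsDomain A := isDomain_semiLoc (π := (C ϖ : R[X])) A hπ.not_isUnit
  have hnoethA : IsNoetherianRing A :=
    IsLocalization.isNoetherianRing (oneAddSubmonoid (C ϖ : R[X])) A inferInstance
  have hicA : IsIntegrallyClosed A :=
    isIntegrallyClosed_of_isLocalization A (oneAddSubmonoid (C ϖ : R[X]))
      (oneAddSubmonoid_le_nonZeroDivisors hπ.not_isUnit)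
  have hfrA : IsFractionRing A K :=
    IsFractionRing.isFractionRing_of_isDomain_of_isLocalization (oneAddSubmonoid (C ϖ : R[X])) A K
  have hfin : Module.Finite A (integralClosure A F) :=
    IsIntegralClosure.finite A K F (integralClosure A F)
  have hπA : Prime (algebraMap R[X] A (C ϖ)) := prime_algebraMap A hπ
  have hprimeA : (Ideal.span {algebraMap R[X] A (C ϖ)}).IsPrime :=
    (Ideal.span_singleton_prime hπA.ne_zero).mpr hπA
  have hdomQ : IsDomain (A ⧸ Ideal.span {algebraMap R[X] A (C ϖ)}) :=
    (Ideal.Quotient.isDomain_iff_prime _).mpr hprimeA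
  have hpidQ : IsPrincipalIdealRing (A ⧸ Ideal.span {algebraMap R[X] A (C ϖ)}) :=
    isPrincipalIdealRing_quotient A (isPrincipalIdealRing_polynomial_quotient hϖ)
  have hdomS := (Ideal.Quotient.isDomain_iff_prime _).mpr hdom
  have hle : Ideal.span {algebraMap R[X] A (C ϖ)} ≤
      (Ideal.span {algebraMap A (integralClosure A F) (algebraMap R[X] A (C ϖ))}).comap
        (algebraMap A (integralClosure A F)) := by
    rw [Ideal.span_singleton_le_iff_mem, Ideal.mem_comap]
    exact Ideal.mem_span_singleton_self _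
  let _ : Algebra (A ⧸ Ideal.span {algebraMap R[X] A (C ϖ)}) (integralClosure A F ⧸
      Ideal.span {algebraMap A (integralClosure A F) (algebraMap R[X] A (C ϖ))}) :=
    (Ideal.quotientMap _ (algebraMap A (integralClosure A F)) hle).toAlgebra
  have htower : IsScalarTower A (A ⧸ Ideal.span {algebraMap R[X] A (C ϖ)}) (integralClosure A F ⧸
      Ideal.span {algebraMap A (integralClosure A F) (algebraMap R[X] A (C ϖ))}) :=
    IsScalarTower.of_algebraMap_eq fun a => rfl
  have hfinS : Module.Finite (A ⧸ Ideal.span {algebraMap R[X] A (C ϖ)}) (integralClosure A F ⧸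
      Ideal.span {algebraMap A (integralClosure A F) (algebraMap R[X] A (C ϖ))}) :=
    Module.Finite.of_restrictScalars_finite A _ _
  exact isDedekindDomain_of_finite (A ⧸ Ideal.span {algebraMap R[X] A (C ϖ)}) _

end Fermat.Agent.GR.D
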