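import Mathlib
import Fermat.Agent.GR.E.Defs
import Fermat.Agent.GR.E.E0
import Fermat.Agent.GR.D.T1
import Fermat.Agent.GR.D.SemiLoc
import Fermat.Agent.GR.D.Glue
import Fermat.Agent.GR.D.Defs

/-! GR-D abstract leaf (A9): (UNR) at the uniformizer. -/

set_option autoImplicit false

namespace Fermat.Agent.GR.D

open Polynomial Fermat.Agent.GR.E

variable {R : Type*} [CommRing R] [IsDomain R] [IsDiscreteValuationRing R] {ϖ : R}
  {F : Type*} [Field F] [Algebra R F] [Algebra R[X] F] [IsScalarTower R R[X] F]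
  {𝒪 : ValuationSubring F}

variable (A : Type*) [CommRing A] [Algebra R[X] A]
  [IsLocalization (oneAddSubmonoid (C ϖ : R[X])) A] [Algebra A F] [IsScalarTower R[X] A F]

omit [IsDomain R] [IsDiscreteValuationRing R] [IsScalarTower R R[X] F] in
/-- polynomials prime to `ϖ` are units of the Gauss ring. -/
theorem A9_inv_mem (hG : GaussRing ϖ 𝒪) (hV : VertData ϖ 𝒪) {Q : R[X]} (hQ : ¬ C ϖ ∣ Q) :
    algebraMap R[X] F Q ≠ 0 ∧ (algebraMap R[X] F Q)⁻¹ ∈ 𝒪 := by
  refine ⟨fun h0 => hV.unit Q hQ (by rw [h0, zero_div]; exact 𝒪.zero_mem), ?_⟩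
  rcases hG.unif _ (hV.mem Q) with h | h
  · exact absurd h (hV.unit Q hQ)
  · exact h

omit [IsScalarTower R R[X] F] in
/-- the semi-local ring `A` maps into the Gauss ring. -/
theorem A9_algebraMap_mem (hϖ : Irreducible ϖ) (hG : GaussRing ϖ 𝒪) (hV : VertData ϖ 𝒪) (a : A) :
    algebraMap A F a ∈ 𝒪 := by
  obtain ⟨⟨P, s⟩, hs⟩ := IsLocalization.surj (oneAddSubmonoid (C ϖ : R[X])) a
  simp only at hs
  have hsdvd : ¬ C ϖ ∣ (s : R[X]) := by
    intro h
    have h1 : C ϖ ∣ (1 : R[X]) := by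
      have := dvd_sub h s.2
      simpa using this
    exact (prime_C hϖ).not_isUnit (isUnit_of_dvd_one h1)
  obtain ⟨h0, h1⟩ := A9_inv_mem hG hV hsdvd
  have h2 : algebraMap A F a * algebraMap R[X] F (s : R[X]) = algebraMap R[X] F P := by
    rw [IsScalarTower.algebraMap_apply R[X] A F, IsScalarTower.algebraMap_apply R[X] A F,
      ← map_mul, hs]
  have h3 : algebraMap A F a = algebraMap R[X] F P * (algebraMap R[X] F (s : R[X]))⁻¹ := by
    rw [← h2, mul_assoc, mul_inv_cancel₀ h0, mul_one]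
  rw [h3]
  exact 𝒪.mul_mem _ _ (hV.mem P) h1

/-- (A9) `(UNR)` at `ϖ`. -/
theorem unr_of_traceSelfDual (K : Type*) [Field K] [Algebra R[X] K] [Algebra A K]
    [IsScalarTower R[X] A K] [Algebra K F] [IsScalarTower R[X] K F] [IsScalarTower A K F]
    (hϖ : Irreducible ϖ) (hG : GaussRing ϖ 𝒪) (hV : VertData ϖ 𝒪)
    (hD : TraceSelfDual K 𝒪) (x : F) (hx : InTraceDual A K x) :
    ∃ s : A, ¬ algebraMap R[X] A (C ϖ) ∣ s ∧ IsIntegral A (s • x) := by
  have hx𝒪 : x ∈ 𝒪 := by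
    refine hD x fun c' hc' => ?_
    obtain ⟨Q, hQ, hQint⟩ := hV.int c' hc'
    obtain ⟨h0, h1⟩ := A9_inv_mem hG hV hQ
    obtain ⟨a, ha⟩ := hx (Q • c') hQint.tower_top
    have h2 : Q • c' = algebraMap R[X] K Q • c' := by
      rw [algebraMap_smul]
    rw [h2, mul_smul_comm, map_smul, smul_eq_mul] at ha
    have h3 : algebraMap A F a =
        algebraMap R[X] F Q * algebraMap K F (Algebra.trace K F (x * c')) := by
      rw [IsScalarTower.algebraMap_apply A K F, ha, map_mul,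
        ← IsScalarTower.algebraMap_apply R[X] K F]
    have h4 : algebraMap K F (Algebra.trace K F (x * c')) =
        (algebraMap R[X] F Q)⁻¹ * algebraMap A F a := by
      rw [h3, ← mul_assoc, inv_mul_cancel₀ h0, one_mul]
    rw [h4]
    exact 𝒪.mul_mem _ _ h1 (A9_algebraMap_mem A hϖ hG hV a)
  obtain ⟨Q', hQ', hQ'int⟩ := hV.int x hx𝒪
  refine ⟨algebraMap R[X] A Q', ?_, ?_⟩
  · rintro ⟨a, ha⟩
    apply hV.unit Q' hQ'
    have h1 : algebraMap R[X] F Q' = algebraMap R F ϖ * algebraMap A F a := by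
      rw [IsScalarTower.algebraMap_apply R[X] A F, ha, map_mul,
        ← IsScalarTower.algebraMap_apply R[X] A F, IsScalarTower.algebraMap_apply R R[X] F]
      rfl
    rw [h1, mul_div_cancel_left₀ _ hG.ne_zero]
    exact A9_algebraMap_mem A hϖ hG hV a
  · rw [algebraMap_smul]
    exact hQ'int.tower_top

end Fermat.Agent.GR.D
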