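import Fermat.Agent.GR.D.Haupt2Id
import Fermat.Agent.GR.D.HauptLaurent

/-!
# GR-D, Hauptmodul package: the Hauptmodul `h₂ = Δ(q)/Δ(q²)` of `X₀(2)`

* `h2 R : LaurentSeries R`, `h2 R = q⁻¹ (1 + ⋯)` with integer coefficients;
* `j * h² = (h + 256)³`, `j(q²) * h = (h + 16)³`, `(j - 1728) * h² = (h + 64) (h - 512)²`;
* `h2 K ∈ FF K N` for `2 ∣ N`.
-/

set_option autoImplicit false

namespace Fermat.Agent.GR.D.Haupt

open ModularCurve

noncomputable section

/-- `∏ (1 + qⁿ)⁻²⁴`. -/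
def hNum2 : PowerSeries ℤ :=
  dedekindEtaUnit * PowerSeries.expand 2 (by norm_num) dedekindEtaUnitInv

theorem constantCoeff_hNum2 : PowerSeries.constantCoeff hNum2 = 1 := by
  rw [hNum2, map_mul, PowerSeries.constantCoeff_expand, constantCoeff_dedekindEtaUnit,
    constantCoeff_dedekindEtaUnitInv, one_mul]

theorem abs_id_one {A : Type*} [CommRing A] (c e d di d2 d2i : A)
    (H0 : e ^ 3 * d * d2 = (d + c * d2) ^ 3) (H1 : d * di = 1) (H2 : d2 * d2i = 1) :
    (e ^ 3 * di) * (d * d2i) ^ 2 = (d * d2i + c) ^ 3 := by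
  linear_combination (e ^ 3 * d * d2i ^ 2) * H1 + (-(e ^ 3 * d * d2i ^ 2)
    + c * ((d * d2i + c * (d2 * d2i)) ^ 2 + (d * d2i + c * (d2 * d2i)) * (d * d2i + c)
      + (d * d2i + c) ^ 2)) * H2 + d2i ^ 3 * H0

theorem abs_id_two {A : Type*} [CommRing A] (c e d d2 d2i : A)
    (H0 : e ^ 3 * d * d2 = (d + c * d2) ^ 3) (H2 : d2 * d2i = 1) :
    (e ^ 3 * d2i) * (d * d2i) = (d * d2i + c) ^ 3 := by
  linear_combination (-(e ^ 3 * d * d2i ^ 2)
    + c * ((d * d2i + c * (d2 * d2i)) ^ 2 + (d * d2i + c * (d2 * d2i)) * (d * d2i + c)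
      + (d * d2i + c) ^ 2)) * H2 + d2i ^ 3 * H0

variable (R : Type*) [CommRing R]

/-- The Hauptmodul `h₂ = Δ(q)/Δ(q²) = q⁻¹ ∏ (1 + qⁿ)⁻²⁴` of `X₀(2)`. -/
def h2 : LaurentSeries R := poleL R hNum2

theorem h2_eq : h2 R = dL R * qExpand R 2 (dLi R) := by
  rw [h2, poleL, hNum2, map_mul, dL, DeltaS, map_mul, toL_X, dLi, map_mul, qExpand_single,
    qExpand_toL]
  have : (HahnSeries.single (1 : ℤ) (1 : R)) * HahnSeries.single (((2 : ℕ) : ℤ) * (-1)) 1
      = HahnSeries.single (-1 : ℤ) 1 := by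
    rw [HahnSeries.single_mul_single]
    norm_num
  rw [← this]
  ring

variable {R} in
theorem coeffMap_h2 {S : Type*} [CommRing S] (f : R →+* S) : coeffMap f (h2 R) = h2 S :=
  coeffMap_poleL f _

theorem h2_coeff_neg_one : (h2 R).coeff (-1) = 1 := poleL_coeff_neg_one R constantCoeff_hNum2

theorem h2_coeff_of_lt {k : ℤ} (hk : k < -1) : (h2 R).coeff k = 0 := poleL_coeff_of_lt R _ hk

theorem h2_order [Nontrivial R] : (h2 R).order = -1 := poleL_order R constantCoeff_hNum2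

/-- `j h² = (h + 256)³`. -/
theorem j_mul_h2_sq : jqModC R * h2 R ^ 2 = (h2 R + 256) ^ 3 := by
  have H0 := congrArg (toL R) id2a
  simp only [map_mul, map_pow, map_add, map_ofNat] at H0
  rw [jqModC_eq, h2_eq]
  refine abs_id_one 256 _ _ _ (qExpand R 2 (dL R)) _ ?_ (dL_mul_dLi R) (qExpand_dL_mul R 2)
  rw [qExpand_dL]
  exact H0

/-- `j(q²) h = (h + 16)³`. -/
theorem j2_mul_h2 : qExpand R 2 (jqModC R) * h2 R = (h2 R + 16) ^ 3 := by
  have H0 := congrArg (toL R) id2b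
  simp only [map_mul, map_pow, map_add, map_ofNat] at H0
  rw [qExpand_jqModC_eq, h2_eq]
  refine abs_id_two 16 _ _ (qExpand R 2 (dL R)) _ ?_ (qExpand_dL_mul R 2)
  rw [qExpand_dL]
  exact H0

/-- `(j - 1728) h² = (h + 64) (h - 512)²`. -/
theorem j_sub_mul_h2_sq : (jqModC R - 1728) * h2 R ^ 2 = (h2 R + 64) * (h2 R - 512) ^ 2 := by
  linear_combination j_mul_h2_sq R

section Field

variable (K : Type*) [Field K]

theorem h2_transcendental : Transcendental K (h2 K) :=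
  poleL_transcendental K constantCoeff_hNum2

theorem h2_ne_zero : h2 K ≠ 0 := fun h => by
  have := h2_coeff_neg_one K
  rw [h] at this
  simp at this

open Polynomial in
/-- `h³ A(j, j₂)` as a polynomial in `h`. -/
def polyA2 : Polynomial K :=
  (X + 256) ^ 3 * (X + 16) ^ 3 - 720 * X * (X + 256) ^ 3 - 720 * X ^ 2 * (X + 16) ^ 3
    - 16250625 * X ^ 3

theorem polyA2_ne_zero : polyA2 K ≠ 0 := by
  have h : (polyA2 K).coeff 6 = 1 := by
    unfold polyA2
    compute_degree!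
  intro h0
  rw [h0] at h
  simp at h

theorem j_eq_h2 : jqModC K = (h2 K + 256) ^ 3 / h2 K ^ 2 := by
  rw [eq_div_iff (pow_ne_zero _ (h2_ne_zero K))]
  exact j_mul_h2_sq K

theorem j2_eq_h2 : qExpand K 2 (jqModC K) = (h2 K + 16) ^ 3 / h2 K := by
  rw [eq_div_iff (h2_ne_zero K)]
  exact j2_mul_h2 K

/-- the denominator of `h₂` as a rational function of `j, j₂`. -/
def denA2 : LaurentSeries K :=
  jqModC K * qExpand K 2 (jqModC K) - 720 * jqModC K - 720 * qExpand K 2 (jqModC K) - 16250625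

/-- the numerator of `h₂` as a rational function of `j, j₂`. -/
def numB2 : LaurentSeries K :=
  qExpand K 2 (jqModC K) ^ 2 + 195120 * qExpand K 2 (jqModC K) + 4095 * jqModC K + 660960000

theorem denA2_ne_zero : denA2 K ≠ 0 := by
  intro h0
  have h1 : Polynomial.aeval (h2 K) (polyA2 K) = denA2 K * h2 K ^ 3 := by
    have hh := h2_ne_zero K
    rw [denA2, j2_eq_h2, j_eq_h2, polyA2]
    simp only [map_sub, map_mul, map_pow, map_add, Polynomial.aeval_X, map_ofNat]
    field_simp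
  rw [h0, zero_mul] at h1
  exact polyA2_ne_zero K ((transcendental_iff.mp (h2_transcendental K)) _ h1)

theorem h2_mul_denA2 : h2 K * denA2 K = numB2 K := by
  have hh := h2_ne_zero K
  rw [denA2, numB2, j2_eq_h2, j_eq_h2]
  field_simp
  ring

/-- `h₂` belongs to the function field of `X₀(N)` as soon as `2 ∣ N`. -/
theorem h2_mem_FF {N : ℕ} (hN : 2 ∣ N) : h2 K ∈ Fermat.Agent.GR.FF K N := by
  have hj : jqModC K ∈ Fermat.Agent.GR.FF K N := jqModC_mem_full K N
  have hj2 : qExpand K 2 (jqModC K) ∈ Fermat.Agent.GR.FF K N := jqModCd_mem_full K N hN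
  have e : h2 K = numB2 K / denA2 K := by
    rw [eq_div_iff (denA2_ne_zero K)]
    exact h2_mul_denA2 K
  rw [e]
  have hnat : ∀ n : ℕ, (n : LaurentSeries K) ∈ Fermat.Agent.GR.FF K N := fun n => natCast_mem _ n
  refine div_mem ?_ ?_
  · exact add_mem (add_mem (add_mem (pow_mem hj2 2) (mul_mem (hnat 195120) hj2))
      (mul_mem (hnat 4095) hj)) (hnat 660960000)
  · exact sub_mem (sub_mem (sub_mem (mul_mem hj hj2) (mul_mem (hnat 720) hj))
      (mul_mem (hnat 720) hj2)) (hnat 16250625)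

end Field

end

end Fermat.Agent.GR.D.Haupt
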