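import Mathlib
import Fermat.Prelude.Thm_ModularForm_sturm_bound_Gamma0
import Fermat.Agent.S23.LevelRaise
import Fermat.Agent.Lib.JQExp
import Fermat.Agent.S20.OrbitCounts

/-!
# GR-D, Hauptmodul package: integer power series which are `q`-expansions of modular forms

`Rep r k s` : the integer power series `s` is the `q`-expansion of a modular form of weight `k`
on `Γ₀(r)`.  Closure under ring operations, level raising `q ↦ q^r`, and the Sturm bound.
-/

set_option autoImplicit false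

namespace Fermat.Agent.GR.D.Haupt

open UpperHalfPlane ModularForm MatrixGroups CongruenceSubgroup Matrix.SpecialLinearGroup
open scoped ModularForm Manifold Pointwise
open Fermat.Agent.S23

/-- coefficientwise cast of an integer power series. -/
noncomputable def toC : PowerSeries ℤ →+* PowerSeries ℂ := PowerSeries.map (Int.castRingHom ℂ)

@[simp] theorem coeff_toC (n : ℕ) (s : PowerSeries ℤ) :
    PowerSeries.coeff n (toC s) = ((PowerSeries.coeff n s : ℤ) : ℂ) := by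
  simp [toC]

theorem toC_injective : Function.Injective toC := by
  intro a b h
  ext n
  have := congrArg (PowerSeries.coeff n) h
  simpa using this

/-- `s` is the `q`-expansion of a modular form of weight `k` on `Γ₀(r)`. -/
def Rep (r : ℕ) (k : ℤ) (s : PowerSeries ℤ) : Prop :=
  ∃ F : ℍ → ℂ, IsMF (G0 r) k F ∧ qExpansion 1 F = toC s

namespace Rep

variable {r : ℕ} [NeZero r] {k k₁ k₂ : ℤ} {s t : PowerSeries ℤ}

theorem add (hs : Rep r k s) (ht : Rep r k t) : Rep r k (s + t) := by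
  obtain ⟨F, hF, hFs⟩ := hs
  obtain ⟨G, hG, hGt⟩ := ht
  exact ⟨F + G, hF.add hG, by rw [Nice.qx_add hF.nice_G0 hG.nice_G0, hFs, hGt, map_add]⟩

theorem sub (hs : Rep r k s) (ht : Rep r k t) : Rep r k (s - t) := by
  obtain ⟨F, hF, hFs⟩ := hs
  obtain ⟨G, hG, hGt⟩ := ht
  exact ⟨F - G, hF.sub hG, by rw [Nice.qx_sub hF.nice_G0 hG.nice_G0, hFs, hGt, map_sub]⟩

theorem mul (hs : Rep r k₁ s) (ht : Rep r k₂ t) : Rep r (k₁ + k₂) (s * t) := by
  obtain ⟨F, hF, hFs⟩ := hs
  obtain ⟨G, hG, hGt⟩ := ht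
  exact ⟨F * G, hF.mul hG, by rw [Nice.qx_mul hF.nice_G0 hG.nice_G0, hFs, hGt, map_mul]⟩

omit [NeZero r] in
theorem cast (h : k₁ = k₂) (hs : Rep r k₁ s) : Rep r k₂ s := h ▸ hs

theorem pow (hs : Rep r k s) (n : ℕ) : Rep r (n * k) (s ^ n) := by
  obtain ⟨F, hF, hFs⟩ := hs
  exact ⟨F ^ n, hF.pow n, by rw [Nice.qx_pow hF.nice_G0, hFs, map_pow]⟩

theorem intCast_mul (c : ℤ) (hs : Rep r k s) : Rep r k ((c : PowerSeries ℤ) * s) := by
  obtain ⟨F, hF, hFs⟩ := hs
  refine ⟨(c : ℂ) • F, hF.smul _, ?_⟩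
  rw [Nice.qx_smul _ hF.nice_G0, hFs, map_mul, map_intCast]
  ext n
  rw [← map_intCast (PowerSeries.C (R := ℂ)), PowerSeries.coeff_C_mul]
  simp

/-- **Sturm bound.** -/
theorem eq_zero (hs : Rep r k s)
    (h : ∀ n : ℕ, n ≤ (k * (ModularCurve.dedekindPsi r : ℤ)).toNat / 12 →
      PowerSeries.coeff n s = 0) : s = 0 := by
  obtain ⟨F, ⟨a, rfl⟩, hFs⟩ := hs
  have hidx : (Gamma0 r).index = ModularCurve.dedekindPsi r :=
    Fermat.Agent.S20.AR.index_Gamma0 r (NeZero.ne r)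
  have h0 : a = 0 := by
    apply ModularForm.sturm_bound_Gamma0 r a
    intro n hn
    rw [hidx] at hn
    rw [hFs]
    simp [h n hn]
  apply toC_injective
  rw [← hFs, h0]
  simp [qExpansion_zero]

end Rep

/-- The form `N^{k-1} f(Nτ)` of level `Γ₀(N)`. -/
noncomputable def raiseMF (N : ℕ) [NeZero N] {k : ℤ} (f : ModularForm 𝒮ℒ k) :
    ModularForm (G0 N) k where
  toFun := ⇑f ∣[k] heckeDiagMatrix N
  slash_action_eq' γ hγ :=
    (ModularForm.translate f (heckeDiagMatrix N)).slash_action_eq' γ (G0_le_conj N hγ)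
  holo' := (ModularForm.translate f (heckeDiagMatrix N)).holo'
  bdd_at_cusps' hc :=
    (ModularForm.translate f (heckeDiagMatrix N)).bdd_at_cusps' (hc.mono (G0_le_conj N))

theorem raiseMF_apply (N : ℕ) [NeZero N] {k : ℤ} (f : ModularForm 𝒮ℒ k) (τ : ℍ) :
    raiseMF N f τ = (N : ℂ) ^ (k - 1) * f (heckeDiagMatrix N • τ) :=
  slash_heckeDiagMatrix_apply _ (NeZero.ne N) _ _

theorem hasSum_raise (N : ℕ) [NeZero N] {k : ℤ} (f : ModularForm 𝒮ℒ k) (τ : ℍ) :
    HasSum (fun n : ℕ => (if N ∣ n then (qExpansion 1 f).coeff (n / N) else 0) •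
        Function.Periodic.qParam 1 (τ : ℂ) ^ n) (f (heckeDiagMatrix N • τ)) := by
  have hN : N ≠ 0 := NeZero.ne N
  have h1 := ModularForm.hasSum_qExpansion (f := f) one_pos
    one_mem_strictPeriods_SL (heckeDiagMatrix N • τ)
  rw [qParam_heckeDiag] at h1
  have hinj : Function.Injective (fun m : ℕ => N * m) := fun a b hab =>
    Nat.eq_of_mul_eq_mul_left (Nat.pos_of_ne_zero hN) hab
  rw [← hinj.hasSum_iff]
  · have hfun : ((fun n : ℕ => (if N ∣ n then
        (qExpansion 1 f).coeff (n / N) else 0) •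
          Function.Periodic.qParam 1 (τ : ℂ) ^ n) ∘ fun m : ℕ => N * m) =
        fun i => ((qExpansion 1 f).coeff i •
          (Function.Periodic.qParam 1 (τ : ℂ) ^ N) ^ i) := by
      funext m
      simp [hN, pow_mul]
    rw [hfun]
    exact h1
  · intro n hn
    have : ¬ N ∣ n := fun ⟨m, hm⟩ => hn ⟨m, hm.symm⟩
    simp [this]

/-- `s` is the `q`-expansion of a modular form of weight `k` and level one. -/
def Rep1 (k : ℤ) (s : PowerSeries ℤ) : Prop :=
  ∃ f : ModularForm 𝒮ℒ k, qExpansion 1 f = toC s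

theorem Rep1.rep (r : ℕ) {k : ℤ} {s : PowerSeries ℤ} (hs : Rep1 k s) : Rep r k s := by
  obtain ⟨f, hf⟩ := hs
  exact ⟨f, (IsMF.of f).mono (G0_le_SL r), hf⟩

/-- level raising `q ↦ q^N`. -/
theorem Rep1.expand (N : ℕ) [NeZero N] {k : ℤ} {s : PowerSeries ℤ} (hs : Rep1 k s) :
    Rep N k (PowerSeries.expand N (NeZero.ne N) s) := by
  obtain ⟨f, hf⟩ := hs
  have hN : (N : ℂ) ≠ 0 := by exact_mod_cast NeZero.ne N
  refine ⟨⇑(((N : ℂ) ^ (k - 1))⁻¹ • raiseMF N f), IsMF.of _, ?_⟩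
  ext n
  rw [coeff_toC, PowerSeries.coeff_expand]
  refine (ModularFormClass.qExpansion_coeff_unique one_pos
    (CongruenceSubgroup.one_mem_strictPeriods_Gamma0 N)
    (f := ((N : ℂ) ^ (k - 1))⁻¹ • raiseMF N f)
    (c := fun n => ((if N ∣ n then PowerSeries.coeff (n / N) s else 0 : ℤ) : ℂ)) ?_ n).symm
  intro τ
  have h := hasSum_raise N f τ
  have e : (((N : ℂ) ^ (k - 1))⁻¹ • raiseMF N f) τ = f (heckeDiagMatrix N • τ) := by
    rw [smul_apply, raiseMF_apply, smul_eq_mul, ← mul_assoc,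
      inv_mul_cancel₀ (zpow_ne_zero _ hN), one_mul]
  rw [e]
  convert h using 3 with m
  rw [hf, coeff_toC]
  split_ifs <;> simp

theorem rep1_E4 : Rep1 4 ModularCurve.eisenstein4 :=
  ⟨E₄, Fermat.Agent.Lib.JQExp.qExpansion_E4⟩

theorem rep1_Delta : Rep1 12 (PowerSeries.X * ModularCurve.dedekindEtaUnit) := by
  refine ⟨CuspForm.discriminant, ?_⟩
  have h := Fermat.Agent.Lib.JQExp.qExpansion_discriminant
  rw [map_mul]
  simp only [toC, PowerSeries.map_X]
  exact h

end Fermat.Agent.GR.D.Haupt
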