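import Fermat.Agent.GR.D.HauptBase
import Fermat.Agent.GR.D.HauptMF

/-!
# GR-D, Hauptmodul package: the power series identities of level 2 (partly generated file)
-/

set_option autoImplicit false

namespace Fermat.Agent.GR.D.Haupt

open Fermat.Agent.Lib.TruncSeries ModularCurve

/-- `Δ(q^2)`. -/
noncomputable def Delta2 : PowerSeries ℤ := PowerSeries.expand 2 (by norm_num) DeltaS

/-- `E₄(q^2)`. -/
noncomputable def E42 : PowerSeries ℤ := PowerSeries.expand 2 (by norm_num) eisenstein4

theorem rep_E4_2 : Rep 2 4 eisenstein4 := rep1_E4.rep 2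
theorem rep_Delta_2 : Rep 2 12 DeltaS := rep1_Delta.rep 2
theorem rep_E42 : Rep 2 4 E42 := rep1_E4.expand 2
theorem rep_Delta2 : Rep 2 12 Delta2 := rep1_Delta.expand 2

theorem sturm_2 {k : ℕ} {s t : PowerSeries ℤ} {c : List ℤ} (hk : k ≤ 64)
    (h : Rep 2 k (s - t)) (hs : IsTr 17 s c) (ht : IsTr 17 t c) : s = t := by
  have hpsi : dedekindPsi 2 = 3 := by decide +kernel
  refine sub_eq_zero.mp (h.eq_zero fun n hn => ?_)
  rw [hpsi] at hn
  have hn' : n < 17 := by
    have h1 : ((k : ℤ) * ((3 : ℕ) : ℤ)).toNat = k * 3 := by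
      have : ((k : ℤ) * ((3 : ℕ) : ℤ)) = ((k * 3 : ℕ) : ℤ) := by push_cast; ring
      rw [this, Int.toNat_natCast]
    rw [h1] at hn
    omega
  rw [map_sub, sub_eq_zero]
  exact hs.congr ht hn'

theorem trDelta2 : IsTr 17 Delta2
    [0, 0, 1, 0, -24, 0, 252, 0, -1472, 0, 4830, 0, -6048, 0, -16744, 0, 84480] :=
  trDelta.expand 2 (by norm_num) (by decide +kernel)

theorem trE42 : IsTr 17 E42
    [1, 0, 240, 0, 2160, 0, 6720, 0, 17520, 0, 30240, 0, 60480, 0, 82560, 0, 140400] :=
  trE.expand 2 (by norm_num) (by decide +kernel)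

theorem tr2x1 : IsTr 17 ((eisenstein4) * (eisenstein4))
    [1, 480, 61920, 1050240, 7926240, 37500480, 135480960, 395301120, 1014559200, 2296875360, 4837561920, 9353842560, 17342613120, 30119288640, 50993844480, 82051050240, 129863578080] :=
  trE.mul trE (by decide +kernel)

theorem tr2x2 : IsTr 17 (((eisenstein4) * (eisenstein4)) * (eisenstein4))
    [1, 720, 179280, 16954560, 396974160, 4632858720, 34413301440, 187477879680, 814940600400, 2975469665040, 9486467837280, 27053330840640, 70485969919680, 169930679355360, 384163875688320, 820167497170560, 1668890801059920] :=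
  tr2x1.mul trE (by decide +kernel)

theorem tr2x3 : IsTr 17 ((((eisenstein4) * (eisenstein4)) * (eisenstein4)) * (DeltaS))
    [0, 1, 696, 162252, 12831808, 34188270, -882400608, -833380744, 25487347200, -20041723323, -288074404080, 434433753732, 1007032271616, 2385917303462, -21022079461824, 20516848304040, 10832015527936] :=
  tr2x2.mul trDelta (by decide +kernel)

theorem tr2x4 : IsTr 17 (((((eisenstein4) * (eisenstein4)) * (eisenstein4)) * (DeltaS)) * (Delta2))
    [0, 0, 0, 1, 696, 162228, 12815104, 30294474, -1190188608, -1613013192, 49897552896, 8336028459, -1141020749792, 655881703668, 15704496582144, -11700122581074, -159642592252416] :=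
  tr2x3.mul trDelta2 (by decide +kernel)

theorem tr2x5 : IsTr 17 (((256 : ℤ) : PowerSeries ℤ) * (Delta2))
    [0, 0, 256, 0, -6144, 0, 64512, 0, -376832, 0, 1236480, 0, -1548288, 0, -4286464, 0, 21626880] :=
  trDelta2.smul 256 (by decide +kernel)

theorem tr2x6 : IsTr 17 ((DeltaS) + (((256 : ℤ) : PowerSeries ℤ) * (Delta2)))
    [0, 1, 232, 252, -7616, 4830, 58464, -16744, -292352, -113643, 1120560, 534612, -1919232, -577738, -3884608, 1217160, 22614016] :=
  trDelta.add tr2x5 (by decide +kernel)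

theorem tr2x7 : IsTr 17 (((DeltaS) + (((256 : ℤ) : PowerSeries ℤ) * (Delta2))) * ((DeltaS) + (((256 : ℤ) : PowerSeries ℤ) * (Delta2))))
    [0, 0, 1, 464, 54328, 101696, -3460660, -1480416, 87531584, -52458624, -1011512338, 621972208, 8173130912, -2241968832, -52692169096, -2059497888, 252607098368] :=
  tr2x6.mul tr2x6 (by decide +kernel)

theorem tr2x8 : IsTr 17 ((((DeltaS) + (((256 : ℤ) : PowerSeries ℤ) * (Delta2))) * ((DeltaS) + (((256 : ℤ) : PowerSeries ℤ) * (Delta2)))) * ((DeltaS) + (((256 : ℤ) : PowerSeries ℤ) * (Delta2))))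
    [0, 0, 0, 1, 696, 162228, 12815104, 30294474, -1190188608, -1613013192, 49897552896, 8336028459, -1141020749792, 655881703668, 15704496582144, -11700122581074, -159642592252416] :=
  tr2x7.mul tr2x6 (by decide +kernel)

theorem id2a : eisenstein4 ^ 3 * DeltaS * Delta2 = (DeltaS + 256 * Delta2) ^ 3 := by
  have hrep : Rep 2 (36 : ℕ) (eisenstein4 ^ 3 * DeltaS * Delta2 - (DeltaS + ((256 : ℤ) : PowerSeries ℤ) * Delta2) ^ 3) :=
    (((((rep_E4_2.pow 3).mul rep_Delta_2).mul rep_Delta2).cast (by norm_num)).sub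
      (((rep_Delta_2.add (rep_Delta2.intCast_mul 256)).pow 3).cast (by norm_num)))
  have h := sturm_2 (by norm_num) hrep (tr2x4.of_eq (by ring)) (tr2x8.of_eq (by ring))
  simpa using h

theorem tr2x9 : IsTr 17 ((E42) * (E42))
    [1, 0, 480, 0, 61920, 0, 1050240, 0, 7926240, 0, 37500480, 0, 135480960, 0, 395301120, 0, 1014559200] :=
  trE42.mul trE42 (by decide +kernel)

theorem tr2x10 : IsTr 17 (((E42) * (E42)) * (E42))
    [1, 0, 720, 0, 179280, 0, 16954560, 0, 396974160, 0, 4632858720, 0, 34413301440, 0, 187477879680, 0, 814940600400] :=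
  tr2x9.mul trE42 (by decide +kernel)

theorem tr2x11 : IsTr 17 ((((E42) * (E42)) * (E42)) * (DeltaS))
    [0, 1, -24, 972, -18752, 365550, -5368608, 65593976, -675079680, 5523276357, -35508067920, 183477719172, -783014010624, 2815402164902, -8635114576704, 22758065548200, -51670586445824] :=
  tr2x10.mul trDelta (by decide +kernel)

theorem tr2x12 : IsTr 17 (((((E42) * (E42)) * (E42)) * (DeltaS)) * (Delta2))
    [0, 0, 0, 1, -24, 948, -18176, 342474, -4924608, 57064248, -550923264, 4039713579, -20631557792, 66915367668, -93128295936, -290992074834, 2177089288704] :=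
  tr2x11.mul trDelta2 (by decide +kernel)

theorem tr2x13 : IsTr 17 (((16 : ℤ) : PowerSeries ℤ) * (Delta2))
    [0, 0, 16, 0, -384, 0, 4032, 0, -23552, 0, 77280, 0, -96768, 0, -267904, 0, 1351680] :=
  trDelta2.smul 16 (by decide +kernel)

theorem tr2x14 : IsTr 17 ((DeltaS) + (((16 : ℤ) : PowerSeries ℤ) * (Delta2)))
    [0, 1, -8, 252, -1856, 4830, -2016, -16744, 60928, -113643, -38640, 534612, -467712, -577738, 133952, 1217160, 2338816] :=
  trDelta.add tr2x13 (by decide +kernel)

theorem tr2x15 : IsTr 17 (((DeltaS) + (((16 : ℤ) : PowerSeries ℤ) * (Delta2))) * ((DeltaS) + (((16 : ℤ) : PowerSeries ℤ) * (Delta2))))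
    [0, 0, 1, -16, 568, -7744, 102860, -1016736, 5877824, -18555264, 21171182, 75127888, -439436128, 1048955328, -643887496, -4166105568, 14283304448] :=
  tr2x14.mul tr2x14 (by decide +kernel)

theorem tr2x16 : IsTr 17 ((((DeltaS) + (((16 : ℤ) : PowerSeries ℤ) * (Delta2))) * ((DeltaS) + (((16 : ℤ) : PowerSeries ℤ) * (Delta2)))) * ((DeltaS) + (((16 : ℤ) : PowerSeries ℤ) * (Delta2))))
    [0, 0, 0, 1, -24, 948, -18176, 342474, -4924608, 57064248, -550923264, 4039713579, -20631557792, 66915367668, -93128295936, -290992074834, 2177089288704] :=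
  tr2x15.mul tr2x14 (by decide +kernel)

theorem id2b : E42 ^ 3 * DeltaS * Delta2 = (DeltaS + 16 * Delta2) ^ 3 := by
  have hrep : Rep 2 (36 : ℕ) (E42 ^ 3 * DeltaS * Delta2 - (DeltaS + ((16 : ℤ) : PowerSeries ℤ) * Delta2) ^ 3) :=
    (((((rep_E42.pow 3).mul rep_Delta_2).mul rep_Delta2).cast (by norm_num)).sub
      (((rep_Delta_2.add (rep_Delta2.intCast_mul 16)).pow 3).cast (by norm_num)))
  have h := sturm_2 (by norm_num) hrep (tr2x12.of_eq (by ring)) (tr2x16.of_eq (by ring))
  simpa using h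

end Fermat.Agent.GR.D.Haupt
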