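import Fermat.Agent.GR.D.HauptBase
import Fermat.Agent.GR.D.HauptMF

/-!
# GR-D, Hauptmodul package: the power series identities of level 3 (partly generated file)
-/

set_option autoImplicit false

namespace Fermat.Agent.GR.D.Haupt

open Fermat.Agent.Lib.TruncSeries ModularCurve

/-- `Δ(q^3)`. -/
noncomputable def Delta3 : PowerSeries ℤ := PowerSeries.expand 3 (by norm_num) DeltaS

/-- `E₄(q^3)`. -/
noncomputable def E43 : PowerSeries ℤ := PowerSeries.expand 3 (by norm_num) eisenstein4

theorem rep_E4_3 : Rep 3 4 eisenstein4 := rep1_E4.rep 3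
theorem rep_Delta_3 : Rep 3 12 DeltaS := rep1_Delta.rep 3
theorem rep_E43 : Rep 3 4 E43 := rep1_E4.expand 3
theorem rep_Delta3 : Rep 3 12 Delta3 := rep1_Delta.expand 3

theorem sturm_3 {k : ℕ} {s t : PowerSeries ℤ} {c : List ℤ} (hk : k ≤ 48)
    (h : Rep 3 k (s - t)) (hs : IsTr 17 s c) (ht : IsTr 17 t c) : s = t := by
  have hpsi : dedekindPsi 3 = 4 := by decide +kernel
  refine sub_eq_zero.mp (h.eq_zero fun n hn => ?_)
  rw [hpsi] at hn
  have hn' : n < 17 := by
    have h1 : ((k : ℤ) * ((4 : ℕ) : ℤ)).toNat = k * 4 := by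
      have : ((k : ℤ) * ((4 : ℕ) : ℤ)) = ((k * 4 : ℕ) : ℤ) := by push_cast; ring
      rw [this, Int.toNat_natCast]
    rw [h1] at hn
    omega
  rw [map_sub, sub_eq_zero]
  exact hs.congr ht hn'

theorem trDelta3 : IsTr 17 Delta3
    [0, 0, 0, 1, 0, 0, -24, 0, 0, 252, 0, 0, -1472, 0, 0, 4830, 0] :=
  trDelta.expand 3 (by norm_num) (by decide +kernel)

theorem trE43 : IsTr 17 E43
    [1, 0, 0, 240, 0, 0, 2160, 0, 0, 6720, 0, 0, 17520, 0, 0, 30240, 0] :=
  trE.expand 3 (by norm_num) (by decide +kernel)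

theorem tr3x1 : IsTr 17 ((eisenstein4) * (eisenstein4))
    [1, 480, 61920, 1050240, 7926240, 37500480, 135480960, 395301120, 1014559200, 2296875360, 4837561920, 9353842560, 17342613120, 30119288640, 50993844480, 82051050240, 129863578080] :=
  trE.mul trE (by decide +kernel)

theorem tr3x2 : IsTr 17 (((eisenstein4) * (eisenstein4)) * (eisenstein4))
    [1, 720, 179280, 16954560, 396974160, 4632858720, 34413301440, 187477879680, 814940600400, 2975469665040, 9486467837280, 27053330840640, 70485969919680, 169930679355360, 384163875688320, 820167497170560, 1668890801059920] :=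
  tr3x1.mul trE (by decide +kernel)

theorem tr3x3 : IsTr 17 (((756 : ℤ) : PowerSeries ℤ) * (DeltaS))
    [0, 756, -18144, 190512, -1112832, 3651480, -4572288, -12658464, 63866880, -85914108, -87635520, 404166672, -280433664, -436769928, 303803136, 920172960, 746274816] :=
  trDelta.smul 756 (by decide +kernel)

theorem tr3x4 : IsTr 17 (((19131876 : ℤ) : PowerSeries ℤ) * (Delta3))
    [0, 0, 0, 19131876, 0, 0, -459165024, 0, 0, 4821232752, 0, 0, -28162121472, 0, 0, 92406961080, 0] :=
  trDelta3.smul 19131876 (by decide +kernel)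

theorem tr3x5 : IsTr 17 ((((eisenstein4) * (eisenstein4)) * (eisenstein4)) - (((756 : ℤ) : PowerSeries ℤ) * (DeltaS)))
    [1, -36, 197424, 16764048, 398086992, 4629207240, 34417873728, 187490538144, 814876733520, 2975555579148, 9486555472800, 27052926673968, 70486250353344, 169931116125288, 384163571885184, 820166576997600, 1668890054785104] :=
  tr3x2.sub tr3x3 (by decide +kernel)

theorem tr3x6 : IsTr 17 (((((eisenstein4) * (eisenstein4)) * (eisenstein4)) - (((756 : ℤ) : PowerSeries ℤ) * (DeltaS))) - (((19131876 : ℤ) : PowerSeries ℤ) * (Delta3)))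
    [1, -36, 197424, -2367828, 398086992, 4629207240, 34877038752, 187490538144, 814876733520, 2970734346396, 9486555472800, 27052926673968, 70514412474816, 169931116125288, 384163571885184, 820074170036520, 1668890054785104] :=
  tr3x5.sub tr3x4 (by decide +kernel)

theorem tr3x7 : IsTr 17 ((((((eisenstein4) * (eisenstein4)) * (eisenstein4)) - (((756 : ℤ) : PowerSeries ℤ) * (DeltaS))) - (((19131876 : ℤ) : PowerSeries ℤ) * (Delta3))) * (((((eisenstein4) * (eisenstein4)) * (eisenstein4)) - (((756 : ℤ) : PowerSeries ℤ) * (DeltaS))) - (((19131876 : ℤ) : PowerSeries ℤ) * (Delta3))))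
    [1, -72, 396144, -18950184, 39942893376, -954335999088, 162526913211024, -59505997601088, 150310179590128992, 3594466247553264312, 48631417400980693152, 469494553014161059680, 3590732165460948648864, 22953669471447451867728, 126950632927311897842688, 621886626324436636458576, 2745675023060155245187104] :=
  tr3x6.mul tr3x6 (by decide +kernel)

theorem tr3x8 : IsTr 17 ((DeltaS) * (Delta3))
    [0, 0, 0, 0, 1, -24, 252, -1496, 5406, -12096, 18836, -37488, 95013, -86480, -240420, 461448, 156468] :=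
  trDelta.mul trDelta3 (by decide +kernel)

theorem tr3x9 : IsTr 17 (((DeltaS) * (Delta3)) * ((((((eisenstein4) * (eisenstein4)) * (eisenstein4)) - (((756 : ℤ) : PowerSeries ℤ) * (DeltaS))) - (((19131876 : ℤ) : PowerSeries ℤ) * (Delta3))) * (((((eisenstein4) * (eisenstein4)) * (eisenstein4)) - (((756 : ℤ) : PowerSeries ℤ) * (DeltaS))) - (((19131876 : ℤ) : PowerSeries ℤ) * (Delta3)))))
    [0, 0, 0, 0, 1, -96, 398124, -28477280, 40497639198, -1918333919232, 195527078239364, -4260506392772544, 194338960283947653, -276756497621582912, 1222330942278791628, -19025088944838264288, 17056116962597468244] :=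
  tr3x8.mul tr3x7 (by decide +kernel)

theorem tr3x10 : IsTr 17 ((DeltaS) * (DeltaS))
    [0, 0, 1, -48, 1080, -15040, 143820, -985824, 4857920, -16295040, 28412910, 38671600, -424520544, 1268350272, -1211937160, -4306546080, 18293091840] :=
  trDelta.mul trDelta (by decide +kernel)

theorem tr3x11 : IsTr 17 ((Delta3) * (Delta3))
    [0, 0, 0, 0, 0, 0, 1, 0, 0, -48, 0, 0, 1080, 0, 0, -15040, 0] :=
  trDelta3.mul trDelta3 (by decide +kernel)

theorem tr3x12 : IsTr 17 (((196830 : ℤ) : PowerSeries ℤ) * ((DeltaS) * (Delta3)))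
    [0, 0, 0, 0, 196830, -4723920, 49601160, -294457680, 1064062980, -2380855680, 3707489880, -7378763040, 18701408790, -17021858400, -47321868600, 90826809840, 30797596440] :=
  tr3x8.smul 196830 (by decide +kernel)

theorem tr3x13 : IsTr 17 (((DeltaS) * (DeltaS)) + (((196830 : ℤ) : PowerSeries ℤ) * ((DeltaS) * (Delta3))))
    [0, 0, 1, -48, 197910, -4738960, 49744980, -295443504, 1068920900, -2397150720, 3735902790, -7340091440, 18276888246, -15753508128, -48533805760, 86520263760, 49090688280] :=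
  tr3x10.add tr3x12 (by decide +kernel)

theorem tr3x14 : IsTr 17 (((387420489 : ℤ) : PowerSeries ℤ) * ((Delta3) * (Delta3)))
    [0, 0, 0, 0, 0, 0, 387420489, 0, 0, -18596183472, 0, 0, 418414128120, 0, 0, -5826804154560, 0] :=
  tr3x11.smul 387420489 (by decide +kernel)

theorem tr3x15 : IsTr 17 ((((DeltaS) * (DeltaS)) + (((196830 : ℤ) : PowerSeries ℤ) * ((DeltaS) * (Delta3)))) + (((387420489 : ℤ) : PowerSeries ℤ) * ((Delta3) * (Delta3))))
    [0, 0, 1, -48, 197910, -4738960, 437165469, -295443504, 1068920900, -20993334192, 3735902790, -7340091440, 436691016366, -15753508128, -48533805760, -5740283890800, 49090688280] :=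
  tr3x13.add tr3x14 (by decide +kernel)

theorem tr3x16 : IsTr 17 (((((DeltaS) * (DeltaS)) + (((196830 : ℤ) : PowerSeries ℤ) * ((DeltaS) * (Delta3)))) + (((387420489 : ℤ) : PowerSeries ℤ) * ((Delta3) * (Delta3)))) * ((((DeltaS) * (DeltaS)) + (((196830 : ℤ) : PowerSeries ℤ) * ((DeltaS) * (Delta3)))) + (((387420489 : ℤ) : PowerSeries ℤ) * ((Delta3) * (Delta3)))))
    [0, 0, 0, 0, 1, -96, 398124, -28477280, 40497639198, -1918333919232, 195527078239364, -4260506392772544, 194338960283947653, -276756497621582912, 1222330942278791628, -19025088944838264288, 17056116962597468244] :=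
  tr3x15.mul tr3x15 (by decide +kernel)

theorem id3a : DeltaS * Delta3 * (eisenstein4 ^ 3 - 756 * DeltaS - 19131876 * Delta3) ^ 2
    = (DeltaS ^ 2 + 196830 * (DeltaS * Delta3) + 387420489 * Delta3 ^ 2) ^ 2 := by
  have hrep : Rep 3 (48 : ℕ) (DeltaS * Delta3 * (eisenstein4 ^ 3 - ((756 : ℤ) : PowerSeries ℤ) * DeltaS
      - ((19131876 : ℤ) : PowerSeries ℤ) * Delta3) ^ 2
      - (DeltaS ^ 2 + ((196830 : ℤ) : PowerSeries ℤ) * (DeltaS * Delta3)
        + ((387420489 : ℤ) : PowerSeries ℤ) * Delta3 ^ 2) ^ 2) :=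
    (((rep_Delta_3.mul rep_Delta3).mul
        (((((rep_E4_3.pow 3).cast (by norm_num : ((3 : ℕ) : ℤ) * 4 = 12)).sub (rep_Delta_3.intCast_mul 756)).sub
          (rep_Delta3.intCast_mul 19131876)).pow 2)).cast (by norm_num)).sub
      ((((((rep_Delta_3.pow 2).cast (by norm_num : ((2 : ℕ) : ℤ) * 12 = 24)).add
          (((rep_Delta_3.mul rep_Delta3).intCast_mul 196830).cast (by norm_num))).add
          (((rep_Delta3.pow 2).intCast_mul 387420489).cast (by norm_num))).pow 2).cast (by norm_num))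
  have h := sturm_3 (by norm_num) hrep (tr3x9.of_eq (by ring)) (tr3x16.of_eq (by ring))
  simpa using h

theorem tr3x17 : IsTr 17 ((E43) * (E43))
    [1, 0, 0, 480, 0, 0, 61920, 0, 0, 1050240, 0, 0, 7926240, 0, 0, 37500480, 0] :=
  trE43.mul trE43 (by decide +kernel)

theorem tr3x18 : IsTr 17 (((E43) * (E43)) * (E43))
    [1, 0, 0, 720, 0, 0, 179280, 0, 0, 16954560, 0, 0, 396974160, 0, 0, 4632858720, 0] :=
  tr3x17.mul trE43 (by decide +kernel)

theorem tr3x19 : IsTr 17 (((36 : ℤ) : PowerSeries ℤ) * (DeltaS))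
    [0, 36, -864, 9072, -52992, 173880, -217728, -602784, 3041280, -4091148, -4173120, 19246032, -13353984, -20798568, 14466816, 43817760, 35536896] :=
  trDelta.smul 36 (by decide +kernel)

theorem tr3x20 : IsTr 17 (((756 : ℤ) : PowerSeries ℤ) * (Delta3))
    [0, 0, 0, 756, 0, 0, -18144, 0, 0, 190512, 0, 0, -1112832, 0, 0, 3651480, 0] :=
  trDelta3.smul 756 (by decide +kernel)

theorem tr3x21 : IsTr 17 ((((E43) * (E43)) * (E43)) - (((36 : ℤ) : PowerSeries ℤ) * (DeltaS)))
    [1, -36, 864, -8352, 52992, -173880, 397008, 602784, -3041280, 21045708, 4173120, -19246032, 410328144, 20798568, -14466816, 4589040960, -35536896] :=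
  tr3x18.sub tr3x19 (by decide +kernel)

theorem tr3x22 : IsTr 17 (((((E43) * (E43)) * (E43)) - (((36 : ℤ) : PowerSeries ℤ) * (DeltaS))) - (((756 : ℤ) : PowerSeries ℤ) * (Delta3)))
    [1, -36, 864, -9108, 52992, -173880, 415152, 602784, -3041280, 20855196, 4173120, -19246032, 411440976, 20798568, -14466816, 4585389480, -35536896] :=
  tr3x21.sub tr3x20 (by decide +kernel)

theorem tr3x23 : IsTr 17 ((((((E43) * (E43)) * (E43)) - (((36 : ℤ) : PowerSeries ℤ) * (DeltaS))) - (((756 : ℤ) : PowerSeries ℤ) * (Delta3))) * (((((E43) * (E43)) * (E43)) - (((36 : ℤ) : PowerSeries ℤ) * (DeltaS))) - (((756 : ℤ) : PowerSeries ℤ) * (Delta3))))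
    [1, -72, 3024, -80424, 1508256, -19901808, 187875504, -1294452288, 6643449792, -24688613448, 56504850912, 10610978400, -730078502976, 3629589741648, -7912128114432, 2710010642256, 87421775197824] :=
  tr3x22.mul tr3x22 (by decide +kernel)

theorem tr3x24 : IsTr 17 ((DeltaS) * (Delta3))
    [0, 0, 0, 0, 1, -24, 252, -1496, 5406, -12096, 18836, -37488, 95013, -86480, -240420, 461448, 156468] :=
  trDelta.mul trDelta3 (by decide +kernel)

theorem tr3x25 : IsTr 17 (((DeltaS) * (Delta3)) * ((((((E43) * (E43)) * (E43)) - (((36 : ℤ) : PowerSeries ℤ) * (DeltaS))) - (((756 : ℤ) : PowerSeries ℤ) * (Delta3))) * (((((E43) * (E43)) * (E43)) - (((36 : ℤ) : PowerSeries ℤ) * (DeltaS))) - (((756 : ℤ) : PowerSeries ℤ) * (Delta3)))))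
    [0, 0, 0, 0, 1, -96, 5004, -172640, 4313598, -81292032, 1183151204, -13547815104, 124014231333, -918863335232, 5547786538668, -27215285112288, 106195231483284] :=
  tr3x24.mul tr3x23 (by decide +kernel)

theorem tr3x26 : IsTr 17 ((DeltaS) * (DeltaS))
    [0, 0, 1, -48, 1080, -15040, 143820, -985824, 4857920, -16295040, 28412910, 38671600, -424520544, 1268350272, -1211937160, -4306546080, 18293091840] :=
  trDelta.mul trDelta (by decide +kernel)

theorem tr3x27 : IsTr 17 ((Delta3) * (Delta3))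
    [0, 0, 0, 0, 0, 0, 1, 0, 0, -48, 0, 0, 1080, 0, 0, -15040, 0] :=
  trDelta3.mul trDelta3 (by decide +kernel)

theorem tr3x28 : IsTr 17 (((270 : ℤ) : PowerSeries ℤ) * ((DeltaS) * (Delta3)))
    [0, 0, 0, 0, 270, -6480, 68040, -403920, 1459620, -3265920, 5085720, -10121760, 25653510, -23349600, -64913400, 124590960, 42246360] :=
  tr3x24.smul 270 (by decide +kernel)

theorem tr3x29 : IsTr 17 (((DeltaS) * (DeltaS)) + (((270 : ℤ) : PowerSeries ℤ) * ((DeltaS) * (Delta3))))
    [0, 0, 1, -48, 1350, -21520, 211860, -1389744, 6317540, -19560960, 33498630, 28549840, -398867034, 1245000672, -1276850560, -4181955120, 18335338200] :=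
  tr3x26.add tr3x28 (by decide +kernel)

theorem tr3x30 : IsTr 17 (((729 : ℤ) : PowerSeries ℤ) * ((Delta3) * (Delta3)))
    [0, 0, 0, 0, 0, 0, 729, 0, 0, -34992, 0, 0, 787320, 0, 0, -10964160, 0] :=
  tr3x27.smul 729 (by decide +kernel)

theorem tr3x31 : IsTr 17 ((((DeltaS) * (DeltaS)) + (((270 : ℤ) : PowerSeries ℤ) * ((DeltaS) * (Delta3)))) + (((729 : ℤ) : PowerSeries ℤ) * ((Delta3) * (Delta3))))
    [0, 0, 1, -48, 1350, -21520, 212589, -1389744, 6317540, -19595952, 33498630, 28549840, -398079714, 1245000672, -1276850560, -4192919280, 18335338200] :=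
  tr3x29.add tr3x30 (by decide +kernel)

theorem tr3x32 : IsTr 17 (((((DeltaS) * (DeltaS)) + (((270 : ℤ) : PowerSeries ℤ) * ((DeltaS) * (Delta3)))) + (((729 : ℤ) : PowerSeries ℤ) * ((Delta3) * (Delta3)))) * ((((DeltaS) * (DeltaS)) + (((270 : ℤ) : PowerSeries ℤ) * ((DeltaS) * (Delta3)))) + (((729 : ℤ) : PowerSeries ℤ) * ((Delta3) * (Delta3)))))
    [0, 0, 0, 0, 1, -96, 5004, -172640, 4313598, -81292032, 1183151204, -13547815104, 124014231333, -918863335232, 5547786538668, -27215285112288, 106195231483284] :=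
  tr3x31.mul tr3x31 (by decide +kernel)

theorem id3b : DeltaS * Delta3 * (E43 ^ 3 - 36 * DeltaS - 756 * Delta3) ^ 2
    = (DeltaS ^ 2 + 270 * (DeltaS * Delta3) + 729 * Delta3 ^ 2) ^ 2 := by
  have hrep : Rep 3 (48 : ℕ) (DeltaS * Delta3 * (E43 ^ 3 - ((36 : ℤ) : PowerSeries ℤ) * DeltaS
      - ((756 : ℤ) : PowerSeries ℤ) * Delta3) ^ 2
      - (DeltaS ^ 2 + ((270 : ℤ) : PowerSeries ℤ) * (DeltaS * Delta3)
        + ((729 : ℤ) : PowerSeries ℤ) * Delta3 ^ 2) ^ 2) :=
    (((rep_Delta_3.mul rep_Delta3).mul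
        (((((rep_E43.pow 3).cast (by norm_num : ((3 : ℕ) : ℤ) * 4 = 12)).sub (rep_Delta_3.intCast_mul 36)).sub
          (rep_Delta3.intCast_mul 756)).pow 2)).cast (by norm_num)).sub
      ((((((rep_Delta_3.pow 2).cast (by norm_num : ((2 : ℕ) : ℤ) * 12 = 24)).add
          (((rep_Delta_3.mul rep_Delta3).intCast_mul 270).cast (by norm_num))).add
          (((rep_Delta3.pow 2).intCast_mul 729).cast (by norm_num))).pow 2).cast (by norm_num))
  have h := sturm_3 (by norm_num) hrep (tr3x25.of_eq (by ring)) (tr3x32.of_eq (by ring))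
  simpa using h

end Fermat.Agent.GR.D.Haupt
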