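import Fermat.Agent.Lib.TruncSeries

/-!
# GR-D, Hauptmodul package: the first 17 coefficients of `E₄`, `E₄³`, `Δ` (generated file)
-/

set_option autoImplicit false

namespace Fermat.Agent.GR.D.Haupt

open Fermat.Agent.Lib.TruncSeries ModularCurve

/-- the formal `q`-expansion of `Δ`. -/
noncomputable def DeltaS : PowerSeries ℤ := PowerSeries.X * dedekindEtaUnit

theorem trP0 : IsTr 17 (∏ n ∈ Finset.range 0, (1 - PowerSeries.X ^ (n + 1) : PowerSeries ℤ)) [1] := by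
  simpa using isTr_one 17

theorem trP1 : IsTr 17 (∏ n ∈ Finset.range 1, (1 - PowerSeries.X ^ (n + 1) : PowerSeries ℤ))
    [1, -1, 0, 0, 0, 0, 0, 0, 0, 0, 0, 0, 0, 0, 0, 0, 0] :=
  (trP0.euler 1 (by decide +kernel)).of_eq (Finset.prod_range_succ _ _).symm

theorem trP2 : IsTr 17 (∏ n ∈ Finset.range 2, (1 - PowerSeries.X ^ (n + 1) : PowerSeries ℤ))
    [1, -1, -1, 1, 0, 0, 0, 0, 0, 0, 0, 0, 0, 0, 0, 0, 0] :=
  (trP1.euler 2 (by decide +kernel)).of_eq (Finset.prod_range_succ _ _).symm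

theorem trP3 : IsTr 17 (∏ n ∈ Finset.range 3, (1 - PowerSeries.X ^ (n + 1) : PowerSeries ℤ))
    [1, -1, -1, 0, 1, 1, -1, 0, 0, 0, 0, 0, 0, 0, 0, 0, 0] :=
  (trP2.euler 3 (by decide +kernel)).of_eq (Finset.prod_range_succ _ _).symm

theorem trP4 : IsTr 17 (∏ n ∈ Finset.range 4, (1 - PowerSeries.X ^ (n + 1) : PowerSeries ℤ))
    [1, -1, -1, 0, 0, 2, 0, 0, -1, -1, 1, 0, 0, 0, 0, 0, 0] :=
  (trP3.euler 4 (by decide +kernel)).of_eq (Finset.prod_range_succ _ _).symm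

theorem trP5 : IsTr 17 (∏ n ∈ Finset.range 5, (1 - PowerSeries.X ^ (n + 1) : PowerSeries ℤ))
    [1, -1, -1, 0, 0, 1, 1, 1, -1, -1, -1, 0, 0, 1, 1, -1, 0] :=
  (trP4.euler 5 (by decide +kernel)).of_eq (Finset.prod_range_succ _ _).symm

theorem trP6 : IsTr 17 (∏ n ∈ Finset.range 6, (1 - PowerSeries.X ^ (n + 1) : PowerSeries ℤ))
    [1, -1, -1, 0, 0, 1, 0, 2, 0, -1, -1, -1, -1, 0, 2, 0, 1] :=
  (trP5.euler 6 (by decide +kernel)).of_eq (Finset.prod_range_succ _ _).symm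

theorem trP7 : IsTr 17 (∏ n ∈ Finset.range 7, (1 - PowerSeries.X ^ (n + 1) : PowerSeries ℤ))
    [1, -1, -1, 0, 0, 1, 0, 1, 1, 0, -1, -1, -2, 0, 0, 0, 2] :=
  (trP6.euler 7 (by decide +kernel)).of_eq (Finset.prod_range_succ _ _).symm

theorem trP8 : IsTr 17 (∏ n ∈ Finset.range 8, (1 - PowerSeries.X ^ (n + 1) : PowerSeries ℤ))
    [1, -1, -1, 0, 0, 1, 0, 1, 0, 1, 0, -1, -2, -1, 0, -1, 1] :=
  (trP7.euler 8 (by decide +kernel)).of_eq (Finset.prod_range_succ _ _).symm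

theorem trP9 : IsTr 17 (∏ n ∈ Finset.range 9, (1 - PowerSeries.X ^ (n + 1) : PowerSeries ℤ))
    [1, -1, -1, 0, 0, 1, 0, 1, 0, 0, 1, 0, -2, -1, -1, -1, 0] :=
  (trP8.euler 9 (by decide +kernel)).of_eq (Finset.prod_range_succ _ _).symm

theorem trP10 : IsTr 17 (∏ n ∈ Finset.range 10, (1 - PowerSeries.X ^ (n + 1) : PowerSeries ℤ))
    [1, -1, -1, 0, 0, 1, 0, 1, 0, 0, 0, 1, -1, -1, -1, -2, 0] :=
  (trP9.euler 10 (by decide +kernel)).of_eq (Finset.prod_range_succ _ _).symm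

theorem trP11 : IsTr 17 (∏ n ∈ Finset.range 11, (1 - PowerSeries.X ^ (n + 1) : PowerSeries ℤ))
    [1, -1, -1, 0, 0, 1, 0, 1, 0, 0, 0, 0, 0, 0, -1, -2, -1] :=
  (trP10.euler 11 (by decide +kernel)).of_eq (Finset.prod_range_succ _ _).symm

theorem trP12 : IsTr 17 (∏ n ∈ Finset.range 12, (1 - PowerSeries.X ^ (n + 1) : PowerSeries ℤ))
    [1, -1, -1, 0, 0, 1, 0, 1, 0, 0, 0, 0, -1, 1, 0, -2, -1] :=
  (trP11.euler 12 (by decide +kernel)).of_eq (Finset.prod_range_succ _ _).symm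

theorem trP13 : IsTr 17 (∏ n ∈ Finset.range 13, (1 - PowerSeries.X ^ (n + 1) : PowerSeries ℤ))
    [1, -1, -1, 0, 0, 1, 0, 1, 0, 0, 0, 0, -1, 0, 1, -1, -1] :=
  (trP12.euler 13 (by decide +kernel)).of_eq (Finset.prod_range_succ _ _).symm

theorem trP14 : IsTr 17 (∏ n ∈ Finset.range 14, (1 - PowerSeries.X ^ (n + 1) : PowerSeries ℤ))
    [1, -1, -1, 0, 0, 1, 0, 1, 0, 0, 0, 0, -1, 0, 0, 0, 0] :=
  (trP13.euler 14 (by decide +kernel)).of_eq (Finset.prod_range_succ _ _).symm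

theorem trP15 : IsTr 17 (∏ n ∈ Finset.range 15, (1 - PowerSeries.X ^ (n + 1) : PowerSeries ℤ))
    [1, -1, -1, 0, 0, 1, 0, 1, 0, 0, 0, 0, -1, 0, 0, -1, 1] :=
  (trP14.euler 15 (by decide +kernel)).of_eq (Finset.prod_range_succ _ _).symm

theorem trP16 : IsTr 17 (∏ n ∈ Finset.range 16, (1 - PowerSeries.X ^ (n + 1) : PowerSeries ℤ))
    [1, -1, -1, 0, 0, 1, 0, 1, 0, 0, 0, 0, -1, 0, 0, -1, 0] :=
  (trP15.euler 16 (by decide +kernel)).of_eq (Finset.prod_range_succ _ _).symm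

theorem trP17 : IsTr 17 (∏ n ∈ Finset.range 17, (1 - PowerSeries.X ^ (n + 1) : PowerSeries ℤ))
    [1, -1, -1, 0, 0, 1, 0, 1, 0, 0, 0, 0, -1, 0, 0, -1, 0] :=
  (trP16.euler 17 (by decide +kernel)).of_eq (Finset.prod_range_succ _ _).symm

theorem trEta : IsTr 17 etaProd
    [1, -1, -1, 0, 0, 1, 0, 1, 0, 0, 0, 0, -1, 0, 0, -1, 0] := isTr_etaProd trP17

theorem trB1 : IsTr 17 ((etaProd) * (etaProd))
    [1, -2, -1, 2, 1, 2, -2, 0, -2, -2, 1, 0, 0, 2, 3, -2, 2] :=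
  trEta.mul trEta (by decide +kernel)

theorem trB2 : IsTr 17 (((etaProd) * (etaProd)) * ((etaProd) * (etaProd)))
    [1, -4, 2, 8, -5, -4, -10, 8, 9, 0, 14, -16, -10, -4, 0, -8, 14] :=
  trB1.mul trB1 (by decide +kernel)

theorem trB3 : IsTr 17 ((((etaProd) * (etaProd)) * ((etaProd) * (etaProd))) * (((etaProd) * (etaProd)) * ((etaProd) * (etaProd))))
    [1, -8, 20, 0, -70, 64, 56, 0, -125, -160, 308, 0, 110, 0, -520, 0, 57] :=
  trB2.mul trB2 (by decide +kernel)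

theorem trB4 : IsTr 17 (((((etaProd) * (etaProd)) * ((etaProd) * (etaProd))) * (((etaProd) * (etaProd)) * ((etaProd) * (etaProd)))) * ((((etaProd) * (etaProd)) * ((etaProd) * (etaProd))) * (((etaProd) * (etaProd)) * ((etaProd) * (etaProd)))))
    [1, -16, 104, -320, 260, 1248, -3712, 1664, 6890, -7280, -5568, -4160, 33176, 4640, -74240, 29824, 14035] :=
  trB3.mul trB3 (by decide +kernel)

theorem trB5 : IsTr 17 (((((etaProd) * (etaProd)) * ((etaProd) * (etaProd))) * (((etaProd) * (etaProd)) * ((etaProd) * (etaProd)))) * (((((etaProd) * (etaProd)) * ((etaProd) * (etaProd))) * (((etaProd) * (etaProd)) * ((etaProd) * (etaProd)))) * ((((etaProd) * (etaProd)) * ((etaProd) * (etaProd))) * (((etaProd) * (etaProd)) * ((etaProd) * (etaProd))))))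
    [1, -24, 252, -1472, 4830, -6048, -16744, 84480, -113643, -115920, 534612, -370944, -577738, 401856, 1217160, 987136, -6905934] :=
  trB3.mul trB4 (by decide +kernel)

theorem trDelta : IsTr 17 DeltaS
    [0, 1, -24, 252, -1472, 4830, -6048, -16744, 84480, -113643, -115920, 534612, -370944, -577738, 401856, 1217160, 987136, -6905934] :=
  (trB5.of_eq (show _ = dedekindEtaUnit by rw [dedekindEtaUnit]; ring)).X_mul

theorem trE : IsTr 17 eisenstein4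
    [1, 240, 2160, 6720, 17520, 30240, 60480, 82560, 140400, 181680, 272160, 319680, 490560, 527520, 743040, 846720, 1123440] :=
  isTr_E4 (by decide +kernel)

end Fermat.Agent.GR.D.Haupt
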