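import Fermat.Agent.GR.D.HorizJ
import Fermat.Agent.GR.D.HauptTower
import Fermat.Agent.GR.D.HauptBridge

/-!
# GR-D (6c): `FF ℚ̄ N / ℚ̄(h_r)` is unramified outside `{∞, 0, -64}` resp. `{∞, 0, -27}`
-/

set_option autoImplicit false

namespace Fermat.Agent.GR.D.Haupt

open AlgebraicCurve ModularCurve Fermat.Agent.GR

/-- `h₂` as an element of the function field. -/
noncomputable def h2F (K : Type*) [Field K] {N : ℕ} (hN : 2 ∣ N) : FF K N :=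
  ⟨h2 K, h2_mem_FF K hN⟩

/-- `h₃` as an element of the function field. -/
noncomputable def h3F (K : Type*) [Field K] {N : ℕ} (hN : 3 ∣ N) : FF K N :=
  ⟨h3 K, h3_mem_FF K hN⟩

@[simp] theorem coe_h2F (K : Type*) [Field K] {N : ℕ} (hN : 2 ∣ N) :
    ((h2F K hN : FF K N) : LaurentSeries K) = h2 K := rfl

@[simp] theorem coe_h3F (K : Type*) [Field K] {N : ℕ} (hN : 3 ∣ N) :
    ((h3F K hN : FF K N) : LaurentSeries K) = h3 K := rfl

theorem jF_mul_h2F_sq (K : Type*) [Field K] {N : ℕ} (hN : 2 ∣ N) :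
    C.jF K N * h2F K hN ^ 2 = (h2F K hN + 256) ^ 3 := by
  apply Subtype.ext
  exact j_mul_h2_sq K

theorem jF_mul_h3F_cube (K : Type*) [Field K] {N : ℕ} (hN : 3 ∣ N) :
    C.jF K N * h3F K hN ^ 3 = (h3F K hN + 27) * (h3F K hN + 243) ^ 3 := by
  apply Subtype.ext
  exact j_mul_h3_cube K

theorem jRam (N : ℕ) [NeZero N] (v : Place Qb (FF Qb N)) : JRam v (C.jF Qb N) where
  nonconst c h := by
    have := transcendental_jF Qb N
    rw [h] at this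
    exact this (isAlgebraic_algebraMap c)
  generic c h0 h1 hv := ord_jF_sub_eq_one' N v c h0 h1 hv
  zero hv := ord_jF_dvd_three' N v hv
  e1728 hv := ord_jF_sub_dvd_two' N v hv

theorem ord_h2F_sub_le_one (N : ℕ) [NeZero N] (hN : 2 ∣ N) (v : Place Qb (FF Qb N)) (a : Qb)
    (ha : a ≠ 0) (ha' : a ≠ -64) : v.ord (h2F Qb hN - algebraMap Qb (FF Qb N) a) ≤ 1 :=
  ord_h2_sub_le_one v (jRam N v) (jF_mul_h2F_sq Qb hN) a ha ha'

theorem ord_h2F_inv_sub_le_one (N : ℕ) [NeZero N] (hN : 2 ∣ N) (v : Place Qb (FF Qb N)) (a : Qb)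
    (ha : a ≠ 0) (ha' : 1 + 64 * a ≠ 0) :
    v.ord ((h2F Qb hN)⁻¹ - algebraMap Qb (FF Qb N) a) ≤ 1 :=
  ord_h2_inv_sub_le_one v (jRam N v) (jF_mul_h2F_sq Qb hN) a ha ha'

theorem ord_h3F_sub_le_one (N : ℕ) [NeZero N] (hN : 3 ∣ N) (v : Place Qb (FF Qb N)) (a : Qb)
    (ha : a ≠ 0) (ha' : a ≠ -27) : v.ord (h3F Qb hN - algebraMap Qb (FF Qb N) a) ≤ 1 :=
  ord_h3_sub_le_one v (jRam N v) (jF_mul_h3F_cube Qb hN) a ha ha'

theorem ord_h3F_inv_sub_le_one (N : ℕ) [NeZero N] (hN : 3 ∣ N) (v : Place Qb (FF Qb N)) (a : Qb)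
    (ha : a ≠ 0) (ha' : 1 + 27 * a ≠ 0) :
    v.ord ((h3F Qb hN)⁻¹ - algebraMap Qb (FF Qb N) a) ≤ 1 :=
  ord_h3_inv_sub_le_one v (jRam N v) (jF_mul_h3F_cube Qb hN) a ha ha'

end Fermat.Agent.GR.D.Haupt
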