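import Fermat.Agent.S24.Unif
import Fermat.Agent.S24.Final
import Fermat.Agent.GR.Defs

/-!
# GR-D, input (H), part 1: ramification of `F_N / ℚ̄(j)` (from the S24 uniformisation data)
-/

set_option autoImplicit false

namespace Fermat.Agent.GR.D

open AlgebraicCurve IntermediateField Fermat.Agent.S24
open scoped MatrixGroups

theorem neg_one_smul_coset (N : ℕ) (x : Cosets N) : (-1 : SL(2, ℤ)) • x = x := by
  induction x using Quotient.inductionOn' with
  | h γ =>
    show ((((-1 : SL(2, ℤ)) * γ : SL(2, ℤ))) : Cosets N) = (γ : Cosets N)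
    rw [QuotientGroup.eq]
    have : ((-1 : SL(2, ℤ)) * γ)⁻¹ * γ = -1 := by
      rw [mul_inv_rev, mul_assoc]
      have h : (-1 : SL(2, ℤ))⁻¹ * γ = γ * (-1) := by
        have h1 : (-1 : SL(2, ℤ))⁻¹ = -1 := by decide
        rw [h1]
        ext i j
        simp
      rw [h, ← mul_assoc, inv_mul_cancel, one_mul]
    rw [this, CongruenceSubgroup.Gamma0_mem]
    simp

theorem ord_dvd_of_unifData (N : ℕ) [NeZero N] (c : Kbar) {e0 w : ℕ}
    {g : Equiv.Perm (Cosets N)}
    (U : UnifData Kbar (S24.FF N) (Cosets N) (jF N - algebraMap Kbar (S24.FF N) c) e0 g)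
    (hg : g ^ w = 1) (v : Place Kbar (S24.FF N))
    (hv : 0 < v.ord (jF N - algebraMap Kbar (S24.FF N) c)) :
    v.ord (jF N - algebraMap Kbar (S24.FF N) c) ∣ (w : ℤ) := by
  have : FiniteDimensional Kbar⟮jF N - algebraMap Kbar (S24.FF N) c⟯ (S24.FF N) :=
    finiteDimensional_of_eq (adjoin_sub_algebraMap (jF N) c)
  have hn : Nat.card (Cosets N) =
      Module.finrank Kbar⟮jF N - algebraMap Kbar (S24.FF N) c⟯ (S24.FF N) := by
    rw [finrank_FF N, finrank_eq_of_eq (adjoin_sub_algebraMap (jF N) c)]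
  obtain ⟨i, hi⟩ := U.exists_induced (transcendental_sub_algebraMap (transcendental_jF N) c) hn v hv
  exact U.ord_dvd_of_period i v hi w (by rw [hg]; rfl)

theorem ord_jF_sub_eq_one (N : ℕ) [NeZero N] (c : Kbar) (h0 : c ≠ 0) (h1 : c ≠ 1728)
    (v : Place Kbar (S24.FF N)) (hv : 0 < v.ord (jF N - algebraMap Kbar (S24.FF N) c)) :
    v.ord (jF N - algebraMap Kbar (S24.FF N) c) = 1 := by
  obtain ⟨U⟩ := unifData_generic N c h0 h1
  have h := ord_dvd_of_unifData N c (w := 1) U (by simp) v hv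
  exact Int.eq_one_of_dvd_one hv.le (by simpa using h)

theorem ord_jF_dvd_three (N : ℕ) [NeZero N]
    (v : Place Kbar (S24.FF N)) (hv : 0 < v.ord (jF N)) : v.ord (jF N) ∣ 3 := by
  obtain ⟨U⟩ := unifData_zero N
  have e : jF N = jF N - algebraMap Kbar (S24.FF N) 0 := by simp
  rw [e] at U hv ⊢
  refine ord_dvd_of_unifData N 0 (w := 3) U ?_ v hv
  ext x
  rw [local_permOf_pow, local_ST_cube, neg_one_smul_coset]
  rfl

theorem ord_jF_sub_dvd_two (N : ℕ) [NeZero N]
    (v : Place Kbar (S24.FF N)) (hv : 0 < v.ord (jF N - algebraMap Kbar (S24.FF N) 1728)) :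
    v.ord (jF N - algebraMap Kbar (S24.FF N) 1728) ∣ 2 := by
  obtain ⟨U⟩ := unifData_1728 N
  refine ord_dvd_of_unifData N 1728 (w := 2) U ?_ v hv
  ext x
  rw [local_permOf_pow, local_S_sq, neg_one_smul_coset]
  rfl

end Fermat.Agent.GR.D
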