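import Fermat.Agent.GR.Defs
import Fermat.Prelude.Def_AlgebraicCurve_Correspondence
import Fermat.Agent.GR.D.LC.Main

/-!
# GR-D (LC): level change `N → N r` for the Kummer groups

* `FF_eq_bar` : `FF ℚ̄ N` (GR) is the Prelude `modularFunctionFieldBar N` (S24).
* `isKummer_mono` (LC1) : a Kummer function of level `N` is a Kummer function of level `N'`, `N ∣ N'`.
* `mem_FF_of_pow_mem` (LC2) : `z ∈ FF (N r)`, `z ^ n ∈ FF N` implies `z ∈ FF N` (`r` prime, `r ∤ N`).
* `kummerEquiv_descend` (LC3).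
-/

set_option autoImplicit false

namespace Fermat.Agent.GR.D.LC

open Fermat.Agent.S24 Fermat.Agent.GR AlgebraicCurve IntermediateField

theorem coeffEmb_qExpand_jq (d : ℕ) [NeZero d] :
    ModularCurve.coeffEmb Kbar (ModularCurve.qExpand ℚ d ModularCurve.jq)
      = ModularCurve.qExpand Kbar d (ModularCurve.jqModC Kbar) := by
  rw [ModularCurve.coeffEmb, ModularCurve.coeffMap_qExpand]
  congr 1
  exact ModularCurve.map_jqModC (K := ℚ) _

theorem FF_eq_bar (N : ℕ) : GR.FF Kbar N = ModularCurve.modularFunctionFieldBar N := by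
  rw [modularFunctionFieldBar_eq_adjoin]
  unfold GR.FF ModularCurve.modularFunctionFieldFullC
  congr 1
  ext x
  constructor
  · rintro ⟨d, hd0, hd, rfl⟩
    exact ⟨_, ⟨d, hd0, hd, rfl⟩, coeffEmb_qExpand_jq d⟩
  · rintro ⟨_, ⟨d, hd0, hd, rfl⟩, rfl⟩
    exact ⟨d, hd0, hd, coeffEmb_qExpand_jq d⟩

/-- (LC2) -/
theorem mem_FF_of_pow_mem (N r n : ℕ) [NeZero N] (hr : r.Prime) (hrN : ¬ r ∣ N) (hn : 0 < n)
    (z : LaurentSeries Kbar) (hz : z ∈ GR.FF Kbar (N * r)) (hzn : z ^ n ∈ GR.FF Kbar N) :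
    z ∈ GR.FF Kbar N := by
  rw [FF_eq_bar] at hz hzn ⊢
  exact mem_bar_of_pow_mem N r n hr hrN hn z hz hzn

/-- (LC3) -/
theorem kummerEquiv_descend (N r n : ℕ) [NeZero N] (hr : r.Prime) (hrN : ¬ r ∣ N)
    {u u' : LaurentSeries Kbar} (hu : u ∈ GR.FF Kbar N) (hu' : u' ∈ GR.FF Kbar N) (hu0 : u ≠ 0)
    (h : KummerEquiv (N * r) n u u') : KummerEquiv N n u u' := by
  obtain ⟨z, hz, hz0, rfl⟩ := h
  rcases Nat.eq_zero_or_pos n with rfl | hn
  · exact ⟨1, one_mem _, one_ne_zero, by simp⟩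
  · refine ⟨z, mem_FF_of_pow_mem N r n hr hrN hn z hz ?_, hz0, rfl⟩
    have h1 : z ^ n = u * z ^ n / u := by field_simp
    rw [h1]
    exact div_mem hu' hu

/-- The Kummer condition for an arbitrary subfield of `K((q))`. -/
def IsKummerIn {K : Type*} [Field K] (E : IntermediateField K (LaurentSeries K)) (n : ℕ)
    (u : LaurentSeries K) : Prop :=
  u ≠ 0 ∧ ∃ hu : u ∈ E, ∀ v : Place K E, (n : ℤ) ∣ v.ord (⟨u, hu⟩ : E)

theorem isKummer_iff {K : Type*} [Field K] (N n : ℕ) (u : LaurentSeries K) :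
    IsKummer (N := N) n u ↔ IsKummerIn (GR.FF K N) n u := Iff.rfl

theorem IsKummerIn.mono {K : Type*} [Field K] {E E' : IntermediateField K (LaurentSeries K)}
    (hle : E ≤ E') (hint : (IntermediateField.inclusion hle).toRingHom.IsIntegral) {n : ℕ}
    {u : LaurentSeries K} (hu : IsKummerIn E n u) : IsKummerIn E' n u := by
  obtain ⟨hu0, hmem, hord⟩ := hu
  refine ⟨hu0, hle hmem, fun v => ?_⟩
  have h1 := Place.ord_restrictAlong (IntermediateField.inclusion hle) hint v ⟨u, hmem⟩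
  have h2 : IntermediateField.inclusion hle ⟨u, hmem⟩ = (⟨u, hle hmem⟩ : E') := rfl
  rw [h2] at h1
  rw [h1]
  exact (hord _).mul_left _

set_option synthInstance.maxHeartbeats 400000 in
theorem isIntegral_inclusion_bar {N M : ℕ} [NeZero N] [NeZero M] (h : N ∣ M) :
    (IntermediateField.inclusion (bar_mono h)).toRingHom.IsIntegral := by
  let F0 : IntermediateField Kbar (S24.FF M) :=
    (ModularCurve.modularFunctionFieldBar N).comap (ModularCurve.modularFunctionFieldBar M).val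
  have hF0 : ∀ f : S24.FF M,
      f ∈ F0 ↔ (f : LaurentSeries Kbar) ∈ ModularCurve.modularFunctionFieldBar N :=
    fun _ => Iff.rfl
  have hle : Kbar⟮jF M⟯ ≤ F0 := by
    rw [adjoin_simple_le_iff, hF0, coe_jF, ← coe_jF N]
    exact (jF N).2
  let ψ : Kbar⟮jF M⟯ →+* S24.FF N :=
    { toFun := fun z => ⟨((z : S24.FF M) : LaurentSeries Kbar), (hF0 _).mp (hle z.2)⟩
      map_one' := rfl
      map_mul' := fun _ _ => rfl
      map_zero' := rfl
      map_add' := fun _ _ => rfl }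
  apply RingHom.IsIntegral.tower_top ψ
  have h1 : (IntermediateField.inclusion (bar_mono h)).toRingHom.comp ψ
      = algebraMap Kbar⟮jF M⟯ (S24.FF M) := by
    ext z
    rfl
  rw [h1]
  exact algebraMap_isIntegral_iff.mpr inferInstance

/-- (LC1) -/
theorem isKummer_mono {N M : ℕ} [NeZero N] [NeZero M] (h : N ∣ M) {n : ℕ}
    {u : LaurentSeries Kbar} (hu : IsKummer (N := N) n u) : IsKummer (N := M) n u := by
  rw [isKummer_iff, FF_eq_bar] at hu ⊢
  exact hu.mono (bar_mono h) (isIntegral_inclusion_bar h)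

end Fermat.Agent.GR.D.LC
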