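import Mathlib

/-!
# GR-D: the "order lemma" used in the abstract core

`A` an integrally closed domain with fraction field `K`, `E / K` finite, `u ∈ E` integral over `A`
with `u ^ m = b • w`, `w` integral, `b` squarefree (radical).  Then `b ∣ Tr(u)`.
-/

set_option autoImplicit false
set_option linter.unusedSectionVars false

namespace Fermat.Agent.GR.D

open Polynomial

section

variable {A K E : Type*} [CommRing A] [IsDomain A] [IsIntegrallyClosed A] [Field K] [Algebra A K]
  [IsFractionRing A K] [Field E] [Algebra K E] [Algebra A E] [IsScalarTower A K E]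

/-- elements of `Ω` which are integral over `A` and nilpotent modulo `b`. -/
def radSub (A : Type*) [CommRing A] (Ω : Type*) [CommRing Ω] [Algebra A Ω] (b : A) :
    AddSubmonoid Ω where
  carrier := {x | ∃ hx : IsIntegral A x, (⟨x, hx⟩ : integralClosure A Ω) ∈
    (Ideal.span {algebraMap A (integralClosure A Ω) b}).radical}
  zero_mem' := ⟨isIntegral_zero, by
    have : (⟨0, isIntegral_zero⟩ : integralClosure A Ω) = 0 := rfl
    rw [this]; exact zero_mem _⟩
  add_mem' := by
    rintro x y ⟨hx, hx'⟩ ⟨hy, hy'⟩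
    exact ⟨hx.add hy, by
      have : (⟨x + y, hx.add hy⟩ : integralClosure A Ω) = ⟨x, hx⟩ + ⟨y, hy⟩ := rfl
      rw [this]; exact add_mem hx' hy'⟩

theorem mem_radSub_of_pow {Ω : Type*} [CommRing Ω] [Algebra A Ω] {b : A} {x w : Ω} {m : ℕ}
    (hx : IsIntegral A x) (hw : IsIntegral A w) (h : x ^ m = b • w) : x ∈ radSub A Ω b := by
  refine ⟨hx, m, ?_⟩
  rw [Ideal.mem_span_singleton]
  refine ⟨⟨w, hw⟩, Subtype.ext ?_⟩
  show x ^ m = algebraMap A Ω b * w
  rw [h, Algebra.smul_def]

theorem exists_pow_of_mem_radSub {Ω : Type*} [CommRing Ω] [Algebra A Ω] {b : A} {x : Ω}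
    (h : x ∈ radSub A Ω b) : ∃ (m : ℕ) (w : Ω), IsIntegral A w ∧ x ^ m = b • w := by
  obtain ⟨hx, m, hm⟩ := h
  rw [Ideal.mem_span_singleton] at hm
  obtain ⟨w, hw⟩ := hm
  refine ⟨m, w, w.2, ?_⟩
  have := congrArg Subtype.val hw
  rw [Algebra.smul_def]
  exact this

/-- **Order lemma.** -/
theorem dvd_trace_of_pow_eq_smul [FiniteDimensional K E] {b : A} (hb : IsRadical b) {u w : E}
    (hu : IsIntegral A u) (hw : IsIntegral A w) {m : ℕ} (h : u ^ m = b • w) :
    ∃ t : A, Algebra.trace K E u = algebraMap A K (b * t) := by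
  obtain ⟨t0, ht0⟩ := IsIntegrallyClosed.isIntegral_iff.1 (Algebra.isIntegral_trace (L := K) hu)
  rcases eq_or_ne b 0 with rfl | hb0
  · -- then `u` is nilpotent, so zero
    rw [zero_smul] at h
    rcases Nat.eq_zero_or_pos m with rfl | hm
    · simp at h
    · have : u = 0 := pow_eq_zero_iff hm.ne' |>.1 h
      exact ⟨0, by rw [this]; simp⟩
  let Ω := AlgebraicClosure K
  have hsum : algebraMap K Ω (Algebra.trace K E u) ∈ radSub A Ω b := by
    rw [trace_eq_sum_roots (IsAlgClosed.splits _)]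
    refine AddSubmonoid.nsmul_mem _ (AddSubmonoid.multiset_sum_mem _ _ ?_) _
    intro l hl
    have hl' : aeval l (minpoly K u) = 0 := (mem_aroots.1 hl).2
    obtain ⟨φ, hφ⟩ := IntermediateField.exists_algHom_of_splits_of_aeval (F := K) (E := E) (K := Ω)
      (fun s => ⟨IsIntegral.of_finite K s, IsAlgClosed.splits _⟩) hl'
    let φ' : E →ₐ[A] Ω := φ.restrictScalars A
    have h1 : l ^ m = b • φ' w := by
      rw [← hφ]
      show φ' u ^ m = _
      rw [← map_pow, h, map_smul]
    have h2 : IsIntegral A l := by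
      rw [← hφ]
      exact hu.map φ'
    exact mem_radSub_of_pow h2 (hw.map φ') h1
  obtain ⟨M, ω, hω, hM⟩ := exists_pow_of_mem_radSub hsum
  -- `ω = t0 ^ M / b ∈ K` is integral over `A`
  have hbK : algebraMap A K b ≠ 0 := by
    simpa using hb0
  have hωK : ω = algebraMap K Ω (algebraMap A K t0 ^ M / algebraMap A K b) := by
    rw [← ht0, Algebra.smul_def, IsScalarTower.algebraMap_apply A K Ω] at hM
    rw [map_div₀, map_pow, hM, mul_div_cancel_left₀]
    exact (_root_.map_ne_zero _).2 hbK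
  rw [hωK, isIntegral_algebraMap_iff (algebraMap K Ω).injective] at hω
  obtain ⟨s, hs⟩ := IsIntegrallyClosed.isIntegral_iff.1 hω
  have hdvd : b ∣ t0 ^ M := by
    refine ⟨s, ?_⟩
    apply IsFractionRing.injective A K
    rw [map_mul, hs, map_pow, mul_div_cancel₀ _ hbK]
  obtain ⟨t, ht⟩ := hb M t0 hdvd
  exact ⟨t, by rw [← ht0, ht]⟩

end

end Fermat.Agent.GR.D
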